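/-
Dimension over a base field `K` of quotients of (fractional) ideals of a Dedekind domain `B`
that is a `K`-algebra: additivity, the count of prime factors when all residue fields are `K`,
and the dimension of `traceDual B / B` in terms of ramification indices.
-/
import Mathlib

set_option linter.unusedSectionVars false

namespace Fermat.Agent.S20.RR.IdealDim

open Module UniqueFactorizationMonoid nonZeroDivisors IsDedekindDomain

section General

variable (K : Type*) [Field K] {B : Type*} [CommRing B] [Algebra K B]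

/-- Third isomorphism theorem in the form of additivity of `K`-length:
for submodules `S ≤ T` of a `B`-module `M`. -/
theorem length_quotient_eq_add {M : Type*} [AddCommGroup M] [Module B M] [Module K M]
    [IsScalarTower K B M] (S T : Submodule B M) (h : S ≤ T) :
    Module.length K (M ⧸ S) =
      Module.length K (↥T ⧸ S.comap T.subtype) + Module.length K (M ⧸ T) := by
  let T' : Submodule B (M ⧸ S) := T.map S.mkQ
  have h1 := Module.length_eq_add_of_exact (R := K) (T'.subtype.restrictScalars K)
    (T'.mkQ.restrictScalars K) T'.injective_subtype T'.mkQ_surjective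
    (LinearMap.exact_subtype_mkQ T')
  have e1 : ((M ⧸ S) ⧸ T') ≃ₗ[K] M ⧸ T :=
    (Submodule.quotientQuotientEquivQuotient S T h).restrictScalars K
  let f : ↥T →ₗ[B] M ⧸ S := S.mkQ ∘ₗ T.subtype
  have hker : LinearMap.ker f = S.comap T.subtype := by
    rw [LinearMap.ker_comp, Submodule.ker_mkQ]
  have hrange : LinearMap.range f = T' := by
    rw [LinearMap.range_comp, Submodule.range_subtype]
  have e2 : (↥T ⧸ S.comap T.subtype) ≃ₗ[K] ↥T' :=
    ((Submodule.quotEquivOfEq _ _ hker.symm).trans
      ((LinearMap.quotKerEquivRange f).trans (LinearEquiv.ofEq _ _ hrange))).restrictScalars K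
  rw [h1, e1.length_eq, e2.length_eq]

/-- Additivity of `K`-length for a chain of submodules `S ≤ T ≤ U`. -/
theorem length_quotient_chain {M : Type*} [AddCommGroup M] [Module B M] [Module K M]
    [IsScalarTower K B M] (S T U : Submodule B M) (hST : S ≤ T) (hTU : T ≤ U) :
    Module.length K (↥U ⧸ S.comap U.subtype) =
      Module.length K (↥T ⧸ S.comap T.subtype) +
        Module.length K (↥U ⧸ T.comap U.subtype) := by
  have h := length_quotient_eq_add K (S.comap U.subtype) (T.comap U.subtype)
    (Submodule.comap_mono hST)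
  rw [h]
  congr 1
  let e : ↥(T.comap U.subtype) ≃ₗ[B] ↥T := Submodule.comapSubtypeEquivOfLe hTU
  have he : Submodule.map (e : ↥(T.comap U.subtype) →ₗ[B] ↥T)
      (Submodule.comap (Submodule.comap U.subtype T).subtype (Submodule.comap U.subtype S)) =
      S.comap T.subtype := by
    ext x
    simp only [Submodule.mem_map, Submodule.mem_comap, Submodule.subtype_apply]
    constructor
    · rintro ⟨y, hy, rfl⟩
      exact hy
    · intro hx
      exact ⟨⟨⟨x.1, hTU x.2⟩, x.2⟩, hx, rfl⟩
  exact ((Submodule.Quotient.equiv _ _ e he).restrictScalars K).length_eq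

end General

section Dedekind

variable (K : Type*) [Field K] {B : Type*} [CommRing B] [IsDedekindDomain B] [Algebra K B]
  (L : Type*) [Field L] [Algebra B L] [IsFractionRing B L] [Algebra K L] [IsScalarTower K B L]

/-- The `K`-length of `J / J'` for fractional ideals `J' ≤ J` (junk otherwise). -/
noncomputable def relLength (J' J : FractionalIdeal B⁰ L) : ℕ∞ :=
  Module.length K
    (↥(J : Submodule B L) ⧸ (J' : Submodule B L).comap (J : Submodule B L).subtype)

theorem relLength_chain {J₂ J₁ J₀ : FractionalIdeal B⁰ L} (h21 : J₂ ≤ J₁) (h10 : J₁ ≤ J₀) :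
    relLength K L J₂ J₀ = relLength K L J₂ J₁ + relLength K L J₁ J₀ :=
  length_quotient_chain K (J₂ : Submodule B L) (J₁ : Submodule B L) (J₀ : Submodule B L)
    (FractionalIdeal.coe_le_coe.mpr h21) (FractionalIdeal.coe_le_coe.mpr h10)

/-- `1 / 𝔞 ≃ B / 𝔞`. -/
theorem relLength_coeIdeal_one (𝔞 : Ideal B) :
    relLength K L (𝔞 : FractionalIdeal B⁰ L) 1 = Module.length K (B ⧸ 𝔞) := by
  have hinj : Function.Injective (Algebra.linearMap B L) := IsFractionRing.injective B L
  let g : B →ₗ[B] ↥((1 : FractionalIdeal B⁰ L) : Submodule B L) :=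
    (Algebra.linearMap B L).codRestrict _ (fun b => by
      rw [FractionalIdeal.mem_coe]
      exact (FractionalIdeal.mem_one_iff B⁰).mpr ⟨b, rfl⟩)
  have hg : Function.Bijective g := by
    constructor
    · intro a b hab
      exact hinj (congrArg Subtype.val hab)
    · rintro ⟨y, hy⟩
      rw [FractionalIdeal.mem_coe] at hy
      obtain ⟨b, rfl⟩ := (FractionalIdeal.mem_one_iff B⁰).mp hy
      exact ⟨b, rfl⟩
  let e : B ≃ₗ[B] ↥((1 : FractionalIdeal B⁰ L) : Submodule B L) := LinearEquiv.ofBijective g hg
  have he : Submodule.map (e : B →ₗ[B] _) 𝔞 =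
      ((𝔞 : FractionalIdeal B⁰ L) : Submodule B L).comap
        ((1 : FractionalIdeal B⁰ L) : Submodule B L).subtype := by
    ext x
    simp only [Submodule.mem_map, Submodule.mem_comap, Submodule.subtype_apply,
      FractionalIdeal.mem_coe, FractionalIdeal.mem_coeIdeal]
    constructor
    · rintro ⟨a, ha, rfl⟩
      exact ⟨a, ha, rfl⟩
    · rintro ⟨a, ha, hax⟩
      exact ⟨a, ha, Subtype.ext hax⟩
  exact ((Submodule.Quotient.equiv _ _ e he).restrictScalars K).length_eq.symm

/-- `J / J𝔞 ≃ B / 𝔞` for a nonzero fractional ideal `J` and a nonzero ideal `𝔞`. -/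
theorem relLength_mul_coeIdeal {J : FractionalIdeal B⁰ L} (hJ : J ≠ 0) {𝔞 : Ideal B}
    (h𝔞 : 𝔞 ≠ ⊥) :
    relLength K L (J * (𝔞 : FractionalIdeal B⁰ L)) J = Module.length K (B ⧸ 𝔞) := by
  rw [← relLength_coeIdeal_one K L 𝔞]
  have h𝔞' : (𝔞 : FractionalIdeal B⁰ L) ≠ 0 := FractionalIdeal.coeIdeal_ne_zero.mpr h𝔞
  have hle : J * (𝔞 : FractionalIdeal B⁰ L) ≤ J := by
    conv_rhs => rw [← mul_one J]
    exact mul_le_mul_right FractionalIdeal.coeIdeal_le_one J
  exact ((FractionalIdeal.quotientEquiv J (J * (𝔞 : FractionalIdeal B⁰ L)) 1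
    (𝔞 : FractionalIdeal B⁰ L) (by rw [one_mul]) hle FractionalIdeal.coeIdeal_le_one h𝔞'
    hJ).restrictScalars K).length_eq

/-- Additivity of the `K`-length of `B ⧸ 𝔞` in the ideal `𝔞`. -/
theorem length_quotient_mul {𝔞 𝔟 : Ideal B} (h𝔞 : 𝔞 ≠ ⊥) (h𝔟 : 𝔟 ≠ ⊥) :
    Module.length K (B ⧸ 𝔞 * 𝔟) = Module.length K (B ⧸ 𝔞) + Module.length K (B ⧸ 𝔟) := by
  let L := FractionRing B
  have h𝔞' : (𝔞 : FractionalIdeal B⁰ L) ≠ 0 := FractionalIdeal.coeIdeal_ne_zero.mpr h𝔞
  have h1 : ((𝔞 * 𝔟 : Ideal B) : FractionalIdeal B⁰ L) ≤ (𝔞 : FractionalIdeal B⁰ L) :=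
    FractionalIdeal.coeIdeal_le_coeIdeal L |>.mpr Ideal.mul_le_left
  have h := relLength_chain K L h1 (FractionalIdeal.coeIdeal_le_one (I := 𝔞))
  rw [relLength_coeIdeal_one, relLength_coeIdeal_one, FractionalIdeal.coeIdeal_mul,
    relLength_mul_coeIdeal K L h𝔞' h𝔟, add_comm] at h
  exact h

/-- The `K`-length of `B ⧸ 𝔞` is the sum of the `K`-lengths of `B ⧸ P` over the prime factors of
`𝔞` (with multiplicity). -/
theorem length_quotient_eq_sum_normalizedFactors {𝔞 : Ideal B} (h𝔞 : 𝔞 ≠ ⊥) :
    Module.length K (B ⧸ 𝔞) =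
      ((normalizedFactors 𝔞).map (fun P : Ideal B => Module.length K (B ⧸ P))).sum := by
  induction 𝔞 using UniqueFactorizationMonoid.induction_on_prime with
  | h₁ => exact absurd rfl h𝔞
  | h₂ x hx =>
    rw [normalizedFactors_of_isUnit hx, Multiset.map_zero, Multiset.sum_zero]
    have : Subsingleton (B ⧸ x) := by
      rw [Ideal.isUnit_iff.mp hx]
      exact Ideal.Quotient.subsingleton_iff.mpr rfl
    exact Module.length_eq_zero
  | h₃ a p ha hp ih =>
    have hp0 : p ≠ ⊥ := hp.ne_zero
    rw [length_quotient_mul K hp0 ha, normalizedFactors_mul hp0 ha,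
      normalizedFactors_irreducible hp.irreducible, normalize_eq, Multiset.map_add,
      Multiset.sum_add, Multiset.map_singleton, Multiset.sum_singleton, ih ha]

/-- Finite-dimensionality from finiteness of the `K`-length. -/
theorem finite_of_length_ne_top {M : Type*} [AddCommGroup M] [Module K M]
    (h : Module.length K M ≠ ⊤) : Module.Finite K M :=
  IsNoetherian.iff_fg.mp
    (isFiniteLength_iff_isNoetherian_isArtinian.mp (Module.length_ne_top_iff.mp h)).1

/-- If the `K`-length equals a natural number `n` then the module is finite of `finrank` `n`. -/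
theorem finite_and_finrank_of_length_eq {M : Type*} [AddCommGroup M] [Module K M] {n : ℕ}
    (h : Module.length K M = n) : Module.Finite K M ∧ Module.finrank K M = n := by
  have hfin : Module.Finite K M := finite_of_length_ne_top K (by rw [h]; exact ENat.natCast_ne_top n)
  refine ⟨hfin, ?_⟩
  rw [Module.length_eq_finrank] at h
  exact_mod_cast h

/-- `ResidueFieldsEq K B`: every residue field of `B` at a height one prime is `K`. -/
def ResidueFieldsEq (K : Type*) [Field K] (B : Type*) [CommRing B] [IsDedekindDomain B]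
    [Algebra K B] : Prop :=
  ∀ v : HeightOneSpectrum B, Function.Surjective (algebraMap K (B ⧸ v.asIdeal))

variable {K}

theorem length_quotient_prime (hK : ResidueFieldsEq K B) {P : Ideal B} (hP : Prime P) :
    Module.length K (B ⧸ P) = 1 := by
  have hPp : P.IsPrime := Ideal.isPrime_of_prime hP
  have hmax : P.IsMaximal := hPp.isMaximal hP.ne_zero
  let _ := Ideal.Quotient.field P
  rw [Module.length_eq_of_surjective (R := B ⧸ P) (hK ⟨P, hPp, hP.ne_zero⟩),
    Module.length_eq_finrank, Module.finrank_self, Nat.cast_one]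

/-- If all residue fields are `K`, the `K`-length of `B ⧸ 𝔞` is the number of prime factors. -/
theorem length_quotient_eq_card (hK : ResidueFieldsEq K B) {𝔞 : Ideal B} (h𝔞 : 𝔞 ≠ ⊥) :
    Module.length K (B ⧸ 𝔞) = Multiset.card (normalizedFactors 𝔞) := by
  rw [length_quotient_eq_sum_normalizedFactors K h𝔞,
    Multiset.map_congr rfl (fun P hP => length_quotient_prime hK (prime_of_normalized_factor P hP)),
    Multiset.map_const', Multiset.sum_replicate, nsmul_eq_mul, mul_one]

theorem finite_quotient (hK : ResidueFieldsEq K B) {𝔞 : Ideal B} (h𝔞 : 𝔞 ≠ ⊥) :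
    Module.Finite K (B ⧸ 𝔞) :=
  (finite_and_finrank_of_length_eq K (length_quotient_eq_card hK h𝔞)).1

theorem finrank_quotient (hK : ResidueFieldsEq K B) {𝔞 : Ideal B} (h𝔞 : 𝔞 ≠ ⊥) :
    Module.finrank K (B ⧸ 𝔞) = Multiset.card (normalizedFactors 𝔞) :=
  (finite_and_finrank_of_length_eq K (length_quotient_eq_card hK h𝔞)).2

/-- `J / J𝔞` has `K`-length the number of prime factors of `𝔞` when all residue fields are `K`. -/
theorem relLength_mul_coeIdeal_eq_card (hK : ResidueFieldsEq K B) {J : FractionalIdeal B⁰ L}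
    (hJ : J ≠ 0) {𝔞 : Ideal B} (h𝔞 : 𝔞 ≠ ⊥) :
    relLength K L (J * (𝔞 : FractionalIdeal B⁰ L)) J = Multiset.card (normalizedFactors 𝔞) := by
  rw [relLength_mul_coeIdeal K L hJ h𝔞, length_quotient_eq_card hK h𝔞]

/-- General form: for nonzero fractional ideals `J' ≤ J`, written `J' = J * 𝔞`. -/
theorem finite_and_finrank_quotient_fractionalIdeal (hK : ResidueFieldsEq K B)
    {J J' : FractionalIdeal B⁰ L} (hJ : J ≠ 0) {𝔞 : Ideal B} (h𝔞 : 𝔞 ≠ ⊥)
    (h : J' = J * (𝔞 : FractionalIdeal B⁰ L)) :
    Module.Finite K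
        (↥(J : Submodule B L) ⧸ (J' : Submodule B L).comap (J : Submodule B L).subtype) ∧
      Module.finrank K
        (↥(J : Submodule B L) ⧸ (J' : Submodule B L).comap (J : Submodule B L).subtype) =
        Multiset.card (normalizedFactors 𝔞) := by
  subst h
  exact finite_and_finrank_of_length_eq K (relLength_mul_coeIdeal_eq_card L hK hJ h𝔞)

end Dedekind

section RestrictScalars

variable (K : Type*) [Field K] {B : Type*} [CommRing B] [Algebra K B]

/-- The relative quotient of two `B`-submodules computed after restricting scalars to `K`. -/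
theorem length_restrictScalars_quotient {M : Type*} [AddCommGroup M] [Module B M]
    [Module K M] [IsScalarTower K B M] (S T : Submodule B M) :
    Module.length K
      (↥(T.restrictScalars K) ⧸ (S.restrictScalars K).comap (T.restrictScalars K).subtype) =
      Module.length K (↥T ⧸ S.comap T.subtype) := by
  let e0 : ↥(T.restrictScalars K) ≃ₗ[K] ↥T :=
    (Submodule.restrictScalarsEquiv K B M T).restrictScalars K
  have he : Submodule.map (e0 : ↥(T.restrictScalars K) →ₗ[K] ↥T)
      ((S.restrictScalars K).comap (T.restrictScalars K).subtype) =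
      (S.comap T.subtype).restrictScalars K := by
    ext x
    simp only [Submodule.mem_map, Submodule.mem_comap, Submodule.subtype_apply,
      Submodule.restrictScalars_mem]
    constructor
    · rintro ⟨y, hy, rfl⟩
      exact hy
    · intro hx
      exact ⟨⟨x.1, x.2⟩, hx, rfl⟩
  have e1 := Submodule.Quotient.equiv _ _ e0 he
  have e2 := Submodule.Quotient.restrictScalarsEquiv K (S.comap T.subtype)
  exact (e1.trans e2).length_eq

end RestrictScalars

end Fermat.Agent.S20.RR.IdealDim
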