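/-
helper67 — P-S2021 / P-S20 (Riemann–Roch for S20).

Pure `K`-linear algebra: Euler characteristic and duality for pairs of subspaces.

`V` is a `K`-vector space, `B` a reflexive (e.g. symmetric) `K`-bilinear form on `V`.
For a pair of subspaces `(M, M')` put `h0 M M' = finrank (M ⊓ M')`, `h1 M M' = finrank (V ⧸ M ⊔ M')`.

* `h0_add_h1_of_le` (Riemann): if `M₂ ≤ M₁` with `M₁ / M₂` of finite dimension `d` then
  `h0 M₁ M' + h1 M₂ M' = h0 M₂ M' + h1 M₁ M' + d`; finiteness transfers (`finPair_iff_of_le`).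
* `finrank_perp_quot` : if moreover `M₂` is reflexive (`M₂^⊥⊥ = M₂`) then `M₂^⊥ / M₁^⊥` has the same
  finite dimension `d`.
* `duality` : if `(S, S')` is a reflexive pair with `χ(S,S') + χ(S^⊥,S'^⊥) = 0` (all terms finite)
  and `M`, `M'` are reflexive and commensurable with `S`, `S'`, and `B` is nondegenerate, then
  `h1 M M' = h0 M^⊥ M'^⊥` and `h0 M M' = h1 M^⊥ M'^⊥` (all finite).
-/
import Mathlib

namespace Fermat.Agent.S20.RR.AbstractDuality

open Module Submodule Cardinal

variable {K V : Type*} [Field K] [AddCommGroup V] [Module K V]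

/-- The relative quotient `M₁ / M₂` of two subspaces (meaningful when `M₂ ≤ M₁`). -/
abbrev RelQuot (M₂ M₁ : Submodule K V) : Type _ := ↥M₁ ⧸ M₂.submoduleOf M₁

/-- `h0` of a pair of subspaces: the dimension of the intersection. -/
noncomputable def h0 (M M' : Submodule K V) : ℕ := finrank K ↥(M ⊓ M')

/-- `h1` of a pair of subspaces: the codimension of the sum. -/
noncomputable def h1 (M M' : Submodule K V) : ℕ := finrank K (V ⧸ (M ⊔ M'))

/-- Both `h0` and `h1` of the pair are finite. -/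
def FinPair (M M' : Submodule K V) : Prop :=
  Module.Finite K ↥(M ⊓ M') ∧ Module.Finite K (V ⧸ (M ⊔ M'))

theorem h0_comm (M M' : Submodule K V) : h0 M M' = h0 M' M := by
  unfold h0; rw [inf_comm]

theorem h1_comm (M M' : Submodule K V) : h1 M M' = h1 M' M := by
  unfold h1; rw [sup_comm]

theorem finPair_comm (M M' : Submodule K V) : FinPair M M' ↔ FinPair M' M := by
  unfold FinPair; rw [inf_comm, sup_comm]

section RelQuot

/-- Monotonicity of finiteness of relative quotients: if `B / A` is finite-dimensional,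
`A ≤ A'` and `B' ≤ B`, then `B' / A'` is finite-dimensional. -/
theorem finite_relQuot_mono {A A' B B' : Submodule K V} [Module.Finite K (RelQuot A B)]
    (hA : A ≤ A') (hB : B' ≤ B) : Module.Finite K (RelQuot A' B') := by
  let f : ↥B' →ₗ[K] RelQuot A B := (A.submoduleOf B).mkQ ∘ₗ Submodule.inclusion hB
  have hker : LinearMap.ker f ≤ A'.submoduleOf B' := by
    intro m hm
    rw [LinearMap.mem_ker, LinearMap.comp_apply, mkQ_apply, Submodule.Quotient.mk_eq_zero] at hm
    exact hA hm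
  have : Module.Finite K (↥B' ⧸ LinearMap.ker f) :=
    Module.Finite.equiv (LinearMap.quotKerEquivRange f).symm
  exact Module.Finite.of_surjective (Submodule.factor hker) (Submodule.factor_surjective hker)

/-- The relative quotient `B / A` is the image of `B` in `V ⧸ A`. -/
noncomputable def relQuotEquivMap (A B : Submodule K V) :
    RelQuot A B ≃ₗ[K] ↥(B.map A.mkQ) :=
  have hker : LinearMap.ker (A.mkQ ∘ₗ B.subtype) = A.submoduleOf B := by
    ext m
    rw [LinearMap.mem_ker, LinearMap.comp_apply, mkQ_apply, Submodule.Quotient.mk_eq_zero]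
    rfl
  have hrange : LinearMap.range (A.mkQ ∘ₗ B.subtype) = B.map A.mkQ := by
    rw [LinearMap.range_comp, Submodule.range_subtype]
  (Submodule.quotEquivOfEq _ _ hker.symm).trans
    ((LinearMap.quotKerEquivRange (A.mkQ ∘ₗ B.subtype)).trans (LinearEquiv.ofEq _ _ hrange))

end RelQuot

section Riemann

variable {M₁ M₂ : Submodule K V} (h : M₂ ≤ M₁) (M' : Submodule K V)

/-- The map `M₁ → V ⧸ (M₂ ⊔ M')`. -/
noncomputable def psi (M₁ M₂ M' : Submodule K V) : ↥M₁ →ₗ[K] V ⧸ (M₂ ⊔ M') :=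
  (M₂ ⊔ M').mkQ ∘ₗ M₁.subtype

theorem submoduleOf_le_ker_psi : M₂.submoduleOf M₁ ≤ LinearMap.ker (psi M₁ M₂ M') := by
  intro m hm
  rw [LinearMap.mem_ker]
  simp only [psi, LinearMap.coe_comp, Function.comp_apply, Submodule.coe_subtype, mkQ_apply,
    Submodule.Quotient.mk_eq_zero]
  exact Submodule.mem_sup_left hm

/-- The induced map `M₁ / M₂ → V ⧸ (M₂ ⊔ M')`. -/
noncomputable def psiBar (M₁ M₂ M' : Submodule K V) : RelQuot M₂ M₁ →ₗ[K] V ⧸ (M₂ ⊔ M') :=
  (M₂.submoduleOf M₁).liftQ (psi M₁ M₂ M') (submoduleOf_le_ker_psi M')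

/-- The map `M₁ ⊓ M' → M₁ / M₂`. -/
noncomputable def theta (M₁ M₂ M' : Submodule K V) : ↥(M₁ ⊓ M') →ₗ[K] RelQuot M₂ M₁ :=
  (M₂.submoduleOf M₁).mkQ ∘ₗ Submodule.inclusion (inf_le_left : M₁ ⊓ M' ≤ M₁)

include h in
theorem range_theta_eq_ker_psiBar :
    LinearMap.range (theta M₁ M₂ M') = LinearMap.ker (psiBar M₁ M₂ M') := by
  apply le_antisymm
  · rintro _ ⟨⟨m, hm⟩, rfl⟩
    rw [LinearMap.mem_ker]
    simp only [theta, psiBar, psi, LinearMap.coe_comp, Function.comp_apply, mkQ_apply,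
      liftQ_apply, Submodule.coe_subtype, Submodule.coe_inclusion, Submodule.Quotient.mk_eq_zero]
    exact Submodule.mem_sup_right hm.2
  · intro x hx
    obtain ⟨⟨m, hm⟩, rfl⟩ := (M₂.submoduleOf M₁).mkQ_surjective x
    rw [LinearMap.mem_ker] at hx
    simp only [psiBar, psi, mkQ_apply, liftQ_apply, LinearMap.coe_comp, Function.comp_apply,
      Submodule.coe_subtype, Submodule.Quotient.mk_eq_zero] at hx
    obtain ⟨m2, hm2, m', hm', hsum⟩ := Submodule.mem_sup.mp hx
    have hm'1 : m' ∈ M₁ := by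
      have : m' = m - m2 := by rw [← hsum]; abel
      rw [this]; exact M₁.sub_mem hm (h hm2)
    refine ⟨⟨m', hm'1, hm'⟩, ?_⟩
    simp only [theta, LinearMap.coe_comp, Function.comp_apply, mkQ_apply]
    rw [Submodule.Quotient.eq]
    change (⟨m', hm'1⟩ - ⟨m, hm⟩ : ↥M₁) ∈ M₂.submoduleOf M₁
    rw [Submodule.submoduleOf, Submodule.mem_comap]
    simp only [Submodule.coe_subtype, AddSubgroupClass.coe_sub]
    have : m' - m = -m2 := by rw [← hsum]; abel
    rw [this]; exact M₂.neg_mem hm2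

theorem ker_theta : LinearMap.ker (theta M₁ M₂ M') = (M₂ ⊓ M').submoduleOf (M₁ ⊓ M') := by
  ext ⟨m, hm⟩
  rw [LinearMap.mem_ker, theta, LinearMap.comp_apply, mkQ_apply, Submodule.Quotient.mk_eq_zero]
  simp only [Submodule.submoduleOf, Submodule.mem_comap, Submodule.coe_subtype,
    Submodule.coe_inclusion, Submodule.mem_inf]
  exact ⟨fun h2 => ⟨h2, hm.2⟩, fun h2 => h2.1⟩

include h in
/-- (R0) -/
theorem rank_inf_eq :
    Module.rank K ↥(M₁ ⊓ M') =
      Module.rank K ↥(LinearMap.ker (psiBar M₁ M₂ M')) + Module.rank K ↥(M₂ ⊓ M') := by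
  have e1 := LinearMap.rank_range_add_rank_ker (theta M₁ M₂ M')
  rw [range_theta_eq_ker_psiBar h M', ker_theta M'] at e1
  rw [← e1]
  congr 1
  exact (Submodule.submoduleOfEquivOfLe
    (inf_le_inf_right M' h : M₂ ⊓ M' ≤ M₁ ⊓ M')).rank_eq

theorem range_psiBar : LinearMap.range (psiBar M₁ M₂ M') = (M₁ ⊔ M').map (M₂ ⊔ M').mkQ := by
  rw [psiBar, Submodule.range_liftQ, psi, LinearMap.range_comp, Submodule.range_subtype,
    Submodule.map_sup]
  have : M'.map (M₂ ⊔ M').mkQ = ⊥ := by
    rw [eq_bot_iff, Submodule.map_le_iff_le_comap, Submodule.comap_bot, Submodule.ker_mkQ]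
    exact le_sup_right
  rw [this, sup_bot_eq]

include h in
/-- (R1) -/
theorem rank_quot_eq :
    Module.rank K (V ⧸ (M₂ ⊔ M')) =
      Module.rank K (V ⧸ (M₁ ⊔ M')) + Module.rank K ↥(LinearMap.range (psiBar M₁ M₂ M')) := by
  have hle : M₂ ⊔ M' ≤ M₁ ⊔ M' := sup_le_sup_right h M'
  have e := (Submodule.quotientQuotientEquivQuotient (M₂ ⊔ M') (M₁ ⊔ M') hle).rank_eq
  rw [← rank_quotient_add_rank ((M₁ ⊔ M').map (M₂ ⊔ M').mkQ), e, range_psiBar]

/-- (R2) -/
theorem rank_relQuot_eq :
    Module.rank K (RelQuot M₂ M₁) =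
      Module.rank K ↥(LinearMap.range (psiBar M₁ M₂ M')) +
        Module.rank K ↥(LinearMap.ker (psiBar M₁ M₂ M')) :=
  (LinearMap.rank_range_add_rank_ker (psiBar M₁ M₂ M')).symm

include h in
/-- Finiteness of `h0`, `h1` is insensitive to a finite-dimensional change of the first subspace. -/
theorem finPair_iff_of_le [Module.Finite K (RelQuot M₂ M₁)] : FinPair M₁ M' ↔ FinPair M₂ M' := by
  have r0 := rank_inf_eq h M'
  have r1 := rank_quot_eq h M'
  have ha : Module.rank K ↥(LinearMap.ker (psiBar M₁ M₂ M')) < ℵ₀ :=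
    Module.rank_lt_aleph0_iff.mpr inferInstance
  have hb : Module.rank K ↥(LinearMap.range (psiBar M₁ M₂ M')) < ℵ₀ :=
    Module.rank_lt_aleph0_iff.mpr inferInstance
  unfold FinPair
  simp only [← Module.rank_lt_aleph0_iff (R := K)]
  rw [r0, r1, Cardinal.add_lt_aleph0_iff, Cardinal.add_lt_aleph0_iff]
  tauto

include h in
/-- **Riemann's theorem** for pairs of subspaces: enlarging the first subspace by a
`d`-dimensional quotient raises the Euler characteristic `h0 - h1` by `d`. -/
theorem h0_add_h1_of_le [Module.Finite K (RelQuot M₂ M₁)] (hfin : FinPair M₂ M') :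
    h0 M₁ M' + h1 M₂ M' = h0 M₂ M' + h1 M₁ M' + finrank K (RelQuot M₂ M₁) := by
  have hfin1 : FinPair M₁ M' := (finPair_iff_of_le h M').mpr hfin
  obtain ⟨f0, f1⟩ := hfin
  obtain ⟨g0, g1⟩ := hfin1
  have r0 := rank_inf_eq h M'
  have r1 := rank_quot_eq h M'
  have r2 := rank_relQuot_eq (M₁ := M₁) (M₂ := M₂) M'
  rw [← finrank_eq_rank, ← finrank_eq_rank, ← finrank_eq_rank] at r0 r1 r2
  unfold h0 h1
  have r0' : finrank K ↥(M₁ ⊓ M') =
      finrank K ↥(LinearMap.ker (psiBar M₁ M₂ M')) + finrank K ↥(M₂ ⊓ M') := by exact_mod_cast r0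
  have r1' : finrank K (V ⧸ (M₂ ⊔ M')) =
      finrank K (V ⧸ (M₁ ⊔ M')) + finrank K ↥(LinearMap.range (psiBar M₁ M₂ M')) := by
    exact_mod_cast r1
  have r2' : finrank K (RelQuot M₂ M₁) =
      finrank K ↥(LinearMap.range (psiBar M₁ M₂ M')) +
        finrank K ↥(LinearMap.ker (psiBar M₁ M₂ M')) := by exact_mod_cast r2
  omega

include h in
/-- Conversely, if both pairs `(M₁, M')` and `(M₂, M')` have finite `h0`, `h1`, then `M₁ / M₂` is
finite-dimensional. -/
theorem finite_relQuot_of_finPair (h1 : FinPair M₁ M') (h2 : FinPair M₂ M') :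
    Module.Finite K (RelQuot M₂ M₁) := by
  have r0 := rank_inf_eq h M'
  have r1 := rank_quot_eq h M'
  have r2 := rank_relQuot_eq (M₁ := M₁) (M₂ := M₂) M'
  obtain ⟨f0, _⟩ := h1
  obtain ⟨_, g1⟩ := h2
  rw [← Module.rank_lt_aleph0_iff (R := K)] at f0 g1 ⊢
  rw [r0, Cardinal.add_lt_aleph0_iff] at f0
  rw [r1, Cardinal.add_lt_aleph0_iff] at g1
  rw [r2, Cardinal.add_lt_aleph0_iff]
  exact ⟨g1.2, f0.1⟩

end Riemann

section RiemannRight

variable {M₁' M₂' : Submodule K V} (h : M₂' ≤ M₁') (M : Submodule K V)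

include h in
theorem finPair_iff_of_le_right [Module.Finite K (RelQuot M₂' M₁')] :
    FinPair M M₁' ↔ FinPair M M₂' := by
  rw [finPair_comm M M₁', finPair_comm M M₂']
  exact finPair_iff_of_le h M

include h in
theorem h0_add_h1_of_le_right [Module.Finite K (RelQuot M₂' M₁')] (hfin : FinPair M M₂') :
    h0 M M₁' + h1 M M₂' = h0 M M₂' + h1 M M₁' + finrank K (RelQuot M₂' M₁') := by
  rw [h0_comm M M₁', h1_comm M M₂', h0_comm M M₂', h1_comm M M₁']
  exact h0_add_h1_of_le h M ((finPair_comm _ _).mp hfin)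

include h in
theorem finite_relQuot_of_finPair_right (h1 : FinPair M M₁') (h2 : FinPair M M₂') :
    Module.Finite K (RelQuot M₂' M₁') :=
  finite_relQuot_of_finPair h M ((finPair_comm _ _).mp h1) ((finPair_comm _ _).mp h2)

end RiemannRight

section Perp

variable (B : LinearMap.BilinForm K V)

/-- `M` is closed for the orthogonality relation of `B`: `M^⊥⊥ = M`. -/
def PerpClosed (M : Submodule K V) : Prop := B.orthogonal (B.orthogonal M) = M

variable {B}

theorem PerpClosed.inf (hB : B.IsRefl) {M N : Submodule K V} (hM : PerpClosed B M)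
    (hN : PerpClosed B N) : PerpClosed B (M ⊓ N) := by
  apply le_antisymm
  · apply le_inf
    · calc B.orthogonal (B.orthogonal (M ⊓ N)) ≤ B.orthogonal (B.orthogonal M) :=
          B.orthogonal_le (B.orthogonal_le inf_le_left)
        _ = M := hM
    · calc B.orthogonal (B.orthogonal (M ⊓ N)) ≤ B.orthogonal (B.orthogonal N) :=
          B.orthogonal_le (B.orthogonal_le inf_le_right)
        _ = N := hN
  · exact B.le_orthogonal_orthogonal hB

theorem orthogonal_sup (M N : Submodule K V) :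
    B.orthogonal (M ⊔ N) = B.orthogonal M ⊓ B.orthogonal N := by
  apply le_antisymm
  · exact le_inf (B.orthogonal_le le_sup_left) (B.orthogonal_le le_sup_right)
  · intro g hg n hn
    obtain ⟨a, ha, b, hb, rfl⟩ := Submodule.mem_sup.mp hn
    have h1 : B a g = 0 := hg.1 a ha
    have h2 : B b g = 0 := hg.2 b hb
    change B (a + b) g = 0
    rw [map_add, LinearMap.add_apply, h1, h2, add_zero]

/-- `M^⊥` is always closed. -/
theorem perpClosed_orthogonal (hB : B.IsRefl) (M : Submodule K V) :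
    PerpClosed B (B.orthogonal M) :=
  le_antisymm (B.orthogonal_le (B.le_orthogonal_orthogonal hB)) (B.le_orthogonal_orthogonal hB)

variable {M₁ M₂ : Submodule K V}

/-- The pairing `M₁ × M₂^⊥ → K`. -/
noncomputable def pair0 (B : LinearMap.BilinForm K V) (M₁ M₂ : Submodule K V) :
    ↥M₁ →ₗ[K] ↥(B.orthogonal M₂) →ₗ[K] K :=
  LinearMap.domRestrict₁₂ B M₁ (B.orthogonal M₂)

theorem pair0_apply (m : ↥M₁) (g : ↥(B.orthogonal M₂)) : pair0 B M₁ M₂ m g = B m g := rfl

theorem submoduleOf_le_ker_pair0 : M₂.submoduleOf M₁ ≤ LinearMap.ker (pair0 B M₁ M₂) := by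
  intro m hm
  rw [LinearMap.mem_ker]
  ext g
  rw [pair0_apply, LinearMap.zero_apply]
  exact g.2 _ hm

/-- The pairing `(M₁ / M₂) × M₂^⊥ → K`. -/
noncomputable def pair1 (B : LinearMap.BilinForm K V) (M₁ M₂ : Submodule K V) :
    RelQuot M₂ M₁ →ₗ[K] ↥(B.orthogonal M₂) →ₗ[K] K :=
  (M₂.submoduleOf M₁).liftQ (pair0 B M₁ M₂) submoduleOf_le_ker_pair0

theorem pair1_mk (m : ↥M₁) (g : ↥(B.orthogonal M₂)) :
    pair1 B M₁ M₂ ((M₂.submoduleOf M₁).mkQ m) g = B m g := rfl

theorem submoduleOf_le_ker_pair1_flip :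
    (B.orthogonal M₁).submoduleOf (B.orthogonal M₂) ≤ LinearMap.ker (pair1 B M₁ M₂).flip := by
  intro g hg
  rw [LinearMap.mem_ker]
  refine LinearMap.ext fun x => ?_
  obtain ⟨m, rfl⟩ := (M₂.submoduleOf M₁).mkQ_surjective x
  rw [LinearMap.flip_apply, pair1_mk, LinearMap.zero_apply]
  exact hg _ m.2

/-- The pairing `(M₂^⊥ / M₁^⊥) × (M₁ / M₂) → K`. -/
noncomputable def pair2 (B : LinearMap.BilinForm K V) (M₁ M₂ : Submodule K V) :
    RelQuot (B.orthogonal M₁) (B.orthogonal M₂) →ₗ[K] RelQuot M₂ M₁ →ₗ[K] K :=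
  ((B.orthogonal M₁).submoduleOf (B.orthogonal M₂)).liftQ (pair1 B M₁ M₂).flip
    submoduleOf_le_ker_pair1_flip

theorem pair2_mk (g : ↥(B.orthogonal M₂)) (m : ↥M₁) :
    pair2 B M₁ M₂ (((B.orthogonal M₁).submoduleOf (B.orthogonal M₂)).mkQ g)
      ((M₂.submoduleOf M₁).mkQ m) = B m g := rfl

theorem pair2_injective : Function.Injective (pair2 B M₁ M₂) := by
  rw [← LinearMap.ker_eq_bot, eq_bot_iff]
  intro y hy
  obtain ⟨g, rfl⟩ := ((B.orthogonal M₁).submoduleOf (B.orthogonal M₂)).mkQ_surjective y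
  rw [LinearMap.mem_ker] at hy
  rw [Submodule.mem_bot, mkQ_apply, Submodule.Quotient.mk_eq_zero]
  intro m hm
  have := LinearMap.congr_fun hy ((M₂.submoduleOf M₁).mkQ ⟨m, hm⟩)
  rw [pair2_mk] at this
  exact this

theorem pair2_flip_injective (hB : B.IsRefl) (hM₂ : PerpClosed B M₂) :
    Function.Injective (pair2 B M₁ M₂).flip := by
  rw [← LinearMap.ker_eq_bot, eq_bot_iff]
  intro x hx
  obtain ⟨m, rfl⟩ := (M₂.submoduleOf M₁).mkQ_surjective x
  rw [LinearMap.mem_ker] at hx
  rw [Submodule.mem_bot, mkQ_apply, Submodule.Quotient.mk_eq_zero]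
  change (m : V) ∈ M₂
  rw [← hM₂]
  intro g hg
  have := LinearMap.congr_fun hx (((B.orthogonal M₁).submoduleOf (B.orthogonal M₂)).mkQ ⟨g, hg⟩)
  rw [LinearMap.flip_apply, pair2_mk] at this
  exact hB _ _ this

/-- If `M₂ ≤ M₁` with `M₂` closed and `M₁ / M₂` finite-dimensional then `M₂^⊥ / M₁^⊥` is
finite-dimensional of the same dimension. -/
theorem finite_perp_relQuot [Module.Finite K (RelQuot M₂ M₁)] :
    Module.Finite K (RelQuot (B.orthogonal M₁) (B.orthogonal M₂)) :=
  FiniteDimensional.of_injective (pair2 B M₁ M₂) pair2_injective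

theorem finrank_perp_relQuot (hB : B.IsRefl) (hM₂ : PerpClosed B M₂)
    [Module.Finite K (RelQuot M₂ M₁)] :
    finrank K (RelQuot (B.orthogonal M₁) (B.orthogonal M₂)) = finrank K (RelQuot M₂ M₁) := by
  have := finite_perp_relQuot (B := B) (M₁ := M₁) (M₂ := M₂)
  apply le_antisymm
  · calc finrank K (RelQuot (B.orthogonal M₁) (B.orthogonal M₂))
        ≤ finrank K (Module.Dual K (RelQuot M₂ M₁)) :=
          LinearMap.finrank_le_finrank_of_injective (pair2_injective (B := B))
      _ = finrank K (RelQuot M₂ M₁) := Subspace.dual_finrank_eq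
  · calc finrank K (RelQuot M₂ M₁)
        ≤ finrank K (Module.Dual K (RelQuot (B.orthogonal M₁) (B.orthogonal M₂))) :=
          LinearMap.finrank_le_finrank_of_injective (pair2_flip_injective hB hM₂)
      _ = finrank K (RelQuot (B.orthogonal M₁) (B.orthogonal M₂)) := Subspace.dual_finrank_eq

end Perp

section Duality

variable {B : LinearMap.BilinForm K V}

/-- Two subspaces are commensurable if both are finite-dimensional over their intersection. -/
def Commensurable (M N : Submodule K V) : Prop :=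
  Module.Finite K (RelQuot (M ⊓ N) M) ∧ Module.Finite K (RelQuot (M ⊓ N) N)

theorem Commensurable.symm {M N : Submodule K V} (h : Commensurable M N) :
    Commensurable N M := by
  unfold Commensurable at h ⊢
  rw [inf_comm N M]
  exact ⟨h.2, h.1⟩

theorem Commensurable.refl (M : Submodule K V) : Commensurable M M := by
  have : Module.Finite K (RelQuot (M ⊓ M) M) := by
    have : Subsingleton (RelQuot (M ⊓ M) M) := by
      rw [Submodule.Quotient.subsingleton_iff, eq_top_iff]
      intro m _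
      exact ⟨m.2, m.2⟩
    infer_instance
  exact ⟨this, this⟩

/-- If `P ≤ M, N ≤ T` and `T / P` is finite-dimensional then `M` and `N` are commensurable. -/
theorem Commensurable.of_between {P T M N : Submodule K V} [Module.Finite K (RelQuot P T)]
    (hPM : P ≤ M) (hPN : P ≤ N) (hMT : M ≤ T) (hNT : N ≤ T) : Commensurable M N :=
  ⟨finite_relQuot_mono (le_inf hPM hPN) hMT, finite_relQuot_mono (le_inf hPM hPN) hNT⟩

variable (B) in
/-- The pair `(M, M')` and its orthogonal pair `(M^⊥, M'^⊥)` have finite `h0`, `h1`, and their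
Euler characteristics add up to zero. -/
def Balanced (M M' : Submodule K V) : Prop :=
  FinPair M M' ∧ FinPair (B.orthogonal M) (B.orthogonal M') ∧
    h0 M M' + h0 (B.orthogonal M) (B.orthogonal M') =
      h1 M M' + h1 (B.orthogonal M) (B.orthogonal M')

theorem balanced_comm (M M' : Submodule K V) : Balanced B M M' ↔ Balanced B M' M := by
  unfold Balanced
  rw [finPair_comm M M', finPair_comm (B.orthogonal M) (B.orthogonal M'), h0_comm M M',
    h1_comm M M', h0_comm (B.orthogonal M) (B.orthogonal M'),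
    h1_comm (B.orthogonal M) (B.orthogonal M')]

theorem balanced_iff_of_le (hB : B.IsRefl) {M₁ M₂ : Submodule K V} (h : M₂ ≤ M₁)
    (hM₂ : PerpClosed B M₂) [Module.Finite K (RelQuot M₂ M₁)] (M' : Submodule K V) :
    Balanced B M₁ M' ↔ Balanced B M₂ M' := by
  have f1 : FinPair M₁ M' ↔ FinPair M₂ M' := finPair_iff_of_le h M'
  have hfin : Module.Finite K (RelQuot (B.orthogonal M₁) (B.orthogonal M₂)) :=
    finite_perp_relQuot
  have hle : B.orthogonal M₁ ≤ B.orthogonal M₂ := B.orthogonal_le h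
  have f2 : FinPair (B.orthogonal M₂) (B.orthogonal M') ↔
      FinPair (B.orthogonal M₁) (B.orthogonal M') := finPair_iff_of_le hle (B.orthogonal M')
  have e3 := finrank_perp_relQuot (M₁ := M₁) hB hM₂
  constructor
  · rintro ⟨a, b, c⟩
    have a2 := f1.mp a
    have b2 := f2.mpr b
    refine ⟨a2, b2, ?_⟩
    have e1 := h0_add_h1_of_le h M' a2
    have e2 := h0_add_h1_of_le hle (B.orthogonal M') b
    omega
  · rintro ⟨a, b, c⟩
    have a2 := f1.mpr a
    have b2 := f2.mp b
    refine ⟨a2, b2, ?_⟩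
    have e1 := h0_add_h1_of_le h M' a
    have e2 := h0_add_h1_of_le hle (B.orthogonal M') b2
    omega

/-- Balancedness propagates along commensurability (in both variables) between closed
subspaces. -/
theorem balanced_of_commensurable (hB : B.IsRefl) {S S' M M' : Submodule K V}
    (hS : PerpClosed B S) (hS' : PerpClosed B S') (hM : PerpClosed B M) (hM' : PerpClosed B M')
    (hc : Commensurable M S) (hc' : Commensurable M' S') (hstd : Balanced B S S') :
    Balanced B M M' := by
  obtain ⟨c1, c2⟩ := hc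
  obtain ⟨c1', c2'⟩ := hc'
  have s1 : Balanced B (M ⊓ S) S' :=
    (balanced_iff_of_le hB inf_le_right (hM.inf hB hS) S').mp hstd
  have s2 : Balanced B M S' :=
    (balanced_iff_of_le hB inf_le_left (hM.inf hB hS) S').mpr s1
  have s3 : Balanced B S' M := (balanced_comm _ _).mp s2
  have s4 : Balanced B (M' ⊓ S') M :=
    (balanced_iff_of_le hB inf_le_right (hM'.inf hB hS') M).mp s3
  have s5 : Balanced B M' M :=
    (balanced_iff_of_le hB inf_le_left (hM'.inf hB hS') M).mpr s4
  exact (balanced_comm _ _).mp s5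

/-- The pairing `(V ⧸ M ⊔ M') × (M^⊥ ⊓ M'^⊥) → K`. -/
noncomputable def pairQ (B : LinearMap.BilinForm K V) (M M' : Submodule K V) :
    (V ⧸ (M ⊔ M')) →ₗ[K] ↥(B.orthogonal M ⊓ B.orthogonal M') →ₗ[K] K :=
  (M ⊔ M').liftQ (B.compl₂ (B.orthogonal M ⊓ B.orthogonal M').subtype) (by
    intro n hn
    rw [LinearMap.mem_ker]
    ext g
    rw [LinearMap.compl₂_apply, LinearMap.zero_apply]
    have hg : (g : V) ∈ B.orthogonal (M ⊔ M') := by rw [orthogonal_sup]; exact g.2
    exact hg n hn)

theorem pairQ_mk (M M' : Submodule K V) (v : V)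
    (g : ↥(B.orthogonal M ⊓ B.orthogonal M')) :
    pairQ B M M' ((M ⊔ M').mkQ v) g = B v g := rfl

/-- For a nondegenerate form, `h0 (M^⊥, M'^⊥) ≤ h1 (M, M')`. -/
theorem h0_perp_le_h1 (hnd : B.Nondegenerate) (M M' : Submodule K V)
    [Module.Finite K (V ⧸ (M ⊔ M'))] :
    h0 (B.orthogonal M) (B.orthogonal M') ≤ h1 M M' := by
  have hinj : Function.Injective (pairQ B M M').flip := by
    rw [← LinearMap.ker_eq_bot, eq_bot_iff]
    intro g hg
    rw [LinearMap.mem_ker] at hg
    rw [Submodule.mem_bot]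
    apply Subtype.ext
    apply hnd.2
    intro v
    have := LinearMap.congr_fun hg ((M ⊔ M').mkQ v)
    rw [LinearMap.flip_apply, pairQ_mk] at this
    exact this
  calc h0 (B.orthogonal M) (B.orthogonal M')
      ≤ finrank K (Module.Dual K (V ⧸ (M ⊔ M'))) :=
        LinearMap.finrank_le_finrank_of_injective hinj
    _ = h1 M M' := Subspace.dual_finrank_eq

/-- **Abstract Serre duality for pairs of subspaces.**  Let `B` be a nondegenerate reflexive
bilinear form, `(S, S')` a pair of closed subspaces which is balanced (finite `h0`, `h1` for the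
pair and its orthogonal pair, with `χ + χ^⊥ = 0`).  Then for all closed `M`, `M'` commensurable
with `S`, `S'`, all of `h0`, `h1` are finite and
`h1 (M, M') = h0 (M^⊥, M'^⊥)`, `h0 (M, M') = h1 (M^⊥, M'^⊥)`. -/
theorem duality (hB : B.IsRefl) (hnd : B.Nondegenerate) {S S' M M' : Submodule K V}
    (hS : PerpClosed B S) (hS' : PerpClosed B S') (hM : PerpClosed B M) (hM' : PerpClosed B M')
    (hc : Commensurable M S) (hc' : Commensurable M' S') (hstd : Balanced B S S') :
    FinPair M M' ∧ FinPair (B.orthogonal M) (B.orthogonal M') ∧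
      h1 M M' = h0 (B.orthogonal M) (B.orthogonal M') ∧
      h0 M M' = h1 (B.orthogonal M) (B.orthogonal M') := by
  obtain ⟨f, g, e⟩ := balanced_of_commensurable hB hS hS' hM hM' hc hc' hstd
  refine ⟨f, g, ?_⟩
  have := f.2
  have := g.2
  have i1 := h0_perp_le_h1 hnd M M'
  have i2 := h0_perp_le_h1 hnd (B.orthogonal M) (B.orthogonal M')
  rw [show B.orthogonal (B.orthogonal M) = M from hM,
    show B.orthogonal (B.orthogonal M') = M' from hM'] at i2
  omega

/-- **Abstract Riemann–Hurwitz relation.**  If the pair `(M, M')` satisfies duality, `M ≤ M^⊥`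
with `d = dim M^⊥ / M`, and `T` contains both `M'` and `M'^⊥` with `d' = dim T / M'`,
`t = dim T / M'^⊥`, then `2 h1 + t = 2 h0 + d + d'`. -/
theorem two_mul_h1_add_eq {M M' T : Submodule K V} (hfin : FinPair M M')
    (hfin' : FinPair (B.orthogonal M) (B.orthogonal M'))
    (hd1 : h1 M M' = h0 (B.orthogonal M) (B.orthogonal M'))
    (hd0 : h0 M M' = h1 (B.orthogonal M) (B.orthogonal M'))
    (hM : M ≤ B.orthogonal M) [Module.Finite K (RelQuot M (B.orthogonal M))]
    (hT : M' ≤ T) (hT' : B.orthogonal M' ≤ T) [Module.Finite K (RelQuot M' T)]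
    [Module.Finite K (RelQuot (B.orthogonal M') T)] :
    2 * h1 M M' + finrank K (RelQuot (B.orthogonal M') T) =
      2 * h0 M M' + finrank K (RelQuot M (B.orthogonal M)) + finrank K (RelQuot M' T) := by
  have g1 : FinPair M (B.orthogonal M') := (finPair_iff_of_le hM _).mp hfin'
  have e1 := h0_add_h1_of_le hM (B.orthogonal M') g1
  have e2 := h0_add_h1_of_le_right hT' M g1
  have e3 := h0_add_h1_of_le_right hT M hfin
  omega

end Duality

end Fermat.Agent.S20.RR.AbstractDuality
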