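/-
Riemann-Roch for function fields via lattice pairs: abstract data of the projective line.
`E` plays the role of `k(x)`, `R` of `k[x]`, `S` of the local ring at infinity and `ρ` of the
coefficient of `x⁻¹` (minus the residue at infinity of `h dx`).
-/
import Mathlib

set_option autoImplicit false

namespace Fermat.Agent.S20.RR

/-- Abstract data describing the projective line over `k` with function field `E`. -/
structure LineData (k E : Type*) [Field k] [Field E] [Algebra k E] where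
  R : Subalgebra k E
  S : Subalgebra k E
  x : E
  ρ : E →ₗ[k] k
  x_mem : x ∈ R
  x_ne_zero : x ≠ 0
  inv_mem : x⁻¹ ∈ S
  exists_add : ∀ h : E, ∃ r ∈ R, ∃ s ∈ S, h = r + x⁻¹ * s
  S_split : ∀ s ∈ S, ∃ c : k, ∃ s' ∈ S, s = algebraMap k E c + x⁻¹ * s'
  R_inter : ∀ r ∈ R, ∀ s ∈ S, r = x⁻¹ * s → r = 0
  exists_pow : ∀ h : E, ∃ m : ℕ, x⁻¹ ^ m * h ∈ S
  rho_R : ∀ r ∈ R, ρ r = 0
  rho_S : ∀ s ∈ S, ρ (x⁻¹ ^ 2 * s) = 0
  rho_inv : ρ x⁻¹ = 1
  mem_R_of_rho : ∀ h : E, (∀ r ∈ R, ρ (r * h) = 0) → h ∈ R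
  mem_S_of_rho : ∀ h : E, (∀ s ∈ S, ρ (s * h) = 0) → ∃ s ∈ S, h = x⁻¹ ^ 2 * s

namespace LineData

variable {k E : Type*} [Field k] [Field E] [Algebra k E] (L : LineData k E)

theorem pow_mem_R (n : ℕ) : L.x ^ n ∈ L.R := L.R.pow_mem L.x_mem n

theorem inv_pow_mem_S (n : ℕ) : L.x⁻¹ ^ n ∈ L.S := L.S.pow_mem L.inv_mem n

theorem inv_ne_zero : L.x⁻¹ ≠ 0 := _root_.inv_ne_zero L.x_ne_zero

/-- Expansion of an arbitrary element: polynomial part, finitely many negative powers, and a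
remainder which is small at infinity. -/
theorem exists_expansion (m : ℕ) (h : E) :
    ∃ r ∈ L.R, ∃ c : ℕ → k, ∃ s ∈ L.S,
      h = r + (∑ l ∈ Finset.range m, algebraMap k E (c l) * L.x⁻¹ ^ (l + 1))
        + L.x⁻¹ ^ (m + 1) * s := by
  induction m with
  | zero =>
    obtain ⟨r, hr, s, hs, rfl⟩ := L.exists_add h
    exact ⟨r, hr, fun _ => 0, s, hs, by simp⟩
  | succ m ih =>
    obtain ⟨r, hr, c, s, hs, hh⟩ := ih
    obtain ⟨a, s', hs', rfl⟩ := L.S_split s hs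
    refine ⟨r, hr, fun l => if l = m then a else c l, s', hs', ?_⟩
    rw [hh, Finset.sum_range_succ]
    have h1 : ∑ l ∈ Finset.range m, algebraMap k E (if l = m then a else c l) * L.x⁻¹ ^ (l + 1)
        = ∑ l ∈ Finset.range m, algebraMap k E (c l) * L.x⁻¹ ^ (l + 1) := by
      refine Finset.sum_congr rfl fun l hl => ?_
      rw [if_neg (Finset.mem_range.mp hl).ne]
    rw [h1]
    simp only [if_true]
    ring

/-- `ρ` on integral powers of `x`. -/
theorem rho_zpow (a : ℤ) : L.ρ (L.x ^ a) = if a = -1 then 1 else 0 := by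
  by_cases h1 : a = -1
  · subst h1
    rw [if_pos rfl, zpow_neg_one, L.rho_inv]
  rw [if_neg h1]
  rcases lt_or_ge a 0 with h | h
  · have h2 : a ≤ -2 := by omega
    obtain ⟨n, hn⟩ : ∃ n : ℕ, a = -2 - n := ⟨(-2 - a).toNat, by omega⟩
    have : L.x ^ a = L.x⁻¹ ^ 2 * L.x⁻¹ ^ n := by
      rw [hn, ← pow_add, inv_pow, ← zpow_natCast, ← zpow_neg]
      congr 1
      push_cast
      ring
    rw [this]
    exact L.rho_S _ (L.inv_pow_mem_S n)
  · obtain ⟨n, rfl⟩ := Int.eq_ofNat_of_zero_le h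
    rw [zpow_natCast]
    exact L.rho_R _ (L.pow_mem_R n)

end LineData

end Fermat.Agent.S20.RR
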