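/-
Lattice pairs over the projective line: finiteness of `H⁰ = M ⊓ M'` and `H¹ = V ⧸ (M ⊔ M')`,
and duality `dim H¹(M, M') = dim H⁰(M^⊥, M'^⊥)` with respect to `ρ ∘ τ`.
-/
import Fermat.Agent.S20.RR.LineData

set_option autoImplicit false
set_option linter.unusedSectionVars false

namespace Fermat.Agent.S20.RR

open Module

variable {k E : Type*} [Field k] [Field E] [Algebra k E] (L : LineData k E)
variable {V : Type*} [AddCommGroup V] [Module E V] [Module k V] [IsScalarTower k E V]

/-- The `k`-span of `A • b i`, for a subalgebra `A` of `E`. -/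
def spanOver (A : Subalgebra k E) {ι : Type*} (b : ι → V) : Submodule k V :=
  Submodule.span k {v | ∃ a ∈ A, ∃ i, v = a • b i}

theorem smul_mem_spanOver (A : Subalgebra k E) {ι : Type*} (b : ι → V) {a : E} (ha : a ∈ A)
    (i : ι) : a • b i ∈ spanOver A b :=
  Submodule.subset_span ⟨a, ha, i, rfl⟩

theorem sum_smul_mem_spanOver (A : Subalgebra k E) {ι : Type*} [Fintype ι] (b : ι → V)
    {a : ι → E} (ha : ∀ i, a i ∈ A) : ∑ i, a i • b i ∈ spanOver A b :=
  Submodule.sum_mem _ fun i _ => smul_mem_spanOver A b (ha i) i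

theorem mem_spanOver_iff (A : Subalgebra k E) {ι : Type*} [Fintype ι] [DecidableEq ι]
    (b : ι → V) {v : V} :
    v ∈ spanOver A b ↔ ∃ a : ι → E, (∀ i, a i ∈ A) ∧ v = ∑ i, a i • b i := by
  constructor
  · intro hv
    induction hv using Submodule.span_induction with
    | mem v hv =>
      obtain ⟨a, ha, i, rfl⟩ := hv
      refine ⟨Pi.single i a, fun j => ?_, ?_⟩
      · by_cases hj : j = i
        · subst hj; rw [Pi.single_eq_same]; exact ha
        · rw [Pi.single_eq_of_ne hj]; exact A.zero_mem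
      · rw [Finset.sum_eq_single i]
        · rw [Pi.single_eq_same]
        · intro j _ hj; rw [Pi.single_eq_of_ne hj, zero_smul]
        · intro h; exact absurd (Finset.mem_univ i) h
    | zero => exact ⟨0, fun _ => A.zero_mem, by simp⟩
    | add v w _ _ hv hw =>
      obtain ⟨a, ha, rfl⟩ := hv
      obtain ⟨a', ha', rfl⟩ := hw
      exact ⟨a + a', fun i => A.add_mem (ha i) (ha' i), by
        simp only [Pi.add_apply, add_smul, Finset.sum_add_distrib]⟩
    | smul c v _ hv =>
      obtain ⟨a, ha, rfl⟩ := hv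
      refine ⟨fun i => c • a i, fun i => A.smul_mem (ha i) c, ?_⟩
      rw [Finset.smul_sum]
      refine Finset.sum_congr rfl fun i _ => ?_
      rw [smul_assoc]
  · rintro ⟨a, ha, rfl⟩
    exact sum_smul_mem_spanOver A b ha

/-- `M` is stable under multiplication by the subalgebra `A`. -/
def StableUnder (A : Subalgebra k E) (M : Submodule k V) : Prop :=
  ∀ a ∈ A, ∀ m ∈ M, a • m ∈ M

theorem stableUnder_spanOver (A : Subalgebra k E) {ι : Type*} (b : ι → V) :
    StableUnder A (spanOver A b) := by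
  intro a ha m hm
  induction hm using Submodule.span_induction with
  | mem v hv =>
    obtain ⟨a', ha', i, rfl⟩ := hv
    rw [smul_smul]
    exact smul_mem_spanOver A b (A.mul_mem ha ha') i
  | zero => rw [smul_zero]; exact Submodule.zero_mem _
  | add v w _ _ hv hw => rw [smul_add]; exact Submodule.add_mem _ hv hw
  | smul c v _ hv => rw [smul_comm]; exact Submodule.smul_mem _ c hv

/-- Shrinking the basis at infinity shrinks the span. -/
theorem spanOver_S_succ_le {ι : Type*} (b : ι → V) (m : ℕ) :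
    spanOver L.S (fun i => L.x⁻¹ ^ (m + 1) • b i) ≤ spanOver L.S (fun i => L.x⁻¹ ^ m • b i) := by
  refine Submodule.span_le.mpr ?_
  rintro v ⟨a, ha, i, rfl⟩
  have : a • L.x⁻¹ ^ (m + 1) • b i = (a * L.x⁻¹) • L.x⁻¹ ^ m • b i := by
    rw [smul_smul, smul_smul, pow_succ]; ring_nf
  rw [this]
  exact smul_mem_spanOver L.S _ (L.S.mul_mem ha L.inv_mem) i

theorem spanOver_S_add_le {ι : Type*} (b : ι → V) (m n : ℕ) :
    spanOver L.S (fun i => L.x⁻¹ ^ (m + n) • b i) ≤ spanOver L.S (fun i => L.x⁻¹ ^ m • b i) := by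
  induction n with
  | zero => exact le_rfl
  | succ n ih => exact (spanOver_S_succ_le L b (m + n)).trans ih

section Finiteness

variable {ι : Type*} [Fintype ι] [DecidableEq ι] (b : Basis ι E V)

/-- The finitely many vectors `x⁻¹ ^ (l + 1) • b i`, `l < m`, which span `V` modulo
`R b + x⁻¹ ^ (m + 1) S b`. -/
noncomputable def testVec (m : ℕ) : ι × Fin m → V := fun p => L.x⁻¹ ^ ((p.2 : ℕ) + 1) • b p.1

theorem exists_decomp (m : ℕ) (v : V) :
    ∃ v₁ ∈ spanOver L.R b, ∃ c : ι × Fin m → k,
      ∃ v₃ ∈ spanOver L.S (fun i => L.x⁻¹ ^ (m + 1) • b i),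
      v = v₁ + ∑ p, c p • testVec L b m p + v₃ := by
  have hv : v = ∑ i, b.repr v i • b i := (b.sum_repr v).symm
  choose r hr c s hs hh using fun i => L.exists_expansion m (b.repr v i)
  refine ⟨∑ i, r i • b i, sum_smul_mem_spanOver L.R b hr, fun p => c p.1 p.2,
    ∑ i, s i • (L.x⁻¹ ^ (m + 1) • b i), sum_smul_mem_spanOver L.S _ hs, ?_⟩
  rw [Fintype.sum_prod_type, ← Finset.sum_add_distrib, ← Finset.sum_add_distrib]
  conv_lhs => rw [hv]
  refine Finset.sum_congr rfl fun i _ => ?_
  conv_lhs => rw [hh i]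
  rw [add_smul, add_smul, Finset.sum_smul, Finset.sum_fin_eq_sum_range]
  congr 1
  · congr 1
    refine Finset.sum_congr rfl fun l hl => ?_
    rw [dif_pos (Finset.mem_range.mp hl)]
    simp only [testVec]
    rw [mul_smul, algebraMap_smul]
  · rw [smul_smul, mul_comm]

/-- `H¹` of a lattice pair is finite dimensional. -/
theorem finiteDimensional_quotient {M M' : Submodule k V} (hM : spanOver L.R b ≤ M) (m : ℕ)
    (hM' : spanOver L.S (fun i => L.x⁻¹ ^ (m + 1) • b i) ≤ M') :
    FiniteDimensional k (V ⧸ (M ⊔ M')) := by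
  classical
  let T : Submodule k V := Submodule.span k (Set.range (testVec L b m))
  have hT : FiniteDimensional k T := FiniteDimensional.span_of_finite k (Set.finite_range _)
  let f : T →ₗ[k] V ⧸ (M ⊔ M') := (M ⊔ M').mkQ.comp T.subtype
  have hf : Function.Surjective f := by
    intro y
    obtain ⟨v, rfl⟩ := (M ⊔ M').mkQ_surjective y
    obtain ⟨v₁, hv₁, c, v₃, hv₃, rfl⟩ := exists_decomp L b m v
    refine ⟨⟨∑ p, c p • testVec L b m p, Submodule.sum_mem _ fun p _ =>
      Submodule.smul_mem _ _ (Submodule.subset_span ⟨p, rfl⟩)⟩, ?_⟩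
    simp only [f, LinearMap.comp_apply, Submodule.subtype_apply, Submodule.mkQ_apply]
    rw [Submodule.Quotient.eq]
    have : ∑ p, c p • testVec L b m p - (v₁ + ∑ p, c p • testVec L b m p + v₃) = -(v₁ + v₃) := by
      abel
    rw [this]
    exact Submodule.neg_mem _ (Submodule.add_mem _ (Submodule.mem_sup_left (hM hv₁))
      (Submodule.mem_sup_right (hM' hv₃)))
  exact Module.Finite.of_surjective f hf

/-- Elements of `R ∩ x ^ m S` are polynomials of degree at most `m`. -/
theorem mem_span_pow_of_mem_R_of_eq (m : ℕ) :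
    ∀ r ∈ L.R, ∀ s ∈ L.S, r = L.x ^ m * s →
      r ∈ Submodule.span k (Set.range fun j : Fin (m + 1) => L.x ^ (j : ℕ)) := by
  induction m with
  | zero =>
    intro r hr s hs h
    rw [pow_zero, one_mul] at h
    obtain ⟨c, s', hs', hs2⟩ := L.S_split s hs
    have h0 : r - algebraMap k E c = 0 := by
      refine L.R_inter _ (L.R.sub_mem hr (L.R.algebraMap_mem c)) s' hs' ?_
      rw [h, hs2]; ring
    have : r = c • (L.x ^ ((0 : Fin 1) : ℕ)) := by
      rw [Fin.val_zero, pow_zero, Algebra.smul_def, mul_one]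
      exact sub_eq_zero.mp h0
    rw [this]
    exact Submodule.smul_mem _ _ (Submodule.subset_span ⟨0, rfl⟩)
  | succ m ih =>
    intro r hr s hs h
    obtain ⟨c, s', hs', hs2⟩ := L.S_split s hs
    have h1 : r - algebraMap k E c * L.x ^ (m + 1) = L.x ^ m * s' := by
      rw [h, hs2, pow_succ]
      field_simp [L.x_ne_zero]
      ring
    have h2 := ih (r - algebraMap k E c * L.x ^ (m + 1))
      (L.R.sub_mem hr (L.R.mul_mem (L.R.algebraMap_mem c) (L.pow_mem_R _))) s' hs' h1
    have h3 : Submodule.span k (Set.range fun j : Fin (m + 1) => L.x ^ (j : ℕ)) ≤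
        Submodule.span k (Set.range fun j : Fin (m + 1 + 1) => L.x ^ (j : ℕ)) := by
      refine Submodule.span_mono ?_
      rintro _ ⟨j, rfl⟩
      exact ⟨j.castSucc, rfl⟩
    have h4 : algebraMap k E c * L.x ^ (m + 1) ∈
        Submodule.span k (Set.range fun j : Fin (m + 1 + 1) => L.x ^ (j : ℕ)) := by
      rw [← Algebra.smul_def]
      exact Submodule.smul_mem _ _ (Submodule.subset_span ⟨Fin.last (m + 1), rfl⟩)
    have := Submodule.add_mem _ (h3 h2) h4
    rwa [sub_add_cancel] at this

/-- `H⁰` of a lattice pair is finite dimensional. -/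
theorem finiteDimensional_inf {M M' : Submodule k V} (hM : M ≤ spanOver L.R b) (m : ℕ)
    (hM' : M' ≤ spanOver L.S (fun i => L.x ^ m • b i)) :
    FiniteDimensional k ↥(M ⊓ M') := by
  classical
  let T : Submodule k V :=
    Submodule.span k (Set.range fun p : ι × Fin (m + 1) => L.x ^ (p.2 : ℕ) • b p.1)
  have hT : FiniteDimensional k T := FiniteDimensional.span_of_finite k (Set.finite_range _)
  have hle : M ⊓ M' ≤ T := by
    rintro v ⟨hv, hv'⟩
    obtain ⟨a, ha, hva⟩ := (mem_spanOver_iff L.R b).mp (hM hv)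
    obtain ⟨a', ha', hva'⟩ := (mem_spanOver_iff L.S _).mp (hM' hv')
    have heq : ∀ i, a i = L.x ^ m * a' i := by
      intro i
      have h1 : b.repr v i = a i := by
        rw [hva, map_sum, Finset.sum_apply']
        simp [Finsupp.single_apply]
      have h2 : b.repr v i = L.x ^ m * a' i := by
        rw [hva', map_sum, Finset.sum_apply']
        simp [Finsupp.single_apply, smul_smul, mul_comm]
      rw [← h1, h2]
    rw [hva]
    refine Submodule.sum_mem _ fun i _ => ?_
    have h3 := mem_span_pow_of_mem_R_of_eq L m (a i) (ha i) (a' i) (ha' i) (heq i)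
    -- push the span through `• b i`
    let g : E →ₗ[k] V := (LinearMap.toSpanSingleton E V (b i)).restrictScalars k
    have h4 : g (a i) ∈ Submodule.map g
        (Submodule.span k (Set.range fun j : Fin (m + 1) => L.x ^ (j : ℕ))) :=
      Submodule.mem_map_of_mem h3
    rw [Submodule.map_span] at h4
    refine Submodule.span_mono ?_ h4
    rintro _ ⟨_, ⟨j, rfl⟩, rfl⟩
    exact ⟨(i, j), rfl⟩
  exact Submodule.finiteDimensional_of_le hle

end Finiteness

end Fermat.Agent.S20.RR
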