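/-
Duality for lattice pairs: `dim V ⧸ (M ⊔ M') = dim (M^⊥ ⊓ M'^⊥)` for the pairing `ρ ∘ τ`.
-/
import Fermat.Agent.S20.RR.LatticePair

set_option autoImplicit false
set_option linter.unusedSectionVars false

namespace Fermat.Agent.S20.RR

open Module

variable {k E : Type*} [Field k] [Field E] [Algebra k E] (L : LineData k E)
variable {V : Type*} [AddCommGroup V] [Module E V] [Module k V] [IsScalarTower k E V]
variable (τ : LinearMap.BilinForm E V)

/-- The `k`-bilinear pairing `(y, z) ↦ ρ (τ y z)`. -/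
noncomputable def pairing : V →ₗ[k] V →ₗ[k] k :=
  LinearMap.mk₂ k (fun y z => L.ρ (τ y z))
    (fun y y' z => by simp only [map_add, LinearMap.add_apply])
    (fun c y z => by
      rw [← algebraMap_smul E c y, map_smul, LinearMap.smul_apply, smul_eq_mul,
        ← Algebra.smul_def, map_smul])
    (fun y z z' => by simp only [map_add])
    (fun c y z => by
      rw [← algebraMap_smul E c z, map_smul, smul_eq_mul, ← Algebra.smul_def, map_smul])

@[simp] theorem pairing_apply (y z : V) : pairing L τ y z = L.ρ (τ y z) := rfl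

/-- The `R`-dual of `M`. -/
def dualR (M : Submodule k V) : Submodule k V where
  carrier := {z | ∀ m ∈ M, τ m z ∈ L.R}
  zero_mem' := fun m _ => by rw [map_zero]; exact L.R.zero_mem
  add_mem' := fun {z z'} hz hz' m hm => by rw [map_add]; exact L.R.add_mem (hz m hm) (hz' m hm)
  smul_mem' := fun c z hz m hm => by
    rw [← algebraMap_smul E c z, map_smul, smul_eq_mul]
    exact L.R.mul_mem (L.R.algebraMap_mem c) (hz m hm)

/-- The dual of `M'` at infinity, twisted by `x⁻²` (the canonical divisor of the line). -/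
def dualS (M' : Submodule k V) : Submodule k V where
  carrier := {z | ∀ m ∈ M', ∃ s ∈ L.S, τ m z = L.x⁻¹ ^ 2 * s}
  zero_mem' := fun m _ => ⟨0, L.S.zero_mem, by rw [map_zero, mul_zero]⟩
  add_mem' := fun {z z'} hz hz' m hm => by
    obtain ⟨s, hs, h⟩ := hz m hm
    obtain ⟨s', hs', h'⟩ := hz' m hm
    exact ⟨s + s', L.S.add_mem hs hs', by rw [map_add, h, h', mul_add]⟩
  smul_mem' := fun c z hz m hm => by
    obtain ⟨s, hs, h⟩ := hz m hm
    refine ⟨algebraMap k E c * s, L.S.mul_mem (L.S.algebraMap_mem c) hs, ?_⟩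
    rw [← algebraMap_smul E c z, map_smul, smul_eq_mul, h]; ring

theorem mem_dualR {M : Submodule k V} {z : V} : z ∈ dualR L τ M ↔ ∀ m ∈ M, τ m z ∈ L.R := Iff.rfl

theorem mem_dualS {M' : Submodule k V} {z : V} :
    z ∈ dualS L τ M' ↔ ∀ m ∈ M', ∃ s ∈ L.S, τ m z = L.x⁻¹ ^ 2 * s := Iff.rfl

/-- If the pairing with `z` kills an `R`-stable `M` then `z` is in the `R`-dual. -/
theorem mem_dualR_of_pairing {M : Submodule k V} (hM : StableUnder L.R M) {z : V}
    (hz : ∀ m ∈ M, pairing L τ m z = 0) : z ∈ dualR L τ M := by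
  intro m hm
  refine L.mem_R_of_rho _ fun r hr => ?_
  have := hz (r • m) (hM r hr m hm)
  rwa [pairing_apply, map_smul, LinearMap.smul_apply, smul_eq_mul] at this

theorem mem_dualS_of_pairing {M' : Submodule k V} (hM' : StableUnder L.S M') {z : V}
    (hz : ∀ m ∈ M', pairing L τ m z = 0) : z ∈ dualS L τ M' := by
  intro m hm
  refine L.mem_S_of_rho _ fun s hs => ?_
  have := hz (s • m) (hM' s hs m hm)
  rwa [pairing_apply, map_smul, LinearMap.smul_apply, smul_eq_mul] at this

theorem pairing_eq_zero_of_mem_dualR {M : Submodule k V} {z : V} (hz : z ∈ dualR L τ M)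
    {m : V} (hm : m ∈ M) : pairing L τ m z = 0 :=
  L.rho_R _ (hz m hm)

theorem pairing_eq_zero_of_mem_dualS {M' : Submodule k V} {z : V} (hz : z ∈ dualS L τ M')
    {m : V} (hm : m ∈ M') : pairing L τ m z = 0 := by
  obtain ⟨s, hs, h⟩ := hz m hm
  rw [pairing_apply, h]
  exact L.rho_S s hs

/-- Nondegeneracy of the `k`-valued pairing. -/
theorem eq_zero_of_pairing_eq_zero (hτ : τ.Nondegenerate) {z : V}
    (hz : ∀ y, pairing L τ y z = 0) : z = 0 := by
  have h0 : ∀ y, τ y z = 0 := by
    intro y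
    by_contra hne
    have := hz ((L.x⁻¹ * (τ y z)⁻¹) • y)
    rw [pairing_apply, map_smul, LinearMap.smul_apply, smul_eq_mul, mul_assoc,
      inv_mul_cancel₀ hne, mul_one, L.rho_inv] at this
    exact one_ne_zero this
  exact hτ.2 z h0

end Fermat.Agent.S20.RR
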