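/-
helper67 — P-S20 (Riemann–Roch for S20).

Serre duality for lattice pairs over the projective line `L : LineData k E`:
for `τ` a symmetric nondegenerate `E`-bilinear form on `V` and the `k`-bilinear pairing
`pairing L τ = ρ ∘ τ`, every pair `(M, M')` of a closed `R`-lattice and a closed `S`-lattice has
finite `h0`, `h1` and `h1 (M, M') = h0 (M^⊥, M'^⊥)`, `h0 (M, M') = h1 (M^⊥, M'^⊥)`.
-/
import Fermat.Agent.S20.RR.Duality
import Fermat.Agent.S20.RR.AbstractDuality

set_option autoImplicit false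
set_option linter.unusedSectionVars false

namespace Fermat.Agent.S20.RR.LatticeDuality

open Module
open Fermat.Agent.S20.RR.AbstractDuality

variable {k E : Type*} [Field k] [Field E] [Algebra k E] (L : LineData k E)
variable {V : Type*} [AddCommGroup V] [Module E V] [Module k V] [IsScalarTower k E V]
variable {ι : Type*}

section Scaling

theorem spanOver_le_iff (A : Subalgebra k E) (w : ι → V) {M : Submodule k V} :
    spanOver A w ≤ M ↔ ∀ a ∈ A, ∀ i, a • w i ∈ M := by
  constructor
  · intro h a ha i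
    exact h (smul_mem_spanOver A w ha i)
  · intro h
    refine Submodule.span_le.mpr ?_
    rintro _ ⟨a, ha, i, rfl⟩
    exact h a ha i

theorem mem_spanOver_self (A : Subalgebra k E) (w : ι → V) (i : ι) : w i ∈ spanOver A w := by
  have := smul_mem_spanOver A w A.one_mem i
  rwa [one_smul] at this

theorem smul_mem_spanOver_smul (A : Subalgebra k E) (w : ι → V) (e : E) {v : V}
    (hv : v ∈ spanOver A w) : e • v ∈ spanOver A (fun i => e • w i) := by
  induction hv using Submodule.span_induction with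
  | mem v hv =>
    obtain ⟨a, ha, i, rfl⟩ := hv
    rw [smul_comm]
    exact smul_mem_spanOver A _ ha i
  | zero => rw [smul_zero]; exact Submodule.zero_mem _
  | add v w' _ _ hv hw => rw [smul_add]; exact Submodule.add_mem _ hv hw
  | smul c v _ hv => rw [smul_comm]; exact Submodule.smul_mem _ c hv

theorem spanOver_smul_le_of_mem (A : Subalgebra k E) (w : ι → V) {e e' : E} (he' : e' ≠ 0)
    (h : e * e'⁻¹ ∈ A) : spanOver A (fun i => e • w i) ≤ spanOver A (fun i => e' • w i) := by
  rw [spanOver_le_iff]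
  intro a ha i
  have : a • e • w i = (a * (e * e'⁻¹)) • (e' • w i) := by
    rw [smul_smul, smul_smul]
    congr 1
    field_simp
  rw [this]
  exact smul_mem_spanOver A _ (A.mul_mem ha h) i

omit [IsScalarTower k E V] in
theorem spanOver_one_smul (A : Subalgebra k E) (w : ι → V) :
    spanOver A (fun i => (1 : E) • w i) = spanOver A w := by
  simp only [one_smul]

/-- A power of `x⁻¹` clearing the "pole at infinity" of two elements at once. -/
theorem exists_pow_mem_S₂ (h₁ h₂ : E) : ∃ m : ℕ, L.x⁻¹ ^ m * h₁ ∈ L.S ∧ L.x⁻¹ ^ m * h₂ ∈ L.S := by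
  obtain ⟨m₁, hm₁⟩ := L.exists_pow h₁
  obtain ⟨m₂, hm₂⟩ := L.exists_pow h₂
  refine ⟨m₁ + m₂, ?_, ?_⟩
  · rw [pow_add, mul_comm (L.x⁻¹ ^ m₁), mul_assoc]
    exact L.S.mul_mem (L.inv_pow_mem_S m₂) hm₁
  · rw [pow_add, mul_assoc]
    exact L.S.mul_mem (L.inv_pow_mem_S m₁) hm₂

end Scaling

section Finiteness

variable [Fintype ι] [DecidableEq ι] (b : Basis ι E V)

/-- Scaled standard lattices have finite `h0` and `h1`. -/
theorem finPair_scaled {e e' : E} (he : e ≠ 0) (he' : e' ≠ 0) :
    FinPair (spanOver L.R (fun i => e • b i)) (spanOver L.S (fun i => e' • b i)) := by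
  set b₁ : Basis ι E V := b.isUnitSMul (fun _ => IsUnit.mk0 e he) with hb₁
  have hb₁' : (b₁ : ι → V) = fun i => e • b i := funext fun i => Basis.isUnitSMul_apply _ i
  obtain ⟨m, hm₁, hm₂⟩ := exists_pow_mem_S₂ L (e * e'⁻¹) (e' * e⁻¹)
  have hx : L.x ≠ 0 := L.x_ne_zero
  constructor
  · have := finiteDimensional_inf L b₁ (M := spanOver L.R b₁)
      (M' := spanOver L.S (fun i => e' • b i)) le_rfl m (by
        rw [spanOver_le_iff]
        intro a ha i
        have : a • e' • b i = (a * (L.x⁻¹ ^ m * (e' * e⁻¹))) • (L.x ^ m • b₁ i) := by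
          rw [hb₁', smul_smul, smul_smul, smul_smul]
          congr 1
          have key : L.x⁻¹ ^ m * L.x ^ m = 1 := by
            rw [← mul_pow, inv_mul_cancel₀ hx, one_pow]
          have he1 : e⁻¹ * e = 1 := inv_mul_cancel₀ he
          linear_combination (-(a * e' * e⁻¹ * e)) * key - a * e' * he1
        rw [this]
        exact smul_mem_spanOver L.S _ (L.S.mul_mem ha hm₂) i)
    rw [hb₁'] at this
    exact this
  · have := finiteDimensional_quotient L b₁ (M := spanOver L.R b₁)
      (M' := spanOver L.S (fun i => e' • b i)) le_rfl m (by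
        rw [spanOver_le_iff]
        intro a ha i
        have : a • L.x⁻¹ ^ (m + 1) • b₁ i =
            (a * (L.x⁻¹ * (L.x⁻¹ ^ m * (e * e'⁻¹)))) • (e' • b i) := by
          rw [hb₁', smul_smul, smul_smul, smul_smul]
          congr 1
          have he1 : e'⁻¹ * e' = 1 := inv_mul_cancel₀ he'
          linear_combination (-(a * L.x⁻¹ ^ (m + 1) * e)) * he1
        rw [this]
        exact smul_mem_spanOver L.S _
          (L.S.mul_mem ha (L.S.mul_mem L.inv_mem hm₁)) i)
    rw [hb₁'] at this
    exact this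

theorem finPair_standard :
    FinPair (spanOver L.R b) (spanOver L.S b) := by
  have := finPair_scaled L b (e := 1) (e' := 1) one_ne_zero one_ne_zero
  rwa [spanOver_one_smul, spanOver_one_smul] at this

end Finiteness

section Orthogonal

variable (τ : LinearMap.BilinForm E V)

/-- The `k`-bilinear pairing, as a bilinear form. -/
noncomputable abbrev kForm : LinearMap.BilinForm k V := pairing L τ

theorem kForm_apply (y z : V) : kForm L τ y z = L.ρ (τ y z) := rfl

variable {τ}

theorem kForm_isSymm (hs : τ.IsSymm) : (kForm L τ).IsSymm :=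
  ⟨fun y z => by rw [kForm_apply, kForm_apply, hs.eq]⟩

theorem kForm_isRefl (hs : τ.IsSymm) : (kForm L τ).IsRefl := (kForm_isSymm L hs).isRefl

theorem kForm_nondegenerate (hs : τ.IsSymm) (hτ : τ.Nondegenerate) :
    (kForm L τ).Nondegenerate := by
  have hr : ∀ z : V, (∀ y, kForm L τ y z = 0) → z = 0 :=
    fun z hz => eq_zero_of_pairing_eq_zero L τ hτ hz
  refine ⟨fun y hy => hr y fun z => ?_, hr⟩
  rw [(kForm_isSymm L hs).eq]
  exact hy z

variable (τ)

theorem mem_orthogonal_iff_dualR {M : Submodule k V} (hM : StableUnder L.R M) (z : V) :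
    z ∈ (kForm L τ).orthogonal M ↔ z ∈ dualR L τ M :=
  ⟨fun hz => mem_dualR_of_pairing L τ hM hz,
    fun hz _ hm => pairing_eq_zero_of_mem_dualR L τ hz hm⟩

theorem mem_orthogonal_iff_dualS {M' : Submodule k V} (hM' : StableUnder L.S M') (z : V) :
    z ∈ (kForm L τ).orthogonal M' ↔ z ∈ dualS L τ M' :=
  ⟨fun hz => mem_dualS_of_pairing L τ hM' hz,
    fun hz _ hm => pairing_eq_zero_of_mem_dualS L τ hz hm⟩

theorem orthogonal_eq_dualR {M : Submodule k V} (hM : StableUnder L.R M) :
    (kForm L τ).orthogonal M = dualR L τ M :=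
  Submodule.ext (mem_orthogonal_iff_dualR L τ hM)

theorem orthogonal_eq_dualS {M' : Submodule k V} (hM' : StableUnder L.S M') :
    (kForm L τ).orthogonal M' = dualS L τ M' :=
  Submodule.ext (mem_orthogonal_iff_dualS L τ hM')

theorem mem_orthogonal_spanOver_R (w : ι → V) (z : V) :
    z ∈ (kForm L τ).orthogonal (spanOver L.R w) ↔ ∀ i, τ (w i) z ∈ L.R := by
  rw [mem_orthogonal_iff_dualR L τ (stableUnder_spanOver L.R w)]
  constructor
  · intro hz i
    have : w i ∈ spanOver L.R w := by
      have := smul_mem_spanOver L.R w L.R.one_mem i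
      rwa [one_smul] at this
    exact hz _ this
  · intro h m hm
    induction hm using Submodule.span_induction with
    | mem v hv =>
      obtain ⟨a, ha, i, rfl⟩ := hv
      rw [map_smul, LinearMap.smul_apply, smul_eq_mul]
      exact L.R.mul_mem ha (h i)
    | zero => rw [map_zero, LinearMap.zero_apply]; exact L.R.zero_mem
    | add v w' _ _ hv hw => rw [map_add, LinearMap.add_apply]; exact L.R.add_mem hv hw
    | smul c v _ hv =>
      rw [← algebraMap_smul E c v, map_smul, LinearMap.smul_apply, smul_eq_mul]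
      exact L.R.mul_mem (L.R.algebraMap_mem c) hv

theorem mem_orthogonal_spanOver_S (w : ι → V) (z : V) :
    z ∈ (kForm L τ).orthogonal (spanOver L.S w) ↔
      ∀ i, ∃ s ∈ L.S, τ (w i) z = L.x⁻¹ ^ 2 * s := by
  rw [mem_orthogonal_iff_dualS L τ (stableUnder_spanOver L.S w)]
  constructor
  · intro hz i
    have : w i ∈ spanOver L.S w := by
      have := smul_mem_spanOver L.S w L.S.one_mem i
      rwa [one_smul] at this
    exact hz _ this
  · intro h m hm
    induction hm using Submodule.span_induction with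
    | mem v hv =>
      obtain ⟨a, ha, i, rfl⟩ := hv
      obtain ⟨s, hs, e⟩ := h i
      refine ⟨a * s, L.S.mul_mem ha hs, ?_⟩
      rw [map_smul, LinearMap.smul_apply, smul_eq_mul, e]
      ring
    | zero => exact ⟨0, L.S.zero_mem, by rw [map_zero, LinearMap.zero_apply, mul_zero]⟩
    | add v w' _ _ hv hw =>
      obtain ⟨s, hs, e⟩ := hv
      obtain ⟨s', hs', e'⟩ := hw
      exact ⟨s + s', L.S.add_mem hs hs', by rw [map_add, LinearMap.add_apply, e, e', mul_add]⟩
    | smul c v _ hv =>
      obtain ⟨s, hs, e⟩ := hv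
      refine ⟨algebraMap k E c * s, L.S.mul_mem (L.S.algebraMap_mem c) hs, ?_⟩
      rw [← algebraMap_smul E c v, map_smul, LinearMap.smul_apply, smul_eq_mul, e]
      ring

variable [Fintype ι] [DecidableEq ι] {τ}

theorem repr_dualBasis (hτ : τ.Nondegenerate) (hs : τ.IsSymm) (c : Basis ι E V) (z : V) (i : ι) :
    (τ.dualBasis hτ c).repr z i = τ (c i) z := by
  rw [LinearMap.BilinForm.dualBasis_repr_apply, hs.eq]

theorem repr_eq_apply_dualBasis (hτ : τ.Nondegenerate) (hs : τ.IsSymm) (c : Basis ι E V) (v : V)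
    (i : ι) : c.repr v i = τ (τ.dualBasis hτ c i) v := by
  have := repr_dualBasis hτ hs (τ.dualBasis hτ c) v i
  rwa [LinearMap.BilinForm.dualBasis_dualBasis hτ hs c] at this

theorem orthogonal_spanOver_R (hτ : τ.Nondegenerate) (hs : τ.IsSymm) (c : Basis ι E V) :
    (kForm L τ).orthogonal (spanOver L.R c) = spanOver L.R (τ.dualBasis hτ c) := by
  apply le_antisymm
  · intro z hz
    rw [mem_orthogonal_spanOver_R] at hz
    rw [← (τ.dualBasis hτ c).sum_repr z]
    refine sum_smul_mem_spanOver L.R _ fun i => ?_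
    rw [repr_dualBasis hτ hs]
    exact hz i
  · rw [spanOver_le_iff]
    intro a ha j
    rw [mem_orthogonal_spanOver_R]
    intro i
    rw [map_smul, smul_eq_mul, LinearMap.BilinForm.apply_dualBasis_right hτ hs]
    split_ifs
    · rw [mul_one]; exact ha
    · rw [mul_zero]; exact L.R.zero_mem

theorem orthogonal_spanOver_S (hτ : τ.Nondegenerate) (hs : τ.IsSymm) (c : Basis ι E V) :
    (kForm L τ).orthogonal (spanOver L.S c) =
      spanOver L.S (fun i => L.x⁻¹ ^ 2 • τ.dualBasis hτ c i) := by
  apply le_antisymm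
  · intro z hz
    rw [mem_orthogonal_spanOver_S] at hz
    choose s hs' e using hz
    rw [← (τ.dualBasis hτ c).sum_repr z]
    have : ∀ i, (τ.dualBasis hτ c).repr z i • τ.dualBasis hτ c i =
        s i • (L.x⁻¹ ^ 2 • τ.dualBasis hτ c i) := by
      intro i
      rw [repr_dualBasis hτ hs, e i, smul_smul, mul_comm]
    rw [Finset.sum_congr rfl fun i _ => this i]
    exact sum_smul_mem_spanOver L.S _ hs'
  · rw [spanOver_le_iff]
    intro a ha j
    rw [mem_orthogonal_spanOver_S]
    intro i
    rw [map_smul, map_smul, smul_eq_mul, smul_eq_mul,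
      LinearMap.BilinForm.apply_dualBasis_right hτ hs]
    split_ifs
    · exact ⟨a, ha, by ring⟩
    · exact ⟨0, L.S.zero_mem, by ring⟩

theorem perpClosed_spanOver_R (hτ : τ.Nondegenerate) (hs : τ.IsSymm) (c : Basis ι E V) :
    PerpClosed (kForm L τ) (spanOver L.R c) := by
  unfold PerpClosed
  rw [orthogonal_spanOver_R L hτ hs, orthogonal_spanOver_R L hτ hs,
    LinearMap.BilinForm.dualBasis_dualBasis hτ hs c]

theorem perpClosed_spanOver_S (hτ : τ.Nondegenerate) (hs : τ.IsSymm) (c : Basis ι E V) :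
    PerpClosed (kForm L τ) (spanOver L.S c) := by
  apply le_antisymm
  · intro v hv
    rw [orthogonal_spanOver_S L hτ hs, mem_orthogonal_spanOver_S] at hv
    rw [← c.sum_repr v]
    refine sum_smul_mem_spanOver L.S _ fun i => ?_
    obtain ⟨s, hs', e⟩ := hv i
    rw [map_smul, LinearMap.smul_apply, smul_eq_mul] at e
    have hx2 : L.x⁻¹ ^ 2 ≠ 0 := pow_ne_zero _ L.inv_ne_zero
    rw [repr_eq_apply_dualBasis hτ hs, mul_left_cancel₀ hx2 e]
    exact hs'
  · exact (kForm L τ).le_orthogonal_orthogonal (kForm_isRefl L hs)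

end Orthogonal

section Standard

variable [Fintype ι] [DecidableEq ι] {τ : LinearMap.BilinForm E V}
variable (b : Basis ι E V)

theorem sup_standard_eq_top : spanOver L.R b ⊔ spanOver L.S b = ⊤ := by
  rw [eq_top_iff]
  intro v _
  obtain ⟨v₁, hv₁, c, v₃, hv₃, rfl⟩ := exists_decomp L b 0 v
  have h3 : v₃ ∈ spanOver L.S b := by
    refine (spanOver_le_iff L.S _).mpr ?_ hv₃
    intro a ha i
    rw [smul_smul]
    exact smul_mem_spanOver L.S b (L.S.mul_mem ha (L.inv_pow_mem_S _)) i
  have h0 : ∑ p, c p • testVec L b 0 p = 0 := by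
    apply Finset.sum_eq_zero
    intro p _
    exact (Fin.elim0 p.2)
  rw [h0, add_zero]
  exact Submodule.add_mem _ (Submodule.mem_sup_left hv₁) (Submodule.mem_sup_right h3)

theorem h1_standard : h1 (spanOver L.R b) (spanOver L.S b) = 0 := by
  unfold h1
  rw [sup_standard_eq_top]
  exact Module.finrank_zero_of_subsingleton

theorem card_le_h0_standard : Fintype.card ι ≤ h0 (spanOver L.R b) (spanOver L.S b) := by
  have := (finPair_standard L b).1
  let w : ι → ↥(spanOver L.R b ⊓ spanOver L.S b) :=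
    fun i => ⟨b i, mem_spanOver_self L.R b i, mem_spanOver_self L.S b i⟩
  have hli : LinearIndependent k w := by
    apply LinearIndependent.of_comp (spanOver L.R b ⊓ spanOver L.S b).subtype
    have : (spanOver L.R b ⊓ spanOver L.S b).subtype ∘ w = b := rfl
    rw [this]
    refine b.linearIndependent.restrict_scalars ?_
    intro r r' h
    simp only [Algebra.smul_def, mul_one] at h
    exact (algebraMap k E).injective h
  exact hli.fintype_card_le_finrank

theorem h1_le_card_of_decomp (c : Basis ι E V) {M M' : Submodule k V}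
    (hM : spanOver L.R c ≤ M) (hM' : spanOver L.S (fun i => L.x⁻¹ ^ 2 • c i) ≤ M')
    [Module.Finite k (V ⧸ (M ⊔ M'))] : h1 M M' ≤ Fintype.card ι := by
  let f : (ι × Fin 1 → k) →ₗ[k] V ⧸ (M ⊔ M') :=
    (M ⊔ M').mkQ ∘ₗ Fintype.linearCombination k (testVec L c 1)
  have hf : Function.Surjective f := by
    intro y
    obtain ⟨v, rfl⟩ := (M ⊔ M').mkQ_surjective y
    obtain ⟨v₁, hv₁, a, v₃, hv₃, rfl⟩ := exists_decomp L c 1 v
    refine ⟨a, ?_⟩
    simp only [f, LinearMap.comp_apply, Fintype.linearCombination_apply, Submodule.mkQ_apply]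
    rw [Submodule.Quotient.eq]
    have : ∑ p, a p • testVec L c 1 p - (v₁ + ∑ p, a p • testVec L c 1 p + v₃) = -(v₁ + v₃) := by
      abel
    rw [this]
    exact Submodule.neg_mem _ (Submodule.add_mem _ (Submodule.mem_sup_left (hM hv₁))
      (Submodule.mem_sup_right (hM' hv₃)))
  calc h1 M M' ≤ finrank k (ι × Fin 1 → k) := LinearMap.finrank_le_finrank_of_surjective hf
    _ = Fintype.card ι := by
      rw [Module.finrank_fintype_fun_eq_card, Fintype.card_prod, Fintype.card_fin, mul_one]

/-- The standard lattice pair `(⊕ R bᵢ, ⊕ S bᵢ)` is balanced. -/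
theorem balanced_standard (hτ : τ.Nondegenerate) (hs : τ.IsSymm) :
    Balanced (kForm L τ) (spanOver L.R b) (spanOver L.S b) := by
  have hx2 : L.x⁻¹ ^ 2 ≠ 0 := pow_ne_zero _ L.inv_ne_zero
  have fp : FinPair ((kForm L τ).orthogonal (spanOver L.R b))
      ((kForm L τ).orthogonal (spanOver L.S b)) := by
    rw [orthogonal_spanOver_R L hτ hs, orthogonal_spanOver_S L hτ hs]
    have := finPair_scaled L (τ.dualBasis hτ b) (e := 1) (e' := L.x⁻¹ ^ 2) one_ne_zero hx2
    rwa [spanOver_one_smul] at this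
  refine ⟨finPair_standard L b, fp, ?_⟩
  have hnd := kForm_nondegenerate L hs hτ
  have a1 := h1_standard L b
  have a2 := card_le_h0_standard L b
  have := fp.2
  have := (finPair_standard L b).2
  have a3 : h1 ((kForm L τ).orthogonal (spanOver L.R b))
      ((kForm L τ).orthogonal (spanOver L.S b)) ≤ Fintype.card ι := by
    apply h1_le_card_of_decomp L (τ.dualBasis hτ b)
    · rw [orthogonal_spanOver_R L hτ hs]
    · rw [orthogonal_spanOver_S L hτ hs]
  have i1 := h0_perp_le_h1 hnd (spanOver L.R b) (spanOver L.S b)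
  have i2 := h0_perp_le_h1 hnd ((kForm L τ).orthogonal (spanOver L.R b))
    ((kForm L τ).orthogonal (spanOver L.S b))
  rw [show (kForm L τ).orthogonal ((kForm L τ).orthogonal (spanOver L.R b)) = spanOver L.R b from
      perpClosed_spanOver_R L hτ hs b,
    show (kForm L τ).orthogonal ((kForm L τ).orthogonal (spanOver L.S b)) = spanOver L.S b from
      perpClosed_spanOver_S L hτ hs b] at i2
  omega

end Standard

section Lattices

variable [Fintype ι] [DecidableEq ι] {τ : LinearMap.BilinForm E V}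
variable (b : Basis ι E V)

/-- `M` is an `R`-lattice (relative to the basis `b`): it is sandwiched between `a • ⊕ R bᵢ` and
`a⁻¹ • ⊕ R bᵢ` for some nonzero `a ∈ R`. -/
def IsRLattice (M : Submodule k V) : Prop :=
  ∃ a ∈ L.R, a ≠ 0 ∧ (∀ v ∈ spanOver L.R b, a • v ∈ M) ∧ (∀ v ∈ M, a • v ∈ spanOver L.R b)

/-- `M'` is an `S`-lattice (relative to the basis `b`): it is sandwiched between
`x⁻ᵐ • ⊕ S bᵢ` and `xᵐ • ⊕ S bᵢ` for some `m`. -/
def IsSLattice (M' : Submodule k V) : Prop :=
  ∃ m : ℕ, (∀ v ∈ spanOver L.S b, L.x⁻¹ ^ m • v ∈ M') ∧ (∀ v ∈ M', L.x⁻¹ ^ m • v ∈ spanOver L.S b)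

variable {L b}

/-- Sandwich argument shared by the two kinds of lattices. -/
theorem commensurable_of_sandwich (A : Subalgebra k E) {a : E} (ha : a ∈ A) (ha0 : a ≠ 0)
    {M : Submodule k V} (h1 : ∀ v ∈ spanOver A b, a • v ∈ M) (h2 : ∀ v ∈ M, a • v ∈ spanOver A b)
    (hfin : Module.Finite k (RelQuot (spanOver A (fun i => a • b i))
      (spanOver A (fun i => a⁻¹ • b i)))) :
    Commensurable M (spanOver A b) := by
  have hPM : spanOver A (fun i => a • b i) ≤ M := by
    rw [spanOver_le_iff]
    intro r hr i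
    rw [smul_comm]
    exact h1 _ (smul_mem_spanOver A b hr i)
  have hPS : spanOver A (fun i => a • b i) ≤ spanOver A b := by
    rw [spanOver_le_iff]
    intro r hr i
    rw [smul_smul]
    exact smul_mem_spanOver A b (A.mul_mem hr ha) i
  have hMT : M ≤ spanOver A (fun i => a⁻¹ • b i) := by
    intro v hv
    have := smul_mem_spanOver_smul A b a⁻¹ (h2 v hv)
    rwa [inv_smul_smul₀ ha0] at this
  have hST : spanOver A b ≤ spanOver A (fun i => a⁻¹ • b i) := by
    rw [spanOver_le_iff]
    intro r hr i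
    have : r • b i = (r * a) • (a⁻¹ • b i) := by
      rw [smul_smul, mul_assoc, mul_inv_cancel₀ ha0, mul_one]
    rw [this]
    exact smul_mem_spanOver A _ (A.mul_mem hr ha) i
  exact Commensurable.of_between hPM hPS hMT hST

theorem IsRLattice.commensurable {M : Submodule k V} (hM : IsRLattice L b M) :
    Commensurable M (spanOver L.R b) := by
  obtain ⟨a, ha, ha0, h1, h2⟩ := hM
  refine commensurable_of_sandwich L.R ha ha0 h1 h2 ?_
  have hPT : spanOver L.R (fun i => a • b i) ≤ spanOver L.R (fun i => a⁻¹ • b i) :=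
    spanOver_smul_le_of_mem L.R b (inv_ne_zero ha0) (by rw [inv_inv]; exact L.R.mul_mem ha ha)
  have f1 := finPair_scaled L b (e := a⁻¹) (e' := 1) (inv_ne_zero ha0) one_ne_zero
  have f2 := finPair_scaled L b (e := a) (e' := 1) ha0 one_ne_zero
  rw [spanOver_one_smul] at f1 f2
  exact finite_relQuot_of_finPair hPT (spanOver L.S b) f1 f2

theorem IsSLattice.commensurable {M' : Submodule k V} (hM' : IsSLattice L b M') :
    Commensurable M' (spanOver L.S b) := by
  obtain ⟨m, h1, h2⟩ := hM'
  have ha0 : L.x⁻¹ ^ m ≠ 0 := pow_ne_zero _ L.inv_ne_zero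
  have ha : L.x⁻¹ ^ m ∈ L.S := L.inv_pow_mem_S m
  refine commensurable_of_sandwich L.S ha ha0 h1 h2 ?_
  have hPT : spanOver L.S (fun i => L.x⁻¹ ^ m • b i) ≤
      spanOver L.S (fun i => (L.x⁻¹ ^ m)⁻¹ • b i) :=
    spanOver_smul_le_of_mem L.S b (inv_ne_zero ha0) (by rw [inv_inv]; exact L.S.mul_mem ha ha)
  have f1 := finPair_scaled L b (e := 1) (e' := (L.x⁻¹ ^ m)⁻¹) one_ne_zero (inv_ne_zero ha0)
  have f2 := finPair_scaled L b (e := 1) (e' := L.x⁻¹ ^ m) one_ne_zero ha0
  rw [spanOver_one_smul] at f1 f2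
  exact finite_relQuot_of_finPair_right hPT (spanOver L.R b) f1 f2

variable (L b)

theorem isRLattice_standard : IsRLattice L b (spanOver L.R b) :=
  ⟨1, L.R.one_mem, one_ne_zero, fun v hv => by rwa [one_smul], fun v hv => by rwa [one_smul]⟩

theorem isSLattice_standard : IsSLattice L b (spanOver L.S b) :=
  ⟨0, fun v hv => by rwa [pow_zero, one_smul], fun v hv => by rwa [pow_zero, one_smul]⟩

variable {L b}

/-- **Serre duality for lattice pairs** (orthogonal-complement form).  Let `τ` be a symmetric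
nondegenerate `E`-bilinear form on `V`, `M` an `R`-lattice and `M'` an `S`-lattice, both closed
for the `k`-bilinear pairing `ρ ∘ τ`.  Then `h0`, `h1` of `(M, M')` and of `(M^⊥, M'^⊥)` are
finite, `h1 (M, M') = h0 (M^⊥, M'^⊥)` and `h0 (M, M') = h1 (M^⊥, M'^⊥)`. -/
theorem lattice_duality (hτ : τ.Nondegenerate) (hs : τ.IsSymm) {M M' : Submodule k V}
    (hM : IsRLattice L b M) (hM' : IsSLattice L b M')
    (hc : PerpClosed (kForm L τ) M) (hc' : PerpClosed (kForm L τ) M') :
    FinPair M M' ∧
    FinPair ((kForm L τ).orthogonal M) ((kForm L τ).orthogonal M') ∧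
    h1 M M' = h0 ((kForm L τ).orthogonal M) ((kForm L τ).orthogonal M') ∧
    h0 M M' = h1 ((kForm L τ).orthogonal M) ((kForm L τ).orthogonal M') :=
  duality (kForm_isRefl L hs) (kForm_nondegenerate L hs hτ)
    (perpClosed_spanOver_R L hτ hs b) (perpClosed_spanOver_S L hτ hs b) hc hc'
    hM.commensurable hM'.commensurable (balanced_standard L b hτ hs)

/-- **Serre duality for lattice pairs** in terms of the `R`-dual and the (twisted) `S`-dual,
for lattices stable under `R` resp. `S`. -/
theorem lattice_duality' (hτ : τ.Nondegenerate) (hs : τ.IsSymm) {M M' : Submodule k V}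
    (hM : IsRLattice L b M) (hM' : IsSLattice L b M')
    (hst : StableUnder L.R M) (hst' : StableUnder L.S M')
    (hc : PerpClosed (kForm L τ) M) (hc' : PerpClosed (kForm L τ) M') :
    FinPair M M' ∧ FinPair (dualR L τ M) (dualS L τ M') ∧
    h1 M M' = h0 (dualR L τ M) (dualS L τ M') ∧
    h0 M M' = h1 (dualR L τ M) (dualS L τ M') := by
  have := lattice_duality hτ hs hM hM' hc hc'
  rwa [orthogonal_eq_dualR L τ hst, orthogonal_eq_dualS L τ hst'] at this

/-- Free lattice pairs: `M = ⊕ R cᵢ`, `M' = ⊕ S c'ᵢ` for `E`-bases `c`, `c'` of `V` that are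
lattices relative to `b`. -/
theorem lattice_duality_spanOver (hτ : τ.Nondegenerate) (hs : τ.IsSymm) (c c' : Basis ι E V)
    (hM : IsRLattice L b (spanOver L.R c)) (hM' : IsSLattice L b (spanOver L.S c')) :
    FinPair (spanOver L.R c) (spanOver L.S c') ∧
    FinPair (spanOver L.R (τ.dualBasis hτ c))
      (spanOver L.S (fun i => L.x⁻¹ ^ 2 • τ.dualBasis hτ c' i)) ∧
    h1 (spanOver L.R c) (spanOver L.S c') =
      h0 (spanOver L.R (τ.dualBasis hτ c))
        (spanOver L.S (fun i => L.x⁻¹ ^ 2 • τ.dualBasis hτ c' i)) ∧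
    h0 (spanOver L.R c) (spanOver L.S c') =
      h1 (spanOver L.R (τ.dualBasis hτ c))
        (spanOver L.S (fun i => L.x⁻¹ ^ 2 • τ.dualBasis hτ c' i)) := by
  have := lattice_duality hτ hs hM hM' (perpClosed_spanOver_R L hτ hs c)
    (perpClosed_spanOver_S L hτ hs c')
  rwa [orthogonal_spanOver_R L hτ hs, orthogonal_spanOver_S L hτ hs] at this

end Lattices

end Fermat.Agent.S20.RR.LatticeDuality
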