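/-
Generic Dedekind glue for the lattice-pair Riemann-Roch: fractional ideals of the integral closure
`B` of a Dedekind subalgebra `A ⊆ E` in a finite separable extension `F / E`, viewed as
`k`-submodules of `F`, are `A`-stable lattices, their trace dual is the `A`-dual for the trace
form, and they are closed under double duals.
-/
import Fermat.Agent.S20.RR.LatticeDuality
import Fermat.Agent.S20.RR.IdealDim

set_option linter.unusedSectionVars false

namespace Fermat.Agent.S20.RR.DedekindGlue

open Module nonZeroDivisors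
open Fermat.Agent.S20.RR

variable {k E F : Type*} [Field k] [Field E] [Field F] [Algebra k E] [Algebra E F] [Algebra k F]
  [IsScalarTower k E F] (A : Subalgebra k E) {B : Type*} [CommRing B] [Algebra ↥A B] [Algebra B F]
  [IsScalarTower ↥A B F] [Algebra k B] [IsScalarTower k B F]

/-- A fractional ideal of `B` as a `k`-submodule of `F`. -/
def idealLattice (I : FractionalIdeal B⁰ F) : Submodule k F :=
  (I : Submodule B F).restrictScalars k

@[simp] theorem mem_idealLattice {I : FractionalIdeal B⁰ F} {z : F} :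
    z ∈ idealLattice (k := k) I ↔ z ∈ I := Iff.rfl

theorem idealLattice_mono {I J : FractionalIdeal B⁰ F} (h : I ≤ J) :
    idealLattice (k := k) I ≤ idealLattice (k := k) J := fun _ hz => h hz

/-- The action of `a ∈ A ⊆ E` on `F` is multiplication by the image of `a` in `B`. -/
theorem smul_eq_algebraMap_mul (B : Type*) [CommRing B] [Algebra ↥A B] [Algebra B F]
    [IsScalarTower ↥A B F] (a : ↥A) (z : F) :
    (a : E) • z = algebraMap B F (algebraMap ↥A B a) * z := by
  rw [Algebra.smul_def, ← IsScalarTower.algebraMap_apply ↥A B F]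
  rfl

/-- (G1) ideal lattices are stable under `A`. -/
theorem stableUnder_idealLattice (I : FractionalIdeal B⁰ F) :
    StableUnder A (idealLattice (k := k) I) := by
  intro a ha m hm
  rw [mem_idealLattice] at hm ⊢
  have := smul_eq_algebraMap_mul A B (⟨a, ha⟩ : ↥A) m
  simp only at this
  rw [this, ← Algebra.smul_def]
  exact Submodule.smul_mem (I : Submodule B F) _ hm

section Dual

variable [IsDedekindDomain ↥A] [IsFractionRing ↥A E] [FiniteDimensional E F]
  [Algebra.IsSeparable E F] [IsIntegralClosure B ↥A F] [IsFractionRing B F] [IsDedekindDomain B]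

/-- (G3) membership in the trace dual of a fractional ideal, in terms of the subalgebra `A`. -/
theorem mem_dual_iff {I : FractionalIdeal B⁰ F} (hI : I ≠ 0) {z : F} :
    z ∈ FractionalIdeal.dual ↥A E I ↔ ∀ m ∈ I, Algebra.traceForm E F m z ∈ A := by
  rw [FractionalIdeal.mem_dual hI]
  refine forall₂_congr fun m _ => ?_
  rw [Algebra.traceForm_apply, Algebra.traceForm_apply, mul_comm]
  constructor
  · rintro ⟨a, ha⟩
    rw [← ha]
    exact a.2
  · intro h
    exact ⟨⟨_, h⟩, rfl⟩

/-- The `A`-dual of an ideal lattice is the ideal lattice of the trace dual. -/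
theorem dualR_idealLattice (L : LineData k E) [IsDedekindDomain ↥L.R] [IsFractionRing ↥L.R E]
    [Algebra ↥L.R B] [IsScalarTower ↥L.R B F] [IsIntegralClosure B ↥L.R F]
    {I : FractionalIdeal B⁰ F} (hI : I ≠ 0) :
    dualR L (Algebra.traceForm E F) (idealLattice (k := k) I) =
      idealLattice (k := k) (FractionalIdeal.dual ↥L.R E I) := by
  ext z
  rw [mem_dualR, mem_idealLattice, mem_dual_iff L.R hI]
  rfl

/-- Scaling a fractional ideal by a nonzero element of `E`. -/
noncomputable def scale (e : E) (I : FractionalIdeal B⁰ F) : FractionalIdeal B⁰ F :=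
  FractionalIdeal.spanSingleton B⁰ (algebraMap E F e) * I

omit [IsDedekindDomain ↥A] [IsFractionRing ↥A E] [FiniteDimensional E F]
  [Algebra.IsSeparable E F] [IsIntegralClosure B ↥A F] [IsDedekindDomain B] in
theorem mem_scale {e : E} (he : e ≠ 0) {I : FractionalIdeal B⁰ F} {z : F} :
    z ∈ scale e I ↔ e⁻¹ • z ∈ I := by
  unfold scale
  rw [FractionalIdeal.mem_singleton_mul]
  constructor
  · rintro ⟨y, hy, rfl⟩
    rw [Algebra.smul_def, ← mul_assoc, ← map_mul, inv_mul_cancel₀ he, map_one, one_mul]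
    exact hy
  · intro h
    refine ⟨_, h, ?_⟩
    rw [Algebra.smul_def, ← mul_assoc, ← map_mul, mul_inv_cancel₀ he, map_one, one_mul]

omit [IsDedekindDomain ↥A] [IsFractionRing ↥A E] [FiniteDimensional E F]
  [Algebra.IsSeparable E F] [IsIntegralClosure B ↥A F] in
theorem scale_ne_zero {e : E} (he : e ≠ 0) {I : FractionalIdeal B⁰ F} (hI : I ≠ 0) :
    scale e I ≠ 0 := by
  unfold scale
  refine mul_ne_zero ?_ hI
  rw [Ne, FractionalIdeal.spanSingleton_eq_zero_iff]
  exact (map_ne_zero (algebraMap E F)).mpr he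

omit [IsDedekindDomain ↥A] [IsFractionRing ↥A E] [FiniteDimensional E F]
  [Algebra.IsSeparable E F] [IsIntegralClosure B ↥A F] [IsDedekindDomain B] in
theorem scale_scale {e e' : E} (I : FractionalIdeal B⁰ F) :
    scale e (scale e' I) = scale (e * e') I := by
  unfold scale
  rw [← mul_assoc, FractionalIdeal.spanSingleton_mul_spanSingleton, ← map_mul]

omit [IsDedekindDomain ↥A] [IsFractionRing ↥A E] [FiniteDimensional E F]
  [Algebra.IsSeparable E F] [IsIntegralClosure B ↥A F] [IsDedekindDomain B] in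
theorem scale_one (I : FractionalIdeal B⁰ F) : scale (1 : E) I = I := by
  unfold scale
  rw [map_one, FractionalIdeal.spanSingleton_one, one_mul]

/-- The trace dual of a scaled ideal. -/
theorem dual_scale {e : E} (he : e ≠ 0) {I : FractionalIdeal B⁰ F} (hI : I ≠ 0) :
    FractionalIdeal.dual ↥A E (scale e I) = scale e⁻¹ (FractionalIdeal.dual ↥A E I) := by
  ext z
  rw [mem_scale (inv_ne_zero he), FractionalIdeal.mem_dual (scale_ne_zero he hI),
    FractionalIdeal.mem_dual hI, inv_inv]
  constructor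
  · intro h m hm
    have hm' : e • m ∈ scale e I := by
      rw [mem_scale he, smul_smul, inv_mul_cancel₀ he, one_smul]
      exact hm
    have := h _ hm'
    have e1 : Algebra.traceForm E F z (e • m) = Algebra.traceForm E F (e • z) m := by
      rw [Algebra.traceForm_apply, Algebra.traceForm_apply, mul_smul_comm, smul_mul_assoc]
    rwa [e1] at this
  · intro h m hm
    rw [mem_scale he] at hm
    have := h _ hm
    have e1 : Algebra.traceForm E F (e • z) (e⁻¹ • m) = Algebra.traceForm E F z m := by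
      rw [Algebra.traceForm_apply, Algebra.traceForm_apply, mul_smul_comm, smul_mul_assoc,
        smul_smul, inv_mul_cancel₀ he, one_smul]
    rwa [e1] at this

/-- The twisted `S`-dual of an ideal lattice is the ideal lattice of `x⁻² • dual`. -/
theorem dualS_idealLattice (L : LineData k E) [IsDedekindDomain ↥L.S] [IsFractionRing ↥L.S E]
    [Algebra ↥L.S B] [IsScalarTower ↥L.S B F] [IsIntegralClosure B ↥L.S F]
    {I : FractionalIdeal B⁰ F} (hI : I ≠ 0) :
    dualS L (Algebra.traceForm E F) (idealLattice (k := k) I) =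
      idealLattice (k := k) (scale (L.x⁻¹ ^ 2) (FractionalIdeal.dual ↥L.S E I)) := by
  have hx2 : L.x⁻¹ ^ 2 ≠ 0 := pow_ne_zero _ L.inv_ne_zero
  ext z
  rw [mem_dualS, mem_idealLattice, mem_scale hx2, mem_dual_iff L.S hI]
  refine forall₂_congr fun m _ => ?_
  rw [map_smul, smul_eq_mul]
  constructor
  · rintro ⟨s, hs, e⟩
    rw [e, ← mul_assoc, inv_mul_cancel₀ hx2, one_mul]
    exact hs
  · intro h
    exact ⟨_, h, by rw [← mul_assoc, mul_inv_cancel₀ hx2, one_mul]⟩

open Fermat.Agent.S20.RR.AbstractDuality Fermat.Agent.S20.RR.LatticeDuality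

/-- (G4) ideal lattices of `B ⊇ R` are closed for the pairing `ρ ∘ Tr`. -/
theorem perpClosed_idealLattice_R (L : LineData k E) [IsDedekindDomain ↥L.R]
    [IsFractionRing ↥L.R E] [Algebra ↥L.R B] [IsScalarTower ↥L.R B F] [IsIntegralClosure B ↥L.R F]
    {I : FractionalIdeal B⁰ F} (hI : I ≠ 0) :
    PerpClosed (kForm L (Algebra.traceForm E F)) (idealLattice (k := k) I) := by
  unfold PerpClosed
  rw [orthogonal_eq_dualR L _ (stableUnder_idealLattice L.R I), dualR_idealLattice L hI,
    orthogonal_eq_dualR L _ (stableUnder_idealLattice L.R _),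
    dualR_idealLattice L (FractionalIdeal.dual_ne_zero ↥L.R E hI), FractionalIdeal.dual_dual]

/-- (G4) ideal lattices of `B' ⊇ S` are closed for the pairing `ρ ∘ Tr`. -/
theorem perpClosed_idealLattice_S (L : LineData k E) [IsDedekindDomain ↥L.S]
    [IsFractionRing ↥L.S E] [Algebra ↥L.S B] [IsScalarTower ↥L.S B F] [IsIntegralClosure B ↥L.S F]
    {I : FractionalIdeal B⁰ F} (hI : I ≠ 0) :
    PerpClosed (kForm L (Algebra.traceForm E F)) (idealLattice (k := k) I) := by
  have hx2 : L.x⁻¹ ^ 2 ≠ 0 := pow_ne_zero _ L.inv_ne_zero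
  have hd : FractionalIdeal.dual ↥L.S E I ≠ 0 := FractionalIdeal.dual_ne_zero ↥L.S E hI
  unfold PerpClosed
  rw [orthogonal_eq_dualS L _ (stableUnder_idealLattice L.S I), dualS_idealLattice L hI,
    orthogonal_eq_dualS L _ (stableUnder_idealLattice L.S _),
    dualS_idealLattice L (scale_ne_zero hx2 hd), dual_scale L.S hx2 hd,
    FractionalIdeal.dual_dual, scale_scale, mul_inv_cancel₀ hx2, scale_one]

/-- A nonzero fractional ideal of `B` contains a nonzero element of `A`. -/
theorem exists_ne_zero_mem {I : FractionalIdeal B⁰ F} (hI : I ≠ 0) :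
    ∃ a : ↥A, a ≠ 0 ∧ algebraMap B F (algebraMap ↥A B a) ∈ I := by
  obtain ⟨c, hc0, hc⟩ := FractionalIdeal.exists_ne_zero_mem_isInteger hI
  let J : Ideal B := (I : Submodule B F).comap (Algebra.linearMap B F)
  have hcJ : c ∈ J := hc
  have hne := Ideal.comap_ne_bot_of_integral_mem hc0 hcJ (IsIntegralClosure.isIntegral ↥A F c)
  obtain ⟨a, ha, ha0⟩ := (Submodule.ne_bot_iff _).mp hne
  exact ⟨a, ha0, ha⟩

/-- A finite family of elements of `F` is moved into a given nonzero fractional ideal by a nonzero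
element of `A`. -/
theorem exists_smul_mem {ι : Type*} [Finite ι] (v : ι → F) {I : FractionalIdeal B⁰ F}
    (hI : I ≠ 0) : ∃ a ∈ A, a ≠ 0 ∧ ∀ i, a • v i ∈ I := by
  classical
  cases nonempty_fintype ι
  obtain ⟨y, hy0, hy⟩ := exists_integral_multiples ↥A E (Finset.univ.image v)
  obtain ⟨a, ha0, ha⟩ := exists_ne_zero_mem A hI
  refine ⟨(a * y : ↥A), (a * y).2, ?_, fun i => ?_⟩
  · intro h
    exact mul_ne_zero ha0 hy0 (Subtype.ext h)
  · have hi : IsIntegral ↥A (y • v i) := hy _ (Finset.mem_image_of_mem v (Finset.mem_univ i))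
    obtain ⟨β, hβ⟩ := (IsIntegralClosure.isIntegral_iff (A := B)).mp hi
    have e1 : ((a * y : ↥A) : E) • v i = β • algebraMap B F (algebraMap ↥A B a) := by
      rw [MulMemClass.coe_mul, mul_smul, smul_eq_algebraMap_mul A B a, Algebra.smul_def β,
        mul_comm]
      congr 1
      rw [hβ]
      rfl
    rw [e1]
    exact Submodule.smul_mem (I : Submodule B F) β ha

variable {ι : Type*} [Fintype ι] [DecidableEq ι]

/-- (G2) any ideal lattice is sandwiched between two `A`-multiples of the free `A`-lattice spanned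
by any `E`-basis of `F`. -/
theorem exists_sandwich (b : Basis ι E F) {I : FractionalIdeal B⁰ F} (hI : I ≠ 0) :
    ∃ a ∈ A, a ≠ 0 ∧ (∀ v ∈ spanOver A b, a • v ∈ idealLattice (k := k) I) ∧
      (∀ v ∈ idealLattice (k := k) I, a • v ∈ spanOver A b) := by
  have hτ := traceForm_nondegenerate E F
  have hs := Algebra.traceForm_isSymm (R := E) (S := F)
  obtain ⟨a₁, ha₁, h0₁, h₁⟩ := exists_smul_mem A b hI
  obtain ⟨a₂, ha₂, h0₂, h₂⟩ := exists_smul_mem A ((Algebra.traceForm E F).dualBasis hτ b)
    (FractionalIdeal.dual_ne_zero ↥A E hI)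
  have hst := stableUnder_idealLattice (k := k) A I
  refine ⟨a₂ * a₁, A.mul_mem ha₂ ha₁, mul_ne_zero h0₂ h0₁, fun v hv => ?_, fun z hz => ?_⟩
  · rw [mul_smul]
    refine hst a₂ ha₂ _ ?_
    have h1 := smul_mem_spanOver_smul A b a₁ hv
    refine (spanOver_le_iff A _).mpr ?_ h1
    intro r hr i
    exact hst r hr _ (h₁ i)
  · rw [← b.sum_repr ((a₂ * a₁) • z)]
    refine sum_smul_mem_spanOver A b fun i => ?_
    rw [repr_eq_apply_dualBasis hτ hs]
    have e1 : Algebra.traceForm E F ((Algebra.traceForm E F).dualBasis hτ b i) ((a₂ * a₁) • z) =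
        a₁ * Algebra.traceForm E F z (a₂ • (Algebra.traceForm E F).dualBasis hτ b i) := by
      rw [map_smul, map_smul, smul_eq_mul, smul_eq_mul, hs.eq z]
      ring
    rw [e1]
    exact A.mul_mem ha₁ ((mem_dual_iff A hI).mp (h₂ i) z hz)

/-- Ideal lattices of the integral closure of `R` are `R`-lattices. -/
theorem isRLattice_idealLattice (L : LineData k E) [IsDedekindDomain ↥L.R]
    [IsFractionRing ↥L.R E] [Algebra ↥L.R B] [IsScalarTower ↥L.R B F] [IsIntegralClosure B ↥L.R F]
    (b : Basis ι E F) {I : FractionalIdeal B⁰ F} (hI : I ≠ 0) :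
    IsRLattice L b (idealLattice (k := k) I) :=
  exists_sandwich L.R b hI

/-- Ideal lattices of the integral closure of `S` are `S`-lattices, provided every nonzero element
of `S` is a unit times a power of `x⁻¹`. -/
theorem isSLattice_idealLattice (L : LineData k E) [IsDedekindDomain ↥L.S]
    [IsFractionRing ↥L.S E] [Algebra ↥L.S B] [IsScalarTower ↥L.S B F] [IsIntegralClosure B ↥L.S F]
    (hS : ∀ s ∈ L.S, s ≠ 0 → ∃ u ∈ L.S, u⁻¹ ∈ L.S ∧ ∃ m : ℕ, s = u * L.x⁻¹ ^ m)
    (b : Basis ι E F) {I : FractionalIdeal B⁰ F} (hI : I ≠ 0) :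
    IsSLattice L b (idealLattice (k := k) I) := by
  obtain ⟨a, ha, ha0, h1, h2⟩ := exists_sandwich (k := k) L.S b hI
  obtain ⟨u, hu, hu', m, rfl⟩ := hS a ha ha0
  have hu0 : u ≠ 0 := left_ne_zero_of_mul ha0
  refine ⟨m, fun v hv => ?_, fun v hv => ?_⟩
  · have := stableUnder_idealLattice (k := k) L.S I _ hu' _ (h1 v hv)
    rwa [smul_smul, ← mul_assoc, inv_mul_cancel₀ hu0, one_mul] at this
  · have := stableUnder_spanOver L.S b _ hu' _ (h2 v hv)
    rwa [smul_smul, ← mul_assoc, inv_mul_cancel₀ hu0, one_mul] at this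

end Dual

section Quotients

open Fermat.Agent.S20.RR.AbstractDuality Fermat.Agent.S20.RR.IdealDim
  UniqueFactorizationMonoid

variable [IsDedekindDomain B] [IsFractionRing B F]

/-- (G5) the relative quotient of two ideal lattices `J * 𝔞 ≤ J` has dimension the number of prime
factors of `𝔞`, when all residue fields of `B` are `k`. -/
theorem finite_and_finrank_relQuot (hK : ResidueFieldsEq k B)
    {J : FractionalIdeal B⁰ F} (hJ : J ≠ 0) {𝔞 : Ideal B} (h𝔞 : 𝔞 ≠ ⊥) :
    Module.Finite k (RelQuot (idealLattice (k := k) (J * (𝔞 : FractionalIdeal B⁰ F)))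
        (idealLattice (k := k) J)) ∧
      Module.finrank k (RelQuot (idealLattice (k := k) (J * (𝔞 : FractionalIdeal B⁰ F)))
        (idealLattice (k := k) J)) = Multiset.card (normalizedFactors 𝔞) := by
  refine finite_and_finrank_of_length_eq k ?_
  have h1 := length_restrictScalars_quotient k
    ((J * (𝔞 : FractionalIdeal B⁰ F) : FractionalIdeal B⁰ F) : Submodule B F)
    (J : Submodule B F)
  have h2 := relLength_mul_coeIdeal_eq_card F hK hJ h𝔞
  unfold relLength at h2
  rw [← h2, ← h1]
  rfl

omit [IsDedekindDomain B] in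
theorem idealLattice_mul_coeIdeal_le (J : FractionalIdeal B⁰ F) (𝔞 : Ideal B) :
    idealLattice (k := k) (J * (𝔞 : FractionalIdeal B⁰ F)) ≤ idealLattice (k := k) J := by
  refine idealLattice_mono ?_
  calc J * (𝔞 : FractionalIdeal B⁰ F) ≤ J * 1 :=
        mul_le_mul_right FractionalIdeal.coeIdeal_le_one J
    _ = J := mul_one J

/-- **Riemann's theorem** for ideal lattices (first variable): shrinking `J` to `J * 𝔞` lowers the
Euler characteristic by the number of prime factors of `𝔞`. -/
theorem h0_add_h1_mul_coeIdeal (hK : ResidueFieldsEq k B)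
    {J : FractionalIdeal B⁰ F} (hJ : J ≠ 0) {𝔞 : Ideal B} (h𝔞 : 𝔞 ≠ ⊥) (M' : Submodule k F)
    (hfin : FinPair (idealLattice (k := k) (J * (𝔞 : FractionalIdeal B⁰ F))) M') :
    h0 (idealLattice (k := k) J) M' +
        h1 (idealLattice (k := k) (J * (𝔞 : FractionalIdeal B⁰ F))) M' =
      h0 (idealLattice (k := k) (J * (𝔞 : FractionalIdeal B⁰ F))) M' +
        h1 (idealLattice (k := k) J) M' + Multiset.card (normalizedFactors 𝔞) := by
  obtain ⟨hf, hr⟩ := finite_and_finrank_relQuot (k := k) hK hJ h𝔞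
  rw [← hr]
  exact h0_add_h1_of_le (idealLattice_mul_coeIdeal_le J 𝔞) M' hfin

/-- **Riemann's theorem** for ideal lattices (second variable). -/
theorem h0_add_h1_mul_coeIdeal_right (hK : ResidueFieldsEq k B)
    {J : FractionalIdeal B⁰ F} (hJ : J ≠ 0) {𝔞 : Ideal B} (h𝔞 : 𝔞 ≠ ⊥) (M : Submodule k F)
    (hfin : FinPair M (idealLattice (k := k) (J * (𝔞 : FractionalIdeal B⁰ F)))) :
    h0 M (idealLattice (k := k) J) +
        h1 M (idealLattice (k := k) (J * (𝔞 : FractionalIdeal B⁰ F))) =
      h0 M (idealLattice (k := k) (J * (𝔞 : FractionalIdeal B⁰ F))) +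
        h1 M (idealLattice (k := k) J) + Multiset.card (normalizedFactors 𝔞) := by
  obtain ⟨hf, hr⟩ := finite_and_finrank_relQuot (k := k) hK hJ h𝔞
  rw [← hr]
  exact h0_add_h1_of_le_right (idealLattice_mul_coeIdeal_le J 𝔞) M hfin

end Quotients

section Main

open Fermat.Agent.S20.RR.AbstractDuality Fermat.Agent.S20.RR.LatticeDuality

variable {k E F : Type*} [Field k] [Field E] [Field F] [Algebra k E] [Algebra E F] [Algebra k F]
  [IsScalarTower k E F] [FiniteDimensional E F] [Algebra.IsSeparable E F]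
  (L : LineData k E) [IsDedekindDomain ↥L.R] [IsFractionRing ↥L.R E] [IsDedekindDomain ↥L.S]
  [IsFractionRing ↥L.S E]
  {B : Type*} [CommRing B] [Algebra ↥L.R B] [Algebra B F] [IsScalarTower ↥L.R B F] [Algebra k B]
  [IsScalarTower k B F] [IsIntegralClosure B ↥L.R F] [IsFractionRing B F] [IsDedekindDomain B]
  {B' : Type*} [CommRing B'] [Algebra ↥L.S B'] [Algebra B' F] [IsScalarTower ↥L.S B' F]
  [Algebra k B'] [IsScalarTower k B' F] [IsIntegralClosure B' ↥L.S F] [IsFractionRing B' F]
  [IsDedekindDomain B']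

/-- **Serre duality for ideal lattice pairs.**  Let `F / E` be finite separable, `B` the integral
closure of `R` in `F` and `B'` the integral closure of `S` in `F` (both Dedekind).  For nonzero
fractional ideals `I` of `B` and `I'` of `B'`, the pair `(I, I')` of `k`-subspaces of `F` has
finite `h0`, `h1`, and is dual to the pair `(I^∨, x⁻² • I'^∨)` of trace duals. -/
theorem duality_idealLattice
    (hS : ∀ s ∈ L.S, s ≠ 0 → ∃ u ∈ L.S, u⁻¹ ∈ L.S ∧ ∃ m : ℕ, s = u * L.x⁻¹ ^ m)
    {I : FractionalIdeal B⁰ F} {I' : FractionalIdeal B'⁰ F} (hI : I ≠ 0) (hI' : I' ≠ 0) :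
    FinPair (idealLattice (k := k) I) (idealLattice (k := k) I') ∧
    FinPair (idealLattice (k := k) (FractionalIdeal.dual ↥L.R E I))
      (idealLattice (k := k) (scale (L.x⁻¹ ^ 2) (FractionalIdeal.dual ↥L.S E I'))) ∧
    h1 (idealLattice (k := k) I) (idealLattice (k := k) I') =
      h0 (idealLattice (k := k) (FractionalIdeal.dual ↥L.R E I))
        (idealLattice (k := k) (scale (L.x⁻¹ ^ 2) (FractionalIdeal.dual ↥L.S E I'))) ∧
    h0 (idealLattice (k := k) I) (idealLattice (k := k) I') =
      h1 (idealLattice (k := k) (FractionalIdeal.dual ↥L.R E I))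
        (idealLattice (k := k) (scale (L.x⁻¹ ^ 2) (FractionalIdeal.dual ↥L.S E I'))) := by
  have b := Module.finBasis E F
  have h := lattice_duality' (L := L) (b := b) (traceForm_nondegenerate E F)
    (Algebra.traceForm_isSymm (R := E) (S := F))
    (isRLattice_idealLattice L b hI) (isSLattice_idealLattice L hS b hI')
    (stableUnder_idealLattice L.R I) (stableUnder_idealLattice L.S I')
    (perpClosed_idealLattice_R L hI) (perpClosed_idealLattice_S L hI')
  rwa [dualR_idealLattice L hI, dualS_idealLattice L hI'] at h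

end Main

end Fermat.Agent.S20.RR.DedekindGlue
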