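/-
helper67 — P-S20 (Riemann–Roch for S20), Part III.

Generic facts about a Dedekind domain `B` with fraction field `F`:
* `count_spanSingleton` : the `v`-adic exponent of a principal fractional ideal is the valuation;
* `le_iff_forall_count_le`, `mem_iff_forall_count_le` : fractional ideals are determined by their
  exponents; membership in a fractional ideal is a family of valuation inequalities;
* `idealOfExps e` : the fractional ideal `∏ v ^ (e v)` of a finitely supported exponent function,
  with `mem_idealOfExps_iff`;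
* `exists_approx` : the Chinese remainder theorem for elements of the fraction field
  (approximation at finitely many primes, integrality at all other primes).
-/
import Mathlib

set_option autoImplicit false

namespace Fermat.Agent.S20.RR.DedekindMem

open IsDedekindDomain HeightOneSpectrum FractionalIdeal WithZero nonZeroDivisors

variable {B : Type*} [CommRing B] [IsDedekindDomain B]
variable (F : Type*) [Field F] [Algebra B F] [IsFractionRing B F]

/-- The `v`-adic exponent of `f`, as an integer. -/
noncomputable def ordAt (v : HeightOneSpectrum B) (f : F) : ℤ := -log (v.valuation F f)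

variable {F}

theorem count_spanSingleton (v : HeightOneSpectrum B) {f : F} (hf : f ≠ 0) :
    count F v (spanSingleton B⁰ f) = ordAt F v f := by
  classical
  obtain ⟨a, b, hb, rfl⟩ := IsFractionRing.div_surjective (A := B) f
  have hb0 : b ≠ 0 := nonZeroDivisors.ne_zero hb
  have ha0 : a ≠ 0 := by
    rintro rfl
    rw [map_zero, zero_div] at hf
    exact hf rfl
  have hI : spanSingleton B⁰ (algebraMap B F a / algebraMap B F b) ≠ 0 := by
    rwa [spanSingleton_ne_zero_iff]
  have haJ : spanSingleton B⁰ (algebraMap B F a / algebraMap B F b) =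
      spanSingleton B⁰ ((algebraMap B F b)⁻¹) * ↑(Ideal.span {a} : Ideal B) := by
    rw [coeIdeal_span_singleton, spanSingleton_mul_spanSingleton, div_eq_inv_mul]
  rw [count_well_defined F v hI haJ, ordAt, map_div₀, valuation_of_algebraMap,
    valuation_of_algebraMap, intValuation_if_neg v ha0, intValuation_if_neg v hb0,
    ← exp_sub, log_exp]
  ring

theorem one_le_of_count_nonneg {J : FractionalIdeal B⁰ F} (hJ : J ≠ 0)
    (h : ∀ v : HeightOneSpectrum B, 0 ≤ count F v J) : J ≤ 1 := by
  rw [← finprod_heightOneSpectrum_factorization' F hJ]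
  apply finprod_induction (fun I : FractionalIdeal B⁰ F => I ≤ 1)
  · exact le_rfl
  · intro x y hx hy
    calc x * y ≤ 1 * 1 := mul_le_mul' hx hy
      _ = 1 := one_mul 1
  · intro v
    obtain ⟨m, hm⟩ := Int.eq_ofNat_of_zero_le (h v)
    rw [hm, zpow_natCast, ← coeIdeal_pow]
    exact coeIdeal_le_one

theorem le_iff_forall_count_le {I J : FractionalIdeal B⁰ F} (hI : I ≠ 0) (hJ : J ≠ 0) :
    J ≤ I ↔ ∀ v : HeightOneSpectrum B, count F v I ≤ count F v J := by
  constructor
  · intro h v
    exact count_mono F v hJ h
  · intro h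
    have hJI : J * I⁻¹ ≠ 0 := mul_ne_zero hJ (inv_ne_zero hI)
    have h1 : J * I⁻¹ ≤ 1 := by
      apply one_le_of_count_nonneg hJI
      intro v
      rw [count_mul F v hJ (inv_ne_zero hI), count_inv]
      have := h v
      omega
    calc J = J * I⁻¹ * I := by rw [mul_assoc, inv_mul_cancel₀ hI, mul_one]
      _ ≤ 1 * I := mul_le_mul' h1 le_rfl
      _ = I := one_mul I

theorem eq_of_forall_count_eq {I J : FractionalIdeal B⁰ F} (hI : I ≠ 0) (hJ : J ≠ 0)
    (h : ∀ v : HeightOneSpectrum B, count F v I = count F v J) : I = J :=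
  le_antisymm ((le_iff_forall_count_le hJ hI).mpr fun v => (h v).ge)
    ((le_iff_forall_count_le hI hJ).mpr fun v => (h v).le)

theorem mem_iff_forall_count_le {I : FractionalIdeal B⁰ F} (hI : I ≠ 0) {f : F} (hf : f ≠ 0) :
    f ∈ I ↔ ∀ v : HeightOneSpectrum B, count F v I ≤ ordAt F v f := by
  rw [← spanSingleton_le_iff_mem,
    le_iff_forall_count_le hI ((spanSingleton_ne_zero_iff).mpr hf)]
  exact forall_congr' fun v => by rw [count_spanSingleton v hf]

variable (F)

/-- The fractional ideal `∏ v ^ (e v)`. -/
noncomputable def idealOfExps (e : HeightOneSpectrum B →₀ ℤ) : FractionalIdeal B⁰ F :=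
  e.prod fun v n => (v.asIdeal : FractionalIdeal B⁰ F) ^ n

variable {F}

theorem idealOfExps_ne_zero (e : HeightOneSpectrum B →₀ ℤ) : idealOfExps F e ≠ 0 := by
  unfold idealOfExps
  rw [Finsupp.prod, Finset.prod_ne_zero_iff]
  intro v _
  exact zpow_ne_zero _ (coeIdeal_ne_zero.mpr v.ne_bot)

@[simp] theorem count_idealOfExps (e : HeightOneSpectrum B →₀ ℤ) (v : HeightOneSpectrum B) :
    count F v (idealOfExps F e) = e v :=
  count_finsuppProd F v e

theorem mem_idealOfExps_iff (e : HeightOneSpectrum B →₀ ℤ) {f : F} :
    f ∈ idealOfExps F e ↔ f = 0 ∨ ∀ v : HeightOneSpectrum B, e v ≤ ordAt F v f := by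
  by_cases hf : f = 0
  · subst hf
    exact ⟨fun _ => Or.inl rfl, fun _ => FractionalIdeal.zero_mem _⟩
  · rw [mem_iff_forall_count_le (idealOfExps_ne_zero e) hf, or_iff_right hf]
    exact forall_congr' fun v => by rw [count_idealOfExps]

theorem idealOfExps_add (e₁ e₂ : HeightOneSpectrum B →₀ ℤ) :
    idealOfExps F (e₁ + e₂) = idealOfExps F e₁ * idealOfExps F e₂ := by
  have h1 : idealOfExps F e₁ ≠ 0 := idealOfExps_ne_zero e₁
  have h2 : idealOfExps F e₂ ≠ 0 := idealOfExps_ne_zero e₂
  apply eq_of_forall_count_eq (idealOfExps_ne_zero _) (mul_ne_zero h1 h2)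
  intro v
  rw [count_mul F v h1 h2]
  simp

theorem idealOfExps_neg (e : HeightOneSpectrum B →₀ ℤ) :
    idealOfExps F (-e) = (idealOfExps F e)⁻¹ := by
  apply eq_of_forall_count_eq (idealOfExps_ne_zero _) (inv_ne_zero (idealOfExps_ne_zero _))
  intro v
  rw [count_inv]
  simp

theorem idealOfExps_zero : idealOfExps F (0 : HeightOneSpectrum B →₀ ℤ) = 1 := by
  unfold idealOfExps
  simp

/-- Every nonzero fractional ideal is `idealOfExps` of its exponents. -/
theorem exists_eq_idealOfExps {I : FractionalIdeal B⁰ F} (hI : I ≠ 0) :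
    ∃ e : HeightOneSpectrum B →₀ ℤ, (∀ v, e v = count F v I) ∧ I = idealOfExps F e := by
  have hfin : {v : HeightOneSpectrum B | count F v I ≠ 0}.Finite := by
    have := finite_factors (K := F) I
    rw [Filter.eventually_cofinite] at this
    exact this
  let e : HeightOneSpectrum B →₀ ℤ :=
    Finsupp.mk hfin.toFinset (fun v => count F v I) (fun v => by simp)
  refine ⟨e, fun v => rfl, ?_⟩
  apply eq_of_forall_count_eq hI (idealOfExps_ne_zero _)
  intro v
  rw [count_idealOfExps]
  rfl

/-- **Chinese remainder theorem in the fraction field.**  Given finitely many primes `v ∈ s` with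
targets `a v : F` and precisions `n v : ℤ`, there is `f : F` with `v (f - a v) ≤ exp (-n v)` for
`v ∈ s` and `v f ≤ 1` for all `v ∉ s`. -/
theorem exists_approx (s : Finset (HeightOneSpectrum B)) (a : HeightOneSpectrum B → F)
    (n : HeightOneSpectrum B → ℤ) :
    ∃ f : F, (∀ v ∈ s, v.valuation F (f - a v) ≤ exp (-(n v))) ∧
      ∀ v ∉ s, v.valuation F f ≤ 1 := by
  classical
  obtain ⟨d, hd⟩ := IsLocalization.exist_integer_multiples B⁰ s a
  have hd0 : (d : B) ≠ 0 := nonZeroDivisors.coe_ne_zero d
  have hdF : algebraMap B F (d : B) ≠ 0 :=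
    (map_ne_zero_iff _ (IsFractionRing.injective B F)).mpr hd0
  choose! b hb using hd
  -- exponent of `d` at each prime
  have hm : ∀ v : HeightOneSpectrum B, ∃ m : ℕ, v.intValuation (d : B) = exp (-(m : ℤ)) :=
    fun v => ⟨_, intValuation_if_neg v hd0⟩
  choose m hm using hm
  have hfin : {v : HeightOneSpectrum B | v.asIdeal ∣ Ideal.span {(d : B)}}.Finite :=
    Ideal.finite_factors (by
      rw [Ne, Ideal.zero_eq_bot, Ideal.span_singleton_eq_bot]; exact hd0)
  set T : Finset (HeightOneSpectrum B) := s ∪ hfin.toFinset with hT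
  let e : HeightOneSpectrum B → ℕ := fun v => if v ∈ s then (n v + m v).toNat else m v
  let x : T → B := fun i => if i.1 ∈ s then b i.1 else 0
  obtain ⟨y, hy⟩ := IsDedekindDomain.exists_forall_sub_mem_ideal
    (fun v : HeightOneSpectrum B => v.asIdeal) e (s := T) (fun v _ => v.prime)
    (fun v _ w _ hvw h => hvw (HeightOneSpectrum.ext h)) x
  refine ⟨algebraMap B F y / algebraMap B F (d : B), ?_, ?_⟩
  · intro v hv
    have hvT : v ∈ T := Finset.mem_union_left _ hv
    have h1 := hy v hvT
    simp only [x, if_pos hv, e] at h1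
    have hbv : algebraMap B F (b v) = algebraMap B F (d : B) * a v := by
      rw [hb v hv, Algebra.smul_def]
    have e1 : algebraMap B F y / algebraMap B F (d : B) - a v =
        algebraMap B F (y - b v) / algebraMap B F (d : B) := by
      rw [map_sub, hbv]
      field_simp
    rw [e1, map_div₀, valuation_of_algebraMap, valuation_of_algebraMap, hm v]
    have h2 := (intValuation_le_pow_iff_mem v (y - b v) _).mpr h1
    calc v.intValuation (y - b v) / exp (-(m v : ℤ))
        ≤ exp (-(((n v + m v).toNat : ℕ) : ℤ)) / exp (-(m v : ℤ)) := by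
          gcongr
          exact zero_le
      _ = exp (-(((n v + m v).toNat : ℕ) : ℤ) - -(m v : ℤ)) := (exp_sub _ _).symm
      _ ≤ exp (-(n v)) := by
          rw [exp_le_exp]
          have := Int.self_le_toNat (n v + m v)
          omega
  · intro v hv
    rw [map_div₀, valuation_of_algebraMap, valuation_of_algebraMap]
    have hdv : v.intValuation (d : B) ≠ 0 := intValuation_ne_zero v _ hd0
    rw [div_le_one₀ (zero_lt_iff.mpr hdv)]
    by_cases hvT : v ∈ T
    · have h1 := hy v hvT
      simp only [x, if_neg hv, e, sub_zero] at h1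
      rw [hm v]
      exact (intValuation_le_pow_iff_mem v y _).mpr h1
    · have hnd : ¬ v.asIdeal ∣ Ideal.span {(d : B)} := by
        intro h
        exact hvT (Finset.mem_union_right _ (hfin.mem_toFinset.mpr h))
      have h1 : v.intValuation (d : B) = 1 := by
        have := (intValuation_lt_one_iff_dvd v (d : B)).not.mpr hnd
        exact le_antisymm (intValuation_le_one v _) (not_lt.mp this)
      rw [h1]
      exact intValuation_le_one v y

end Fermat.Agent.S20.RR.DedekindMem
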