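/-
Tame different exponent for extensions of Dedekind domains.

For a finite torsion-free separable extension `B / A` of Dedekind domains, a maximal ideal
`p ≠ ⊥` of `A` and a maximal ideal `P` of `B` with `p B = P ^ e * Q`, `P` coprime to `Q`:
if the dimension of `B ⧸ P ^ e` over `A ⧸ p` is nonzero in `A ⧸ p` (automatic when `A ⧸ p`
has characteristic zero) then `P ^ e` does not divide the different ideal, so together with
Mathlib's `pow_sub_one_dvd_differentIdeal` the exponent of `P` in the different is exactly `e - 1`.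
-/
import Mathlib

namespace Fermat.Agent.S20.RR.Different

open Module nonZeroDivisors UniqueFactorizationMonoid

attribute [local instance] FractionRing.liftAlgebra FractionRing.isScalarTower_liftAlgebra
  Ideal.Quotient.field

/-- If `R` is an algebra over a field `K` of characteristic zero, every nontrivial quotient of `R`
has characteristic zero. -/
theorem charZero_quotient_of_algebra (R : Type*) [CommRing R] (K : Type*) [Field K] [CharZero K]
    [Algebra K R] (p : Ideal R) (hp : p ≠ ⊤) : CharZero (R ⧸ p) := by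
  have : Nontrivial (R ⧸ p) := Ideal.Quotient.nontrivial_iff.mpr hp
  exact charZero_of_injective_algebraMap (algebraMap K (R ⧸ p)).injective

variable (A : Type*) {B : Type*} [CommRing A] [CommRing B] [Algebra A B]
  [IsDedekindDomain A] [IsDedekindDomain B] [Module.IsTorsionFree A B] [Module.Finite A B]
  [Algebra.IsSeparable (FractionRing A) (FractionRing B)]

/-- Core statement: if `I * Q = p B` with `I`, `Q` coprime and the `A ⧸ p`-dimension of `B ⧸ I`
is nonzero in `A ⧸ p`, then `I` does not divide the different ideal. -/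
theorem not_dvd_differentIdeal_of_finrank_ne_zero
    {p : Ideal A} [p.IsMaximal] (I Q : Ideal B)
    (hIQ : IsCoprime I Q) (hI : I * Q = Ideal.map (algebraMap A B) p)
    (h : ∀ [Algebra (A ⧸ p) (B ⧸ I)] [IsScalarTower A (A ⧸ p) (B ⧸ I)],
      ((Module.finrank (A ⧸ p) (B ⧸ I) : ℕ) : A ⧸ p) ≠ 0) :
    ¬ I ∣ differentIdeal A B := by
  let : Algebra (A ⧸ p) (B ⧸ Q) := Ideal.Quotient.algebraQuotientOfLEComap (by
      rw [← Ideal.map_le_iff_le_comap, ← hI]
      exact Ideal.mul_le_right)
  let : Algebra (A ⧸ p) (B ⧸ I) := Ideal.Quotient.algebraQuotientOfLEComap (by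
      rw [← Ideal.map_le_iff_le_comap, ← hI]
      exact Ideal.mul_le_left)
  have : IsScalarTower A (A ⧸ p) (B ⧸ Q) := .of_algebraMap_eq' rfl
  have : IsScalarTower A (A ⧸ p) (B ⧸ I) := .of_algebraMap_eq' rfl
  have : Module.Finite (A ⧸ p) (B ⧸ Q) :=
    Module.Finite.of_restrictScalars_finite A (A ⧸ p) (B ⧸ Q)
  have : Module.Finite (A ⧸ p) (B ⧸ I) :=
    Module.Finite.of_restrictScalars_finite A (A ⧸ p) (B ⧸ I)
  let e : (B ⧸ p.map (algebraMap A B)) ≃ₐ[A ⧸ p] ((B ⧸ I) × B ⧸ Q) :=
    { __ := (Ideal.quotEquivOfEq hI.symm).trans (Ideal.quotientMulEquivQuotientProd I Q hIQ),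
      commutes' := Quotient.ind fun _ ↦ rfl }
  obtain ⟨y, hy⟩ := Ideal.Quotient.mk_surjective (e.symm (1, 0))
  refine not_dvd_differentIdeal_of_intTrace_not_mem A I Q hI y ?_ ?_
  · have := congr((e $hy).2)
    simp at this
    simpa [e, Ideal.Quotient.eq_zero_iff_mem] using this
  · rw [← Ideal.Quotient.eq_zero_iff_mem, ← Algebra.trace_quotient_eq_of_isDedekindDomain,
      hy, Algebra.trace_eq_of_algEquiv, Algebra.trace_prod_apply]
    simp only [map_zero, add_zero]
    have h1 : (1 : B ⧸ I) = algebraMap (A ⧸ p) (B ⧸ I) 1 := (map_one _).symm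
    rw [h1, Algebra.trace_algebraMap, nsmul_eq_mul, mul_one]
    exact h

/-- Characteristic zero version: if `I * Q = p B` with `I`, `Q` coprime, `I ≠ ⊤` and `A ⧸ p` of
characteristic zero, then `I` does not divide the different ideal. -/
theorem not_dvd_differentIdeal_of_charZero
    {p : Ideal A} [p.IsMaximal] [CharZero (A ⧸ p)] (I Q : Ideal B)
    (hIQ : IsCoprime I Q) (hI : I * Q = Ideal.map (algebraMap A B) p) (hItop : I ≠ ⊤) :
    ¬ I ∣ differentIdeal A B := by
  refine not_dvd_differentIdeal_of_finrank_ne_zero A I Q hIQ hI ?_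
  intro _ _
  have : Module.Finite (A ⧸ p) (B ⧸ I) :=
    Module.Finite.of_restrictScalars_finite A (A ⧸ p) (B ⧸ I)
  have : Nontrivial (B ⧸ I) := Ideal.Quotient.nontrivial_iff.mpr hItop
  exact Nat.cast_ne_zero.mpr Module.finrank_pos.ne'

/-- Tame different exponent, divisibility form: for `P` a nonzero prime of `B` over the nonzero
maximal ideal `p` of `A` with `A ⧸ p` of characteristic zero, and `e` the exponent of `P` in
`p B`, one has `P ^ (e - 1) ∣ 𝔇` and `¬ P ^ e ∣ 𝔇`. -/
theorem pow_dvd_differentIdeal_and_not_pow_dvd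
    {p : Ideal A} [p.IsMaximal] [CharZero (A ⧸ p)] (hp : p ≠ ⊥)
    (P : Ideal B) [P.IsPrime] (hP : P ≠ ⊥) (hPp : Ideal.map (algebraMap A B) p ≤ P) :
    P ^ (Multiset.count P (normalizedFactors (Ideal.map (algebraMap A B) p)) - 1) ∣
        differentIdeal A B ∧
      ¬ P ^ Multiset.count P (normalizedFactors (Ideal.map (algebraMap A B) p)) ∣
        differentIdeal A B := by
  have hp' : Ideal.map (algebraMap A B) p ≠ ⊥ :=
    (Ideal.map_eq_bot_iff_of_injective (FaithfulSMul.algebraMap_injective A B)).not.mpr hp
  have hPmax : P.IsMaximal := Ideal.IsPrime.isMaximal inferInstance hP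
  obtain ⟨Q, h₁, h₂⟩ := Ideal.eq_prime_pow_mul_coprime hp' P
  set e := Multiset.count P (normalizedFactors (Ideal.map (algebraMap A B) p)) with he
  have he0 : e ≠ 0 := by
    rw [he, Multiset.count_ne_zero]
    obtain ⟨q, hq, hPq⟩ := exists_mem_normalizedFactors_of_dvd hp'
      ((Ideal.prime_iff_isPrime hP).mpr inferInstance).irreducible (Ideal.dvd_iff_le.mpr hPp)
    rwa [associated_iff_eq.mp hPq]
  refine ⟨pow_sub_one_dvd_differentIdeal A P e hp ⟨Q, h₂⟩, ?_⟩
  have hcop : IsCoprime (P ^ e) Q := (Ideal.isCoprime_iff_sup_eq.mpr h₁).pow_left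
  refine not_dvd_differentIdeal_of_charZero A (P ^ e) Q hcop h₂.symm ?_
  intro htop
  exact hPmax.ne_top (top_le_iff.mp (htop ▸ Ideal.pow_le_self he0))

/-- Tame different exponent, `normalizedFactors` form: the exponent of `P` in the different ideal
is `e - 1`, with `e` the exponent of `P` in `p B`. -/
theorem count_normalizedFactors_differentIdeal
    {p : Ideal A} [p.IsMaximal] [CharZero (A ⧸ p)] (hp : p ≠ ⊥)
    (P : Ideal B) [P.IsPrime] (hP : P ≠ ⊥) (hPp : Ideal.map (algebraMap A B) p ≤ P) :
    Multiset.count P (normalizedFactors (differentIdeal A B)) =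
      Multiset.count P (normalizedFactors (Ideal.map (algebraMap A B) p)) - 1 := by
  obtain ⟨h₁, h₂⟩ := pow_dvd_differentIdeal_and_not_pow_dvd A hp P hP hPp
  have hp' : Ideal.map (algebraMap A B) p ≠ ⊥ :=
    (Ideal.map_eq_bot_iff_of_injective (FaithfulSMul.algebraMap_injective A B)).not.mpr hp
  have hirr : Irreducible P := ((Ideal.prime_iff_isPrime hP).mpr inferInstance).irreducible
  have he0 : Multiset.count P (normalizedFactors (Ideal.map (algebraMap A B) p)) ≠ 0 := by
    rw [Multiset.count_ne_zero]
    obtain ⟨q, hq, hPq⟩ := exists_mem_normalizedFactors_of_dvd hp' hirr (Ideal.dvd_iff_le.mpr hPp)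
    rwa [associated_iff_eq.mp hPq]
  refine count_normalizedFactors_eq hirr (normalize_eq P) h₁ ?_
  rwa [Nat.sub_add_cancel (Nat.one_le_iff_ne_zero.mpr he0)]

/-- Tame different exponent, `multiplicity` form. -/
theorem multiplicity_differentIdeal
    {p : Ideal A} [p.IsMaximal] [CharZero (A ⧸ p)] (hp : p ≠ ⊥)
    (P : Ideal B) [P.IsPrime] (hP : P ≠ ⊥) (hPp : Ideal.map (algebraMap A B) p ≤ P) :
    multiplicity P (differentIdeal A B) =
      multiplicity P (Ideal.map (algebraMap A B) p) - 1 := by
  have hp' : Ideal.map (algebraMap A B) p ≠ ⊥ :=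
    (Ideal.map_eq_bot_iff_of_injective (FaithfulSMul.algebraMap_injective A B)).not.mpr hp
  have h := count_normalizedFactors_differentIdeal A hp P hP hPp
  rwa [IsDedekindDomain.HeightOneSpectrum.count_normalizedFactors_eq_multiplicity
      (differentIdeal_ne_bot) ⟨P, inferInstance, hP⟩,
    IsDedekindDomain.HeightOneSpectrum.count_normalizedFactors_eq_multiplicity
      hp' ⟨P, inferInstance, hP⟩] at h

/-- Tame different exponent in terms of `Ideal.ramificationIdx'`. -/
theorem count_normalizedFactors_differentIdeal_eq_ramificationIdx'_sub_one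
    {p : Ideal A} [p.IsMaximal] [CharZero (A ⧸ p)] (hp : p ≠ ⊥)
    (P : Ideal B) [P.IsPrime] (hP : P ≠ ⊥) (hPp : Ideal.map (algebraMap A B) p ≤ P) :
    Multiset.count P (normalizedFactors (differentIdeal A B)) =
      Ideal.ramificationIdx' p P - 1 := by
  have hp' : Ideal.map (algebraMap A B) p ≠ ⊥ :=
    (Ideal.map_eq_bot_iff_of_injective (FaithfulSMul.algebraMap_injective A B)).not.mpr hp
  rw [count_normalizedFactors_differentIdeal A hp P hP hPp,
    Ideal.IsDedekindDomain.ramificationIdx'_eq_normalizedFactors_count hp' inferInstance hP]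

/-- Tame different exponent in terms of the intrinsic `Ideal.ramificationIdx`. -/
theorem count_normalizedFactors_differentIdeal_eq_ramificationIdx_sub_one
    (P : Ideal B) [P.IsPrime] (hP : P ≠ ⊥) [CharZero (A ⧸ P.under A)] :
    Multiset.count P (normalizedFactors (differentIdeal A B)) = P.ramificationIdx A - 1 := by
  have hp : P.under A ≠ ⊥ := mt Ideal.eq_bot_of_comap_eq_bot hP
  have hp' : Ideal.map (algebraMap A B) (P.under A) ≠ ⊥ :=
    (Ideal.map_eq_bot_iff_of_injective (FaithfulSMul.algebraMap_injective A B)).not.mpr hp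
  have : (P.under A).IsMaximal := Ideal.IsPrime.isMaximal inferInstance hp
  rw [count_normalizedFactors_differentIdeal A hp P hP Ideal.map_comap_le,
    Ideal.IsDedekindDomain.ramificationIdx_eq_normalizedFactors_count (P.under A) P hp']

/-- Tame different exponent for height one primes, `multiplicity` normal form. -/
theorem multiplicity_differentIdeal_heightOneSpectrum
    (v : IsDedekindDomain.HeightOneSpectrum B) [CharZero (A ⧸ v.asIdeal.under A)] :
    multiplicity v.asIdeal (differentIdeal A B) = v.asIdeal.ramificationIdx A - 1 := by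
  rw [← IsDedekindDomain.HeightOneSpectrum.count_normalizedFactors_eq_multiplicity
      (differentIdeal_ne_bot) v]
  exact count_normalizedFactors_differentIdeal_eq_ramificationIdx_sub_one A v.asIdeal v.ne_bot

/-- Tame different exponent when `A` is an algebra over a field of characteristic zero. -/
theorem multiplicity_differentIdeal_of_algebra (K : Type*) [Field K] [CharZero K] [Algebra K A]
    (v : IsDedekindDomain.HeightOneSpectrum B) :
    multiplicity v.asIdeal (differentIdeal A B) = v.asIdeal.ramificationIdx A - 1 := by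
  have : CharZero (A ⧸ v.asIdeal.under A) :=
    charZero_quotient_of_algebra A K _ (Ideal.IsPrime.ne_top inferInstance)
  exact multiplicity_differentIdeal_heightOneSpectrum A v

/-- Global form: over a field of characteristic zero the different ideal is the product of
`P ^ (e_P - 1)` over all height one primes `P` of `B`. -/
theorem differentIdeal_eq_finprod_of_algebra (K : Type*) [Field K] [CharZero K] [Algebra K A] :
    differentIdeal A B = ∏ᶠ v : IsDedekindDomain.HeightOneSpectrum B,
      v.asIdeal ^ (v.asIdeal.ramificationIdx A - 1) := by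
  conv_lhs => rw [← Ideal.finprod_heightOneSpectrum_pow_multiplicity
    (differentIdeal_ne_bot (A := A) (B := B))]
  refine finprod_congr fun v ↦ ?_
  rw [multiplicity_differentIdeal_of_algebra A K v]

end Fermat.Agent.S20.RR.Different
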