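/-
Dimension of `traceDual B / B` over the base field: it is the number of prime factors of the
different ideal, i.e. `∑ (e_P - 1)` in the tame (characteristic zero) case.
-/
import Fermat.Agent.S20.RR.Different
import Fermat.Agent.S20.RR.IdealDim

set_option linter.unusedSectionVars false

namespace Fermat.Agent.S20.RR.DualDim

open Module UniqueFactorizationMonoid nonZeroDivisors IsDedekindDomain
open Fermat.Agent.S20.RR.IdealDim Fermat.Agent.S20.RR.Different

attribute [local instance] FractionRing.liftAlgebra FractionRing.isScalarTower_liftAlgebra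

section Sep

/-- Separability of the canonical fraction fields from separability of any model. -/
theorem isSeparable_fractionRing (A E F B : Type*) [CommRing A] [Field E] [CommRing B] [Field F]
    [Algebra A E] [Algebra B F] [Algebra A B] [Algebra E F] [Algebra A F]
    [IsScalarTower A E F] [IsScalarTower A B F]
    [IsFractionRing A E] [Algebra.IsSeparable E F]
    [IsDomain A] [IsDomain B] [Module.IsTorsionFree A B] [IsFractionRing B F] :
    Algebra.IsSeparable (FractionRing A) (FractionRing B) := by
  have H : RingHom.comp (algebraMap (FractionRing A) (FractionRing B))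
      ↑(FractionRing.algEquiv A E).symm.toRingEquiv =
        RingHom.comp ↑(FractionRing.algEquiv B F).symm.toRingEquiv (algebraMap E F) := by
    apply IsLocalization.ringHom_ext A⁰
    ext
    simp only [RingHom.coe_comp, RingHom.coe_coe,
      AlgEquiv.coe_ringEquiv, Function.comp_apply, AlgEquiv.commutes,
      ← IsScalarTower.algebraMap_apply]
    rw [IsScalarTower.algebraMap_apply A B F, AlgEquiv.commutes, ← IsScalarTower.algebraMap_apply]
  exact Algebra.IsSeparable.of_equiv_equiv _ _ H

end Sep

section Dual

variable (k : Type*) [Field k] (A E : Type*) (F : Type*) {B : Type*} [CommRing A] [Field E]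
  [CommRing B] [Field F]
  [Algebra A E] [Algebra B F] [Algebra A B] [Algebra E F] [Algebra A F]
  [IsScalarTower A E F] [IsScalarTower A B F]
  [IsFractionRing A E] [FiniteDimensional E F] [Algebra.IsSeparable E F] [IsIntegralClosure B A F]
  [IsDedekindDomain A] [IsDedekindDomain B] [Module.IsTorsionFree A B] [IsFractionRing B F]
  [Module.Finite A B]
  [Algebra k B] [Algebra k F] [IsScalarTower k B F]

/-- The `k`-length of `Bᵛ / B` (`Bᵛ` the trace dual of `B`) is the number of prime factors of the
different ideal, when all residue fields of `B` are `k`. -/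
theorem relLength_one_dual (hK : ResidueFieldsEq k B) :
    relLength k F (1 : FractionalIdeal B⁰ F) (FractionalIdeal.dual A E 1) =
      Multiset.card (normalizedFactors (differentIdeal A B)) := by
  have : Algebra.IsSeparable (FractionRing A) (FractionRing B) :=
    isSeparable_fractionRing A E F B
  have hne : FractionalIdeal.dual A E (1 : FractionalIdeal B⁰ F) ≠ 0 :=
    FractionalIdeal.dual_ne_zero A E one_ne_zero
  have h : (1 : FractionalIdeal B⁰ F) =
      FractionalIdeal.dual A E 1 * ((differentIdeal A B : Ideal B) : FractionalIdeal B⁰ F) := by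
    rw [coeIdeal_differentIdeal A E F, mul_inv_cancel₀ hne]
  have h2 := relLength_mul_coeIdeal_eq_card (K := k) F hK hne (differentIdeal_ne_bot (A := A) (B := B))
  rwa [← h] at h2

end Dual

section Hurwitz

variable (k : Type*) [Field k] (A : Type*) {B : Type*} [CommRing A] [CommRing B] [Algebra A B]
  [IsDedekindDomain A] [IsDedekindDomain B] [Module.IsTorsionFree A B] [Module.Finite A B]
  [Algebra k A] [Algebra k B] [IsScalarTower k A B]

/-- If all residue fields of `B` are `k` then all inertia degrees over `A` are one. -/
theorem inertiaDeg_eq_one (hK : ResidueFieldsEq k B) (p : Ideal A) [p.IsMaximal]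
    (P : Ideal B) [P.IsMaximal] [P.LiesOver p] (hP : P ≠ ⊥) : P.inertiaDeg A = 1 := by
  rw [Ideal.inertiaDeg_eq_of_isMaximal p P]
  let _ : Field (A ⧸ p) := Ideal.Quotient.field p
  let _ : Field (B ⧸ P) := Ideal.Quotient.field P
  have hsurj : Function.Surjective (algebraMap (A ⧸ p) (B ⧸ P)) := by
    intro y
    obtain ⟨c, rfl⟩ := hK ⟨P, inferInstance, hP⟩ y
    refine ⟨Ideal.Quotient.mk p (algebraMap k A c), ?_⟩
    rw [Ideal.Quotient.algebraMap_mk_of_liesOver, ← IsScalarTower.algebraMap_apply k A B]
    rfl
  have e : (A ⧸ p) ≃ₗ[A ⧸ p] (B ⧸ P) :=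
    LinearEquiv.ofBijective (Algebra.linearMap (A ⧸ p) (B ⧸ P))
      ⟨(algebraMap (A ⧸ p) (B ⧸ P)).injective, hsurj⟩
  rw [← e.finrank_eq, Module.finrank_self]

/-- For a nonzero maximal ideal `p` of `A`: `∑_{P ∣ p} (e_P - 1) + #{P ∣ p} = [B : A]` when all
residue fields of `B` are `k`. -/
theorem sum_ramificationIdx_sub_one_add_card (hK : ResidueFieldsEq k B) (p : Ideal A)
    [p.IsMaximal] (hp : p ≠ ⊥) [Fintype (p.primesOver B)] :
    ∑ P : p.primesOver B, (P.1.ramificationIdx A - 1) + Fintype.card (p.primesOver B) =
      Module.finrank A B := by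
  rw [← Ideal.sum_ramification_inertia_eq_finrank p B, Fintype.card_eq_sum_ones,
    ← Finset.sum_add_distrib]
  refine Finset.sum_congr rfl fun P _ => ?_
  have hPprime : P.1.IsPrime := P.2.1
  have hPover : P.1.LiesOver p := P.2.2
  have hPbot : P.1 ≠ ⊥ := Ideal.ne_bot_of_liesOver_of_ne_bot hp P.1
  have hPmax : P.1.IsMaximal := hPprime.isMaximal hPbot
  rw [inertiaDeg_eq_one k A hK p P.1 hPbot, mul_one]
  have := Ideal.ramificationIdx_pos P.1 A
  omega

/-- The same with `IsDedekindDomain.primesOverFinset`. -/
theorem sum_primesOverFinset_add_card (hK : ResidueFieldsEq k B) (p : Ideal A)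
    [p.IsMaximal] (hp : p ≠ ⊥) :
    ∑ P ∈ IsDedekindDomain.primesOverFinset p B, (P.ramificationIdx A - 1) + (IsDedekindDomain.primesOverFinset p B).card =
      Module.finrank A B := by
  classical
  let _ : Fintype (p.primesOver B) :=
    Fintype.ofFinset (IsDedekindDomain.primesOverFinset p B) (fun P => IsDedekindDomain.mem_primesOverFinset_iff hp B)
  rw [← sum_ramificationIdx_sub_one_add_card k A hK p hp]
  congr 1
  · exact Finset.sum_subtype (IsDedekindDomain.primesOverFinset p B) (fun P => IsDedekindDomain.mem_primesOverFinset_iff hp B) _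
  · exact (Fintype.card_ofFinset _ _).symm

/-- **Riemann–Hurwitz bookkeeping**: if `S` is a finite set of nonzero maximal ideals of `A`
containing every prime below a prime factor of the different, then
`#(prime factors of 𝔇) + ∑_{p ∈ S} #{P ∣ p} = #S * [B : A]`. -/
theorem card_normalizedFactors_differentIdeal_add_sum [CharZero k]
    [Algebra.IsSeparable (FractionRing A) (FractionRing B)] (hK : ResidueFieldsEq k B)
    (S : Finset (Ideal A)) (hS : ∀ p ∈ S, p.IsMaximal ∧ p ≠ ⊥)
    (hram : ∀ P ∈ normalizedFactors (differentIdeal A B), P.under A ∈ S) :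
    Multiset.card (normalizedFactors (differentIdeal A B)) +
        ∑ p ∈ S, (IsDedekindDomain.primesOverFinset p B).card =
      S.card * Module.finrank A B := by
  classical
  set D := normalizedFactors (differentIdeal A B) with hD
  have key : ∀ P : Ideal B, P.IsPrime → P ≠ ⊥ → D.count P = P.ramificationIdx A - 1 := by
    intro P hP hP0
    have : CharZero (A ⧸ P.under A) :=
      charZero_quotient_of_algebra A k _ (Ideal.IsPrime.ne_top inferInstance)
    exact count_normalizedFactors_differentIdeal_eq_ramificationIdx_sub_one A P hP0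
  have hmem : ∀ p ∈ S, ∀ P ∈ IsDedekindDomain.primesOverFinset p B,
      P.IsPrime ∧ P.LiesOver p ∧ P ≠ ⊥ := by
    intro p hp P hP
    have hpmax := (hS p hp).1
    have h := (IsDedekindDomain.mem_primesOverFinset_iff (hS p hp).2 B).mp hP
    have h1 : P.IsPrime := h.1
    have h2 : P.LiesOver p := h.2
    exact ⟨h1, h2, Ideal.ne_bot_of_liesOver_of_ne_bot (hS p hp).2 P⟩
  have hdisj : (S : Set (Ideal A)).PairwiseDisjoint
      (fun p => IsDedekindDomain.primesOverFinset p B) := by
    intro p hp q hq hpq
    rw [Function.onFun, Finset.disjoint_left]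
    intro P hPp hPq
    have h1 := (hmem p hp P hPp).2.1
    have h2 := (hmem q hq P hPq).2.1
    exact hpq (h1.over.trans h2.over.symm)
  have hcard : Multiset.card D =
      ∑ p ∈ S, ∑ P ∈ IsDedekindDomain.primesOverFinset p B, D.count P := by
    rw [← Multiset.toFinset_sum_count_eq D, ← Finset.sum_biUnion hdisj]
    refine Finset.sum_subset ?_ ?_
    · intro P hP
      rw [Multiset.mem_toFinset] at hP
      have hPprime : P.IsPrime := Ideal.isPrime_of_prime (prime_of_normalized_factor P hP)
      have hP0 : P ≠ ⊥ := (prime_of_normalized_factor P hP).ne_zero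
      have hpS := hram P hP
      have hpmax := (hS _ hpS).1
      rw [Finset.mem_biUnion]
      refine ⟨P.under A, hpS, ?_⟩
      rw [IsDedekindDomain.mem_primesOverFinset_iff (hS _ hpS).2 B]
      exact ⟨hPprime, ⟨rfl⟩⟩
    · intro P _ hP
      rw [Multiset.mem_toFinset] at hP
      exact Multiset.count_eq_zero.mpr hP
  rw [hcard, ← Finset.sum_add_distrib, Finset.card_eq_sum_ones, Finset.sum_mul]
  refine Finset.sum_congr rfl fun p hp => ?_
  have hpmax := (hS p hp).1
  rw [one_mul, ← sum_primesOverFinset_add_card k A hK p (hS p hp).2]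
  congr 1
  refine Finset.sum_congr rfl fun P hP => ?_
  obtain ⟨h1, _, h3⟩ := hmem p hp P hP
  exact key P h1 h3

end Hurwitz

section Main

variable (k : Type*) [Field k] [CharZero k] (A E : Type*) (F : Type*) {B : Type*} [CommRing A]
  [Field E] [CommRing B] [Field F]
  [Algebra A E] [Algebra B F] [Algebra A B] [Algebra E F] [Algebra A F]
  [IsScalarTower A E F] [IsScalarTower A B F]
  [IsFractionRing A E] [FiniteDimensional E F] [Algebra.IsSeparable E F] [IsIntegralClosure B A F]
  [IsDedekindDomain A] [IsDedekindDomain B] [Module.IsTorsionFree A B] [IsFractionRing B F]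
  [Module.Finite A B]
  [Algebra k A] [Algebra k B] [Algebra k F] [IsScalarTower k A B] [IsScalarTower k B F]

/-- `dim_k (Bᵛ / B) + ∑_{p ∈ S} #{P ∣ p} = #S * [B : A]` for `S` containing all branch primes. -/
theorem relLength_one_dual_add_sum (hK : ResidueFieldsEq k B)
    (S : Finset (Ideal A)) (hS : ∀ p ∈ S, p.IsMaximal ∧ p ≠ ⊥)
    (hram : ∀ P ∈ normalizedFactors (differentIdeal A B), P.under A ∈ S) :
    relLength k F (1 : FractionalIdeal B⁰ F) (FractionalIdeal.dual A E 1) +
        ((∑ p ∈ S, (IsDedekindDomain.primesOverFinset p B).card : ℕ) : ℕ∞) =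
      ((S.card * Module.finrank A B : ℕ) : ℕ∞) := by
  have : Algebra.IsSeparable (FractionRing A) (FractionRing B) :=
    isSeparable_fractionRing A E F B
  rw [relLength_one_dual k A E F hK,
    ← card_normalizedFactors_differentIdeal_add_sum k A hK S hS hram]
  push_cast
  rfl

/-- `Bᵛ / B` is finite-dimensional over `k`, of dimension the number of prime factors of the
different ideal. -/
theorem finite_and_finrank_dual_quotient (hK : ResidueFieldsEq k B) :
    Module.Finite k
        (↥((FractionalIdeal.dual A E (1 : FractionalIdeal B⁰ F) : FractionalIdeal B⁰ F) :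
            Submodule B F) ⧸
          ((1 : FractionalIdeal B⁰ F) : Submodule B F).comap
            ((FractionalIdeal.dual A E (1 : FractionalIdeal B⁰ F) : FractionalIdeal B⁰ F) :
              Submodule B F).subtype) ∧
      Module.finrank k
        (↥((FractionalIdeal.dual A E (1 : FractionalIdeal B⁰ F) : FractionalIdeal B⁰ F) :
            Submodule B F) ⧸
          ((1 : FractionalIdeal B⁰ F) : Submodule B F).comap
            ((FractionalIdeal.dual A E (1 : FractionalIdeal B⁰ F) : FractionalIdeal B⁰ F) :
              Submodule B F).subtype) =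
        Multiset.card (normalizedFactors (differentIdeal A B)) :=
  finite_and_finrank_of_length_eq k (relLength_one_dual k A E F hK)

end Main

end Fermat.Agent.S20.RR.DualDim
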