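/-
Exponents of trace duals: for `B` the integral closure of a Dedekind domain `A` in a finite
separable extension `F / E` of its fraction field, the exponent of a prime `P` of `B` in the trace
dual of a fractional ideal `I` is `-ord_P I - d_P`, where `d_P` is the exponent of the different,
equal to `e_P - 1` when `A` is an algebra over a field of characteristic zero.  Together with the
behaviour of exponents under scaling by elements of `E` (ramification index times the exponent
downstairs) this identifies the dual lattice pair of `DedekindGlue` as the lattice pair of `W - D`.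
-/
import Fermat.Agent.S20.RR.DedekindGlue
import Fermat.Agent.S20.RR.DedekindMem
import Fermat.Agent.S20.RR.Different
import Fermat.Agent.S20.RR.DualDim

set_option linter.unusedSectionVars false

namespace Fermat.Agent.S20.RR.DualCount

open Module nonZeroDivisors IsDedekindDomain IsDedekindDomain.HeightOneSpectrum FractionalIdeal
  WithZero
open Fermat.Agent.S20.RR.DedekindMem Fermat.Agent.S20.RR.DedekindGlue

section Generic

/-- The integral closure of a domain in an extension of its fraction field is torsion free. -/
theorem isTorsionFree_of_isIntegralClosure (A E F B : Type*) [CommRing A] [Field E] [CommRing B]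
    [Field F] [Algebra A E] [Algebra B F] [Algebra A B] [Algebra E F] [Algebra A F]
    [IsScalarTower A E F] [IsScalarTower A B F] [IsFractionRing A E] [IsDomain A] [IsDomain B] :
    Module.IsTorsionFree A B := by
  rw [isTorsionFree_iff_algebraMap_injective]
  have h1 : Function.Injective (algebraMap A F) := by
    rw [IsScalarTower.algebraMap_eq A E F]
    exact (algebraMap E F).injective.comp (IsFractionRing.injective A E)
  rw [IsScalarTower.algebraMap_eq A B F] at h1
  exact Function.Injective.of_comp h1

variable (A E : Type*) (F : Type*) {B : Type*} [CommRing A] [Field E] [CommRing B] [Field F]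
  [Algebra A E] [Algebra B F] [Algebra A B] [Algebra E F] [Algebra A F]
  [IsScalarTower A E F] [IsScalarTower A B F]
  [IsFractionRing A E] [FiniteDimensional E F] [Algebra.IsSeparable E F] [IsIntegralClosure B A F]
  [IsDedekindDomain A] [IsDedekindDomain B] [IsFractionRing B F] [Module.IsTorsionFree A B]

attribute [local instance] FractionRing.liftAlgebra FractionRing.isScalarTower_liftAlgebra

variable (B) in
include E F in
/-- The different ideal is nonzero. -/
theorem differentIdeal_ne_bot' : differentIdeal A B ≠ ⊥ := by
  have : Module.Finite A B := IsIntegralClosure.finite A E F B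
  have : Algebra.IsSeparable (FractionRing A) (FractionRing B) :=
    DualDim.isSeparable_fractionRing A E F B
  exact differentIdeal_ne_bot

/-- The trace dual of `I` is `I⁻¹` times the inverse different. -/
theorem dual_eq_inv_mul_inv (I : FractionalIdeal B⁰ F) :
    dual A E I = I⁻¹ * ((differentIdeal A B : Ideal B) : FractionalIdeal B⁰ F)⁻¹ := by
  rw [dual_eq_mul_inv, coeIdeal_differentIdeal A E F B, inv_inv, mul_comm]

/-- The exponent of `v` in the trace dual of `I`. -/
theorem count_dual (v : HeightOneSpectrum B) {I : FractionalIdeal B⁰ F} (hI : I ≠ 0) :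
    count F v (dual A E I) =
      -count F v I - count F v ((differentIdeal A B : Ideal B) : FractionalIdeal B⁰ F) := by
  have hd : ((differentIdeal A B : Ideal B) : FractionalIdeal B⁰ F) ≠ 0 :=
    coeIdeal_ne_zero.mpr (differentIdeal_ne_bot' A E F B)
  rw [dual_eq_inv_mul_inv, count_mul F v (inv_ne_zero hI) (inv_ne_zero hd), count_inv, count_inv]
  ring

include E in
/-- The exponent of `v` in the different, as a multiplicity. -/
theorem count_differentIdeal (v : HeightOneSpectrum B) :
    count F v ((differentIdeal A B : Ideal B) : FractionalIdeal B⁰ F) =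
      (multiplicity v.asIdeal (differentIdeal A B) : ℤ) := by
  classical
  have hd := differentIdeal_ne_bot' A E F B
  rw [count_coe F v hd, Ideal.count_associates_factors_eq hd v.isPrime v.ne_bot,
    count_normalizedFactors_eq_multiplicity hd]

include E in
/-- Tame case: the exponent of the different at `v` is `e_v - 1`. -/
theorem count_differentIdeal_of_algebra (k : Type*) [Field k] [CharZero k] [Algebra k A]
    (v : HeightOneSpectrum B) :
    count F v ((differentIdeal A B : Ideal B) : FractionalIdeal B⁰ F) =
      (v.asIdeal.ramificationIdx A : ℤ) - 1 := by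
  have : Module.Finite A B := IsIntegralClosure.finite A E F B
  have : Algebra.IsSeparable (FractionRing A) (FractionRing B) :=
    DualDim.isSeparable_fractionRing A E F B
  rw [count_differentIdeal A E F, Different.multiplicity_differentIdeal_of_algebra A k v,
    Nat.cast_sub (Ideal.ramificationIdx_pos v.asIdeal A), Nat.cast_one]

/-- Tame case: the exponent of `v` in the trace dual of `I` is `-ord_v I - (e_v - 1)`. -/
theorem count_dual_of_algebra (k : Type*) [Field k] [CharZero k] [Algebra k A]
    (v : HeightOneSpectrum B) {I : FractionalIdeal B⁰ F} (hI : I ≠ 0) :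
    count F v (dual A E I) = -count F v I - ((v.asIdeal.ramificationIdx A : ℤ) - 1) := by
  rw [count_dual A E F v hI, count_differentIdeal_of_algebra A E F k v]

/-- Exponents upstairs of elements of `E`: ramification index times the exponent downstairs. -/
theorem ordAt_algebraMap (v : HeightOneSpectrum A) (w : HeightOneSpectrum B)
    [w.asIdeal.LiesOver v.asIdeal] (x : E) :
    ordAt F w (algebraMap E F x) = (w.asIdeal.ramificationIdx A : ℤ) * ordAt E v x := by
  unfold ordAt
  rw [← valuation_liesOver F v w x, log_pow,
    Ideal.ramificationIdx'_eq_ramificationIdx v.asIdeal w.asIdeal v.ne_bot]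
  simp

/-- The exponent of `w` in a scaled ideal. -/
theorem count_scale (w : HeightOneSpectrum B) {e : E} (he : e ≠ 0) {I : FractionalIdeal B⁰ F}
    (hI : I ≠ 0) :
    count F w (scale e I) = ordAt F w (algebraMap E F e) + count F w I := by
  have he' : algebraMap E F e ≠ 0 := (map_ne_zero (algebraMap E F)).mpr he
  unfold scale
  rw [count_mul F w (spanSingleton_ne_zero_iff.mpr he') hI, count_spanSingleton w he']

omit [FiniteDimensional E F] [Algebra.IsSeparable E F] [IsIntegralClosure B A F]
  [IsDedekindDomain B] [IsFractionRing B F] [Module.IsTorsionFree A B] [Algebra E F]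
  [IsScalarTower A E F] [Algebra A F] [IsScalarTower A B F] [Algebra A B] in
/-- A generator of a prime has exponent one at that prime. -/
theorem ordAt_generator (v : HeightOneSpectrum A) {π : A} (hπ : v.asIdeal = Ideal.span {π}) :
    ordAt E v (algebraMap A E π) = 1 := by
  have hπ0 : π ≠ 0 := by
    rintro rfl
    apply v.ne_bot
    rw [hπ]
    simp
  unfold ordAt
  rw [valuation_of_algebraMap, intValuation_singleton v hπ0 hπ, log_exp, neg_neg]

include E in
/-- Upstairs, a generator of the prime below has exponent the ramification index. -/
theorem ordAt_algebraMap_generator (v : HeightOneSpectrum A) (w : HeightOneSpectrum B)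
    [w.asIdeal.LiesOver v.asIdeal] {π : A} (hπ : v.asIdeal = Ideal.span {π}) :
    ordAt F w (algebraMap A F π) = (w.asIdeal.ramificationIdx A : ℤ) := by
  rw [IsScalarTower.algebraMap_apply A E F, ordAt_algebraMap A E F v w, ordAt_generator A E v hπ,
    mul_one]

include F in
/-- Over a discrete valuation ring, every prime upstairs lies over the maximal ideal. -/
theorem liesOver_maximalIdeal [IsDiscreteValuationRing A] (w : HeightOneSpectrum B) :
    w.asIdeal.LiesOver (IsDiscreteValuationRing.maximalIdeal A).asIdeal := by
  have : Algebra.IsIntegral A B := IsIntegralClosure.isIntegral_algebra A F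
  have hne : w.asIdeal.under A ≠ ⊥ := mt Ideal.eq_bot_of_comap_eq_bot w.ne_bot
  have hmax : (w.asIdeal.under A).IsMaximal := Ideal.IsPrime.isMaximal inferInstance hne
  exact ⟨(IsLocalRing.eq_maximalIdeal hmax).symm⟩

include E in
/-- Over a discrete valuation ring with uniformizer `π`, the exponent of `π` at any prime upstairs
is the ramification index. -/
theorem ordAt_algebraMap_irreducible [IsDiscreteValuationRing A] {π : A} (hπ : Irreducible π)
    (w : HeightOneSpectrum B) :
    ordAt F w (algebraMap A F π) = (w.asIdeal.ramificationIdx A : ℤ) := by
  have := liesOver_maximalIdeal A F w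
  exact ordAt_algebraMap_generator A E F (IsDiscreteValuationRing.maximalIdeal A) w
    hπ.maximalIdeal_eq

/-- The exponents of the twisted dual `π ^ n • I^∨` over a discrete valuation ring with
uniformizer `π` (any characteristic): `n e_w - ord_w I - d_w`, with `d_w` the exponent of the
different. -/
theorem count_scale_pow_dual_dvr [IsDiscreteValuationRing A] {π : A} (hπ : Irreducible π) (n : ℕ)
    (w : HeightOneSpectrum B) {I : FractionalIdeal B⁰ F} (hI : I ≠ 0) :
    count F w (scale (algebraMap A E π ^ n) (dual A E I)) =
      n * (w.asIdeal.ramificationIdx A : ℤ) - count F w I -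
        count F w ((differentIdeal A B : Ideal B) : FractionalIdeal B⁰ F) := by
  have hπE : algebraMap A E π ≠ 0 :=
    (map_ne_zero_iff _ (IsFractionRing.injective A E)).mpr hπ.ne_zero
  have hpow : ∀ x : F, ordAt F w (x ^ n) = n * ordAt F w x := by
    intro x
    unfold ordAt
    rw [map_pow, log_pow]
    simp
  rw [count_scale E F w (pow_ne_zero n hπE) (dual_ne_zero A E hI),
    count_dual A E F w hI, map_pow, hpow, ← IsScalarTower.algebraMap_apply A E F,
    ordAt_algebraMap_irreducible A E F hπ w]
  ring

/-- The exponents of the twisted dual `π ^ n • I^∨` over a discrete valuation ring with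
uniformizer `π` (tame case): `n e_w - ord_w I - (e_w - 1)`. -/
theorem count_scale_pow_dual_of_dvr (k : Type*) [Field k] [CharZero k] [Algebra k A]
    [IsDiscreteValuationRing A] {π : A} (hπ : Irreducible π) (n : ℕ)
    (w : HeightOneSpectrum B) {I : FractionalIdeal B⁰ F} (hI : I ≠ 0) :
    count F w (scale (algebraMap A E π ^ n) (dual A E I)) =
      n * (w.asIdeal.ramificationIdx A : ℤ) - count F w I -
        ((w.asIdeal.ramificationIdx A : ℤ) - 1) := by
  have hπE : algebraMap A E π ≠ 0 :=
    (map_ne_zero_iff _ (IsFractionRing.injective A E)).mpr hπ.ne_zero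
  have hpow : ∀ x : F, ordAt F w (x ^ n) = n * ordAt F w x := by
    intro x
    unfold ordAt
    rw [map_pow, log_pow]
    simp
  rw [count_scale E F w (pow_ne_zero n hπE) (dual_ne_zero A E hI),
    count_dual_of_algebra A E F k w hI, map_pow, hpow, ← IsScalarTower.algebraMap_apply A E F,
    ordAt_algebraMap_irreducible A E F hπ w]
  ring

/-- The trace dual in terms of exponents. -/
theorem dual_idealOfExps (e d : HeightOneSpectrum B →₀ ℤ)
    (hd : ∀ w, d w = count F w ((differentIdeal A B : Ideal B) : FractionalIdeal B⁰ F)) :
    dual A E (idealOfExps F e) = idealOfExps F (-e - d) := by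
  refine eq_of_forall_count_eq (dual_ne_zero A E (idealOfExps_ne_zero e)) (idealOfExps_ne_zero _)
    fun w => ?_
  rw [count_dual A E F w (idealOfExps_ne_zero e), count_idealOfExps, count_idealOfExps,
    Finsupp.sub_apply, Finsupp.neg_apply, hd w]

variable (B) in
include E in
/-- The exponents of the different, as a finitely supported function. -/
theorem exists_diffExps : ∃ d : HeightOneSpectrum B →₀ ℤ,
    ∀ w, d w = count F w ((differentIdeal A B : Ideal B) : FractionalIdeal B⁰ F) := by
  obtain ⟨d, hd, -⟩ := exists_eq_idealOfExps (F := F)
    (coeIdeal_ne_zero.mpr (differentIdeal_ne_bot' A E F B))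
  exact ⟨d, hd⟩

end Generic

end Fermat.Agent.S20.RR.DualCount
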