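/-
helper67 — P-S20 (Riemann–Roch for S20), Part III.

Dictionary between the Prelude's places / divisors of a function field `F / K` and fractional
ideals of integral closures.  For a Dedekind subalgebra `A ⊆ E` (`E ⊆ F` finite separable,
`Frac A = E`) with integral closure `𝓑 = integralClosure A F`:
* the places of `F / K` whose valuation ring contains `A` correspond to the primes of `𝓑`;
* for a divisor `D`, the `K`-subspace `latticeOf A D = {f | ∀ v over A, f = 0 ∨ -D v ≤ ord_v f}`
  is the fractional ideal `idealOfExps` with exponents `P ↦ -D (v_P)`.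
-/
import Fermat.Agent.S24.PlacesDedekind
import Fermat.Agent.S20.RR.DedekindMem
import Fermat.Prelude.Def_AlgebraicCurve_Repartitions

set_option autoImplicit false
set_option linter.unusedSectionVars false

noncomputable section

namespace Fermat.Agent.S20.RR.Dictionary

open AlgebraicCurve IsDedekindDomain IsDedekindDomain.HeightOneSpectrum WithZero
open Fermat.Agent.S24.PD Fermat.Agent.S20.RR.DedekindMem

variable {K E F : Type*} [Field K] [Field E] [Field F] [Algebra K E] [Algebra K F] [Algebra E F]
  [IsScalarTower K E F] [FiniteDimensional E F] [Algebra.IsSeparable E F]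
variable (A : Subalgebra K E) [IsDedekindDomain A] [IsFractionRing A E]

/-- The integral closure of `A` in `F`. -/
abbrev IntCl : Subalgebra ↥A F := integralClosure ↥A F

instance : IsDedekindDomain (IntCl (F := F) A) := integralClosure.isDedekindDomain ↥A E F

instance : IsFractionRing (IntCl (F := F) A) F :=
  integralClosure.isFractionRing_of_finite_extension E F

/-- The places of `F / K` lying over `A`: those whose valuation ring contains `A`. -/
def placesOver : Set (Place K F) :=
  {v | ∀ a : A, algebraMap ↥A F a ∈ v.toValuationSubring}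

variable {A}

/-- An element integral over a ring mapping into a valuation subring lies in it. -/
theorem mem_valuationSubring_of_isIntegral' {R : Type*} [CommRing R] [Algebra R F]
    (V : ValuationSubring F) (h : ∀ r : R, algebraMap R F r ∈ V) {b : F} (hb : IsIntegral R b) :
    b ∈ V := by
  obtain ⟨p, hp, hroot⟩ := hb
  let f : R →+* V := (algebraMap R F).codRestrict V.toSubring h
  have hcomp : (algebraMap V F).comp f = algebraMap R F := by
    ext r; rfl
  have hint : IsIntegral V b :=
    ⟨p.map f, hp.map f, by rw [Polynomial.eval₂_map, hcomp]; exact hroot⟩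
  obtain ⟨y, hy⟩ := IsIntegrallyClosed.isIntegral_iff.mp hint
  rw [← hy]
  exact y.2

theorem intCl_mem_of_mem_placesOver {v : Place K F} (hv : v ∈ placesOver (F := F) A)
    (b : IntCl (F := F) A) : algebraMap (IntCl (F := F) A) F b ∈ v.toValuationSubring :=
  mem_valuationSubring_of_isIntegral' v.toValuationSubring hv b.2

theorem mem_placesOver_of_intCl {v : Place K F}
    (h : ∀ b : IntCl (F := F) A, algebraMap (IntCl (F := F) A) F b ∈ v.toValuationSubring) :
    v ∈ placesOver (F := F) A := by
  intro a
  have : algebraMap ↥A F a = algebraMap (IntCl (F := F) A) F (algebraMap ↥A (IntCl (F := F) A) a) :=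
    rfl
  rw [this]
  exact h _

/-- The prime of the integral closure attached to a place over `A`. -/
def primeOf (v : Place K F) (hv : v ∈ placesOver (F := F) A) :
    HeightOneSpectrum (IntCl (F := F) A) :=
  primeOfPlace v (intCl_mem_of_mem_placesOver hv)

/-- The place over `A` attached to a prime of the integral closure. -/
def placeOf (P : HeightOneSpectrum (IntCl (F := F) A)) : Place K F :=
  placeOfPrime (K := K) (F := F) P

theorem placeOf_mem (P : HeightOneSpectrum (IntCl (F := F) A)) :
    placeOf P ∈ placesOver (F := F) A :=
  mem_placesOver_of_intCl (algebraMap_mem_placeOfPrime P)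

@[simp] theorem placeOf_primeOf (v : Place K F) (hv : v ∈ placesOver (F := F) A) :
    placeOf (primeOf v hv) = v :=
  placeOfPrime_primeOfPlace v _

@[simp] theorem primeOf_placeOf (P : HeightOneSpectrum (IntCl (F := F) A)) :
    primeOf (placeOf P) (placeOf_mem P) = P :=
  primeOfPlace_placeOfPrime P _

theorem placeOf_injective :
    Function.Injective (placeOf : HeightOneSpectrum (IntCl (F := F) A) → Place K F) := by
  intro P Q h
  have h1 := primeOf_placeOf P
  have h2 := primeOf_placeOf Q
  rw [← h1, ← h2]
  congr 1

theorem placeOf_ord (P : HeightOneSpectrum (IntCl (F := F) A)) (f : F) :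
    (placeOf P : Place K F).ord f = ordAt F P f :=
  placeOfPrime_ord P f

theorem ord_eq_ordAt (v : Place K F) (hv : v ∈ placesOver (F := F) A) (f : F) :
    v.ord f = ordAt F (primeOf v hv) f := by
  rw [← placeOf_ord, placeOf_primeOf]

variable (A)

/-- The exponents `P ↦ -D (v_P)` of a divisor on the primes of the integral closure. -/
def expsOf (D : Divisor K F) : HeightOneSpectrum (IntCl (F := F) A) →₀ ℤ :=
  -(D.comapDomain placeOf (placeOf_injective (A := A)).injOn)

@[simp] theorem expsOf_apply (D : Divisor K F) (P : HeightOneSpectrum (IntCl (F := F) A)) :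
    expsOf A D P = -D (placeOf P) := by
  simp [expsOf, Finsupp.comapDomain_apply]

/-- The `K`-subspace of functions `f` with `ord_v f ≥ -D v` at all places `v` over `A`. -/
def latticeOf (D : Divisor K F) : Submodule K F where
  carrier := {f | ∀ v ∈ placesOver (F := F) A, v.adicValuation f ≤ exp (D v)}
  zero_mem' := by
    intro v _
    simp
  add_mem' := by
    intro f g hf hg v hv
    exact (Valuation.map_add _ _ _).trans (max_le (hf v hv) (hg v hv))
  smul_mem' := by
    intro c f hf v hv
    show v.adicValuation (c • f) ≤ exp (D v)
    rw [Algebra.smul_def, map_mul]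
    exact (mul_le_of_le_one_left' (v.adicValuation_algebraMap_le_one c)).trans (hf v hv)

variable {A}

theorem mem_latticeOf_iff {D : Divisor K F} {f : F} :
    f ∈ latticeOf A D ↔ ∀ v ∈ placesOver (F := F) A, f = 0 ∨ -D v ≤ v.ord f := by
  show (∀ v ∈ placesOver (F := F) A, v.adicValuation f ≤ exp (D v)) ↔ _
  exact forall_congr' fun v => forall_congr' fun _ => v.adicValuation_le_exp_iff

theorem mem_latticeOf_iff_mem_ideal {D : Divisor K F} {f : F} :
    f ∈ latticeOf A D ↔ f ∈ idealOfExps F (expsOf A D) := by
  rw [mem_latticeOf_iff, mem_idealOfExps_iff]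
  by_cases hf : f = 0
  · simp [hf]
  simp only [hf, false_or]
  constructor
  · intro h P
    have := h (placeOf P) (placeOf_mem P)
    rwa [placeOf_ord, ← expsOf_apply A D P] at this
  · intro h v hv
    have := h (primeOf v hv)
    rwa [expsOf_apply, placeOf_primeOf, ← ord_eq_ordAt v hv] at this

theorem latticeOf_eq (D : Divisor K F) :
    latticeOf A D = ((idealOfExps F (expsOf A D) : FractionalIdeal (nonZeroDivisors
      (IntCl (F := F) A)) F) : Submodule (IntCl (F := F) A) F).restrictScalars K := by
  ext f
  rw [Submodule.restrictScalars_mem, FractionalIdeal.mem_coe]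
  exact mem_latticeOf_iff_mem_ideal

theorem expsOf_add (D₁ D₂ : Divisor K F) : expsOf A (D₁ + D₂) = expsOf A D₁ + expsOf A D₂ := by
  ext P
  simp only [expsOf_apply, Finsupp.add_apply]
  ring

theorem expsOf_neg (D : Divisor K F) : expsOf A (-D) = -expsOf A D := by
  ext P
  simp only [expsOf_apply, Finsupp.neg_apply]

theorem latticeOf_mono {D D' : Divisor K F} (h : D ≤ D') : latticeOf A D ≤ latticeOf A D' :=
  fun _ hf v hv => (hf v hv).trans (exp_le_exp.mpr (Finsupp.le_def.mp h v))

end Fermat.Agent.S20.RR.Dictionary
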