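/-
helper67 — P-S20 (Riemann–Roch for S20).

The projective line: a `LineData k E` (see `LineData.lean`) for any field `E` which is a fraction
field of `k[X]` (e.g. `RatFunc k`).  `R = k[X]`, `S = {p / q | deg p ≤ deg q}`, and `ρ` is the
coefficient of `x⁻¹` in the expansion at infinity, defined by polynomial division:
`ρ (p / q) = coeff (p % q) (deg q - 1) / leadingCoeff q`.
-/
import Fermat.Agent.S20.RR.LineData

set_option autoImplicit false

namespace Fermat.Agent.S20.RR.LineDataFrac

open Polynomial

section Poly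

variable {k : Type*} [Field k]

/-- Uniqueness of the remainder. -/
theorem mod_eq_of_dvd_sub_of_degree_lt {p q r : k[X]} (h : q ∣ p - r) (hr : r.degree < q.degree) :
    p % q = r := by
  have hq : q ≠ 0 := by
    rintro rfl
    rw [degree_zero] at hr
    exact not_lt_bot hr
  rw [mod_eq_of_dvd_sub h, (mod_eq_self_iff hq).mpr hr]

theorem mul_mod_mul_right' (p : k[X]) {q c : k[X]} (hq : q ≠ 0) (hc : c ≠ 0) :
    (p * c) % (q * c) = (p % q) * c := by
  apply mod_eq_of_dvd_sub_of_degree_lt
  · refine ⟨p / q, ?_⟩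
    have e : p - p % q = q * (p / q) :=
      sub_eq_of_eq_add (EuclideanDomain.div_add_mod p q).symm
    calc p * c - p % q * c = (p - p % q) * c := by ring
      _ = (q * (p / q)) * c := by rw [e]
      _ = q * c * (p / q) := by ring
  · rw [degree_mul, degree_mul]
    have h1 := degree_mod_lt p hq
    have hc' : c.degree ≠ ⊥ := by rwa [Ne, degree_eq_bot]
    exact WithBot.add_lt_add_right hc' h1

theorem C_mul_mod (a : k) (p q : k[X]) : (C a * p) % q = C a * (p % q) := by
  by_cases hq : q = 0
  · subst hq; simp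
  apply mod_eq_of_dvd_sub_of_degree_lt
  · refine ⟨C a * (p / q), ?_⟩
    have e : p - p % q = q * (p / q) :=
      sub_eq_of_eq_add (EuclideanDomain.div_add_mod p q).symm
    calc C a * p - C a * (p % q) = C a * (p - p % q) := by ring
      _ = C a * (q * (p / q)) := by rw [e]
      _ = q * (C a * (p / q)) := by ring
  · by_cases ha : a = 0
    · subst ha
      rw [map_zero, zero_mul, degree_zero]
      exact bot_lt_iff_ne_bot.mpr (by rwa [Ne, degree_eq_bot])
    · rw [degree_C_mul ha]
      exact degree_mod_lt p hq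

/-- The coefficient of `x⁻¹` of `p / q` at infinity. -/
noncomputable def rhoPair (p q : k[X]) : k := (p % q).coeff (q.natDegree - 1) / q.leadingCoeff

theorem rhoPair_add (p₁ p₂ q : k[X]) : rhoPair (p₁ + p₂) q = rhoPair p₁ q + rhoPair p₂ q := by
  unfold rhoPair
  rw [add_mod, coeff_add, add_div]

theorem rhoPair_C_mul (a : k) (p q : k[X]) : rhoPair (C a * p) q = a * rhoPair p q := by
  unfold rhoPair
  rw [C_mul_mod, coeff_C_mul, mul_div_assoc]

theorem rhoPair_mul_right (p : k[X]) {q c : k[X]} (hq : q ≠ 0) (hc : c ≠ 0) :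
    rhoPair (p * c) (q * c) = rhoPair p q := by
  unfold rhoPair
  rw [mul_mod_mul_right' p hq hc, leadingCoeff_mul, natDegree_mul hq hc]
  by_cases hq0 : q.natDegree = 0
  · have : p % q = 0 := by
      have h1 := degree_mod_lt p hq
      rw [degree_eq_natDegree hq, hq0] at h1
      have h2 : (p % q).degree < 0 := by exact_mod_cast h1
      exact degree_eq_bot.mp (Nat.WithBot.lt_zero_iff.mp h2)
    simp [this]
  · have hlt : (p % q).natDegree ≤ q.natDegree - 1 := by
      have := natDegree_mod_lt p hq0
      omega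
    have e : q.natDegree + c.natDegree - 1 = (q.natDegree - 1) + c.natDegree := by omega
    rw [e, coeff_mul_add_eq_of_natDegree_le hlt le_rfl, coeff_natDegree]
    have hcl : c.leadingCoeff ≠ 0 := leadingCoeff_ne_zero.mpr hc
    have hql : q.leadingCoeff ≠ 0 := leadingCoeff_ne_zero.mpr hq
    field_simp

/-- If `deg p < deg q`, the residue is read off directly. -/
theorem rhoPair_of_degree_lt {p q : k[X]} (hq : q ≠ 0) (h : p.degree < q.degree) :
    rhoPair p q = p.coeff (q.natDegree - 1) / q.leadingCoeff := by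
  unfold rhoPair
  rw [(mod_eq_self_iff hq).mpr h]

theorem rhoPair_one_right (p : k[X]) : rhoPair p 1 = 0 := by
  unfold rhoPair
  rw [EuclideanDomain.mod_one]
  simp

end Poly

section Frac

variable (k : Type*) [Field k] (E : Type*) [Field E] [Algebra k[X] E] [IsFractionRing k[X] E]

theorem algebraMap_injective' : Function.Injective (algebraMap k[X] E) :=
  IsFractionRing.injective k[X] E

variable {k E} in
theorem algebraMap_ne_zero {q : k[X]} (hq : q ≠ 0) : algebraMap k[X] E q ≠ 0 :=
  (map_ne_zero_iff _ (algebraMap_injective' k E)).mpr hq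

theorem exists_repr (h : E) : ∃ p q : k[X], q ≠ 0 ∧ h = algebraMap k[X] E p / algebraMap k[X] E q := by
  obtain ⟨a, b, hb, rfl⟩ := IsFractionRing.div_surjective (A := k[X]) h
  exact ⟨a, b, nonZeroDivisors.ne_zero hb, rfl⟩

/-- A chosen numerator. -/
noncomputable def num (h : E) : k[X] := (exists_repr k E h).choose

/-- A chosen denominator. -/
noncomputable def den (h : E) : k[X] := (exists_repr k E h).choose_spec.choose

theorem den_ne_zero (h : E) : den k E h ≠ 0 := (exists_repr k E h).choose_spec.choose_spec.1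

theorem num_div_den (h : E) : h = algebraMap k[X] E (num k E h) / algebraMap k[X] E (den k E h) :=
  (exists_repr k E h).choose_spec.choose_spec.2

/-- The coefficient of `x⁻¹` at infinity, as a function. -/
noncomputable def rhoFun (h : E) : k := rhoPair (num k E h) (den k E h)

variable {k E}

theorem cross_mul {p q p' q' : k[X]} (hq : q ≠ 0) (hq' : q' ≠ 0)
    (h : algebraMap k[X] E p / algebraMap k[X] E q = algebraMap k[X] E p' / algebraMap k[X] E q') :
    p * q' = p' * q := by
  apply algebraMap_injective' k E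
  rw [map_mul, map_mul]
  rwa [div_eq_div_iff (algebraMap_ne_zero hq) (algebraMap_ne_zero hq')] at h

theorem rhoFun_div (p : k[X]) {q : k[X]} (hq : q ≠ 0) :
    rhoFun k E (algebraMap k[X] E p / algebraMap k[X] E q) = rhoPair p q := by
  set h := algebraMap k[X] E p / algebraMap k[X] E q with hh
  have h0 := den_ne_zero k E h
  have e := cross_mul h0 hq (num_div_den k E h).symm
  unfold rhoFun
  calc rhoPair (num k E h) (den k E h)
      = rhoPair (num k E h * q) (den k E h * q) := (rhoPair_mul_right _ h0 hq).symm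
    _ = rhoPair (p * den k E h) (q * den k E h) := by rw [e, mul_comm q]
    _ = rhoPair p q := rhoPair_mul_right _ hq h0

theorem rhoFun_add (h₁ h₂ : E) : rhoFun k E (h₁ + h₂) = rhoFun k E h₁ + rhoFun k E h₂ := by
  obtain ⟨p₁, q₁, hq₁, rfl⟩ := exists_repr k E h₁
  obtain ⟨p₂, q₂, hq₂, rfl⟩ := exists_repr k E h₂
  have e : algebraMap k[X] E p₁ / algebraMap k[X] E q₁ + algebraMap k[X] E p₂ / algebraMap k[X] E q₂
      = algebraMap k[X] E (p₁ * q₂ + p₂ * q₁) / algebraMap k[X] E (q₁ * q₂) := by
    rw [div_add_div _ _ (algebraMap_ne_zero hq₁) (algebraMap_ne_zero hq₂)]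
    simp only [map_add, map_mul]
    ring
  rw [e, rhoFun_div _ (mul_ne_zero hq₁ hq₂), rhoFun_div _ hq₁, rhoFun_div _ hq₂, rhoPair_add,
    rhoPair_mul_right _ hq₁ hq₂, mul_comm q₁ q₂, rhoPair_mul_right _ hq₂ hq₁]

variable [Algebra k E] [IsScalarTower k k[X] E]

omit [IsFractionRing k[X] E] in
theorem algebraMap_eq_C (c : k) : algebraMap k E c = algebraMap k[X] E (C c) := by
  rw [IsScalarTower.algebraMap_apply k k[X] E, Polynomial.algebraMap_apply,
    Algebra.algebraMap_self, RingHom.id_apply]

theorem rhoFun_smul (c : k) (h : E) : rhoFun k E (c • h) = c * rhoFun k E h := by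
  obtain ⟨p, q, hq, rfl⟩ := exists_repr k E h
  have e : c • (algebraMap k[X] E p / algebraMap k[X] E q)
      = algebraMap k[X] E (C c * p) / algebraMap k[X] E q := by
    rw [Algebra.smul_def, algebraMap_eq_C, map_mul, mul_div_assoc]
  rw [e, rhoFun_div _ hq, rhoFun_div _ hq, rhoPair_C_mul]

variable (k E)

/-- The coefficient of `x⁻¹` at infinity, as a `k`-linear map. -/
noncomputable def rho : E →ₗ[k] k where
  toFun := rhoFun k E
  map_add' := rhoFun_add
  map_smul' c h := by rw [rhoFun_smul, RingHom.id_apply, smul_eq_mul]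

variable {k E}

theorem rho_div (p : k[X]) {q : k[X]} (hq : q ≠ 0) :
    rho k E (algebraMap k[X] E p / algebraMap k[X] E q) = rhoPair p q := rhoFun_div p hq

theorem rho_algebraMap (p : k[X]) : rho k E (algebraMap k[X] E p) = 0 := by
  have : algebraMap k[X] E p = algebraMap k[X] E p / algebraMap k[X] E 1 := by
    rw [map_one, div_one]
  rw [this, rho_div _ one_ne_zero, rhoPair_one_right]

section Subalgebras

variable (k E)

/-- The polynomial ring inside `E`. -/
noncomputable def polyR : Subalgebra k E := (IsScalarTower.toAlgHom k k[X] E).range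

/-- The local ring at infinity inside `E`: fractions `p / q` with `deg p ≤ deg q`. -/
noncomputable def inftyS : Subalgebra k E where
  carrier := {h | ∃ p q : k[X], q ≠ 0 ∧ p.natDegree ≤ q.natDegree ∧
    h = algebraMap k[X] E p / algebraMap k[X] E q}
  mul_mem' := by
    rintro _ _ ⟨p₁, q₁, hq₁, hd₁, rfl⟩ ⟨p₂, q₂, hq₂, hd₂, rfl⟩
    refine ⟨p₁ * p₂, q₁ * q₂, mul_ne_zero hq₁ hq₂, ?_, ?_⟩
    · calc (p₁ * p₂).natDegree ≤ p₁.natDegree + p₂.natDegree := natDegree_mul_le
        _ ≤ q₁.natDegree + q₂.natDegree := Nat.add_le_add hd₁ hd₂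
        _ = (q₁ * q₂).natDegree := (natDegree_mul hq₁ hq₂).symm
    · rw [map_mul, map_mul, div_mul_div_comm]
  one_mem' := ⟨1, 1, one_ne_zero, le_rfl, by rw [map_one, div_one]⟩
  add_mem' := by
    rintro _ _ ⟨p₁, q₁, hq₁, hd₁, rfl⟩ ⟨p₂, q₂, hq₂, hd₂, rfl⟩
    refine ⟨p₁ * q₂ + p₂ * q₁, q₁ * q₂, mul_ne_zero hq₁ hq₂, ?_, ?_⟩
    · rw [natDegree_mul hq₁ hq₂]
      refine (natDegree_add_le _ _).trans (max_le ?_ ?_)
      · exact natDegree_mul_le.trans (Nat.add_le_add hd₁ le_rfl)
      · exact natDegree_mul_le.trans (by omega)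
    · rw [div_add_div _ _ (algebraMap_ne_zero hq₁) (algebraMap_ne_zero hq₂)]
      simp only [map_add, map_mul]
      ring
  zero_mem' := ⟨0, 1, one_ne_zero, by simp, by rw [map_zero, zero_div]⟩
  algebraMap_mem' c := ⟨C c, 1, one_ne_zero, by simp, by
    rw [map_one, div_one, algebraMap_eq_C]⟩

variable {k E}

omit [IsFractionRing k[X] E] in
theorem mem_polyR {h : E} : h ∈ polyR k E ↔ ∃ p : k[X], algebraMap k[X] E p = h := by
  unfold polyR
  rw [AlgHom.mem_range]
  simp only [IsScalarTower.coe_toAlgHom']

omit [IsFractionRing k[X] E] in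
theorem algebraMap_mem_polyR (p : k[X]) : algebraMap k[X] E p ∈ polyR k E := mem_polyR.mpr ⟨p, rfl⟩

theorem mem_inftyS {h : E} : h ∈ inftyS k E ↔ ∃ p q : k[X], q ≠ 0 ∧ p.natDegree ≤ q.natDegree ∧
    h = algebraMap k[X] E p / algebraMap k[X] E q := Iff.rfl

theorem div_mem_inftyS {p q : k[X]} (hq : q ≠ 0) (hd : p.natDegree ≤ q.natDegree) :
    algebraMap k[X] E p / algebraMap k[X] E q ∈ inftyS k E := ⟨p, q, hq, hd, rfl⟩

/-- Membership in the ring at infinity can be tested on any representation. -/
theorem natDegree_le_of_div_mem_inftyS {p q : k[X]} (hq : q ≠ 0) (hp : p ≠ 0)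
    (h : algebraMap k[X] E p / algebraMap k[X] E q ∈ inftyS k E) : p.natDegree ≤ q.natDegree := by
  obtain ⟨p', q', hq', hd, e⟩ := h
  have hc := cross_mul hq hq' e
  have hp' : p' ≠ 0 := by
    rintro rfl
    rw [zero_mul] at hc
    exact (mul_ne_zero hp hq') hc
  have := congrArg natDegree hc
  rw [natDegree_mul hp hq', natDegree_mul hp' hq] at this
  omega

theorem natDegree_X_mul_le {r q : k[X]} (hr : r.degree < q.degree) :
    (X * r).natDegree ≤ q.natDegree := by
  by_cases hr0 : r = 0
  · subst hr0; simp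
  · have hq0 : q ≠ 0 := by
      rintro rfl
      rw [degree_zero] at hr
      exact not_lt_bot hr
    rw [natDegree_X_mul hr0]
    exact Nat.succ_le_of_lt ((natDegree_lt_natDegree_iff hr0).mpr hr)

end Subalgebras

section Line

variable (k E)

/-- The projective line with function field `E = Frac k[X]`. -/
noncomputable def fracLine : LineData k E where
  R := polyR k E
  S := inftyS k E
  x := algebraMap k[X] E X
  ρ := rho k E
  x_mem := algebraMap_mem_polyR X
  x_ne_zero := algebraMap_ne_zero X_ne_zero
  inv_mem := ⟨1, X, X_ne_zero, by simp, by rw [map_one, one_div]⟩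
  exists_add := by
    intro h
    obtain ⟨p, q, hq, rfl⟩ := exists_repr k E h
    refine ⟨algebraMap k[X] E (p / q), algebraMap_mem_polyR _,
      algebraMap k[X] E (X * (p % q)) / algebraMap k[X] E q,
      div_mem_inftyS hq (natDegree_X_mul_le (degree_mod_lt p hq)), ?_⟩
    have e : algebraMap k[X] E p =
        algebraMap k[X] E q * algebraMap k[X] E (p / q) + algebraMap k[X] E (p % q) := by
      rw [← map_mul, ← map_add, EuclideanDomain.div_add_mod]
    have hx : algebraMap k[X] E X ≠ 0 := algebraMap_ne_zero X_ne_zero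
    have hq' : algebraMap k[X] E q ≠ 0 := algebraMap_ne_zero hq
    rw [map_mul, e]
    field_simp
  S_split := by
    rintro _ ⟨p, q, hq, hd, rfl⟩
    set c : k := p.coeff q.natDegree / q.leadingCoeff with hc
    set r : k[X] := p - C c * q with hr
    have hql : q.leadingCoeff ≠ 0 := leadingCoeff_ne_zero.mpr hq
    have hdeg : r.degree < q.degree := by
      rw [degree_eq_natDegree hq, degree_lt_iff_coeff_zero]
      intro m hm
      rw [hr, coeff_sub, coeff_C_mul]
      rcases eq_or_lt_of_le hm with rfl | hlt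
      · rw [coeff_natDegree, hc, div_mul_cancel₀ _ hql, sub_self]
      · rw [coeff_eq_zero_of_natDegree_lt (lt_of_le_of_lt hd hlt),
          coeff_eq_zero_of_natDegree_lt hlt, mul_zero, sub_zero]
    refine ⟨c, algebraMap k[X] E (X * r) / algebraMap k[X] E q,
      div_mem_inftyS hq (natDegree_X_mul_le hdeg), ?_⟩
    have hx : algebraMap k[X] E X ≠ 0 := algebraMap_ne_zero X_ne_zero
    have hq' : algebraMap k[X] E q ≠ 0 := algebraMap_ne_zero hq
    rw [algebraMap_eq_C, map_mul, hr, map_sub, map_mul]
    field_simp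
    ring
  R_inter := by
    intro r hr s hs h
    obtain ⟨p₀, rfl⟩ := mem_polyR.mp hr
    obtain ⟨p, q, hq, hd, rfl⟩ := hs
    by_contra hne
    have hp₀ : p₀ ≠ 0 := by
      rintro rfl
      exact hne (map_zero _)
    have hx : algebraMap k[X] E X ≠ 0 := algebraMap_ne_zero X_ne_zero
    have hq' : algebraMap k[X] E q ≠ 0 := algebraMap_ne_zero hq
    have e : p₀ * X * q = p := by
      apply algebraMap_injective' k E
      rw [map_mul, map_mul, h]
      field_simp
    have := congrArg natDegree e
    rw [natDegree_mul (mul_ne_zero hp₀ X_ne_zero) hq, natDegree_mul hp₀ X_ne_zero,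
      natDegree_X] at this
    omega
  exists_pow := by
    intro h
    obtain ⟨p, q, hq, rfl⟩ := exists_repr k E h
    refine ⟨p.natDegree, p, X ^ p.natDegree * q, mul_ne_zero (pow_ne_zero _ X_ne_zero) hq, ?_, ?_⟩
    · rw [natDegree_mul (pow_ne_zero _ X_ne_zero) hq, natDegree_X_pow]
      omega
    · rw [map_mul, map_pow, inv_pow, ← div_eq_inv_mul, div_div, mul_comm]
  rho_R := by
    intro r hr
    obtain ⟨p, rfl⟩ := mem_polyR.mp hr
    exact rho_algebraMap p
  rho_S := by
    rintro _ ⟨p, q, hq, hd, rfl⟩
    have hx : algebraMap k[X] E X ≠ 0 := algebraMap_ne_zero X_ne_zero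
    have hq' : algebraMap k[X] E q ≠ 0 := algebraMap_ne_zero hq
    have hq2 : X ^ 2 * q ≠ 0 := mul_ne_zero (pow_ne_zero _ X_ne_zero) hq
    have e : (algebraMap k[X] E X)⁻¹ ^ 2 * (algebraMap k[X] E p / algebraMap k[X] E q) =
        algebraMap k[X] E p / algebraMap k[X] E (X ^ 2 * q) := by
      rw [map_mul, map_pow]
      field_simp
    have hnd : (X ^ 2 * q).natDegree = q.natDegree + 2 := by
      rw [natDegree_mul (pow_ne_zero _ X_ne_zero) hq, natDegree_X_pow, add_comm]
    rw [e, rho_div _ hq2, rhoPair_of_degree_lt hq2 (degree_lt_degree (by omega)), hnd,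
      coeff_eq_zero_of_natDegree_lt (by omega), zero_div]
  rho_inv := by
    have e : (algebraMap k[X] E X)⁻¹ = algebraMap k[X] E 1 / algebraMap k[X] E X := by
      rw [map_one, one_div]
    rw [e, rho_div _ X_ne_zero, rhoPair_of_degree_lt X_ne_zero (by simp)]
    simp
  mem_R_of_rho := by
    intro h hh
    obtain ⟨p, q, hq, rfl⟩ := exists_repr k E h
    have hq' : algebraMap k[X] E q ≠ 0 := algebraMap_ne_zero hq
    by_cases hr0 : p % q = 0
    · have e : algebraMap k[X] E p / algebraMap k[X] E q = algebraMap k[X] E (p / q) := by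
        rw [div_eq_iff hq', ← map_mul]
        congr 1
        have := EuclideanDomain.div_add_mod p q
        rw [hr0, add_zero] at this
        rw [mul_comm]
        exact this.symm
      rw [e]
      exact algebraMap_mem_polyR _
    · exfalso
      have hlt : (p % q).natDegree < q.natDegree :=
        (natDegree_lt_natDegree_iff hr0).mpr (degree_mod_lt p hq)
      set d := q.natDegree - (p % q).natDegree - 1 with hd
      have h1 := hh (algebraMap k[X] E (X ^ d)) (algebraMap_mem_polyR _)
      have e : algebraMap k[X] E (X ^ d) * (algebraMap k[X] E p / algebraMap k[X] E q) =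
          algebraMap k[X] E (X ^ d * p) / algebraMap k[X] E q := by
        rw [map_mul, mul_div_assoc]
      have hmod : (X ^ d * p) % q = X ^ d * (p % q) := by
        apply mod_eq_of_dvd_sub_of_degree_lt
        · refine ⟨X ^ d * (p / q), ?_⟩
          have e2 : p - p % q = q * (p / q) :=
            sub_eq_of_eq_add (EuclideanDomain.div_add_mod p q).symm
          calc X ^ d * p - X ^ d * (p % q) = X ^ d * (p - p % q) := by ring
            _ = X ^ d * (q * (p / q)) := by rw [e2]
            _ = q * (X ^ d * (p / q)) := by ring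
        · apply degree_lt_degree
          rw [natDegree_mul (pow_ne_zero _ X_ne_zero) hr0, natDegree_X_pow]
          omega
      rw [e, rho_div _ hq] at h1
      unfold rhoPair at h1
      rw [hmod] at h1
      have hidx : q.natDegree - 1 = (p % q).natDegree + d := by omega
      rw [hidx, coeff_X_pow_mul, coeff_natDegree] at h1
      have hql : q.leadingCoeff ≠ 0 := leadingCoeff_ne_zero.mpr hq
      have hrl : (p % q).leadingCoeff ≠ 0 := leadingCoeff_ne_zero.mpr hr0
      exact (div_ne_zero hrl hql) h1
  mem_S_of_rho := by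
    intro h hh
    obtain ⟨p, q, hq, rfl⟩ := exists_repr k E h
    have hx : algebraMap k[X] E X ≠ 0 := algebraMap_ne_zero X_ne_zero
    have hq' : algebraMap k[X] E q ≠ 0 := algebraMap_ne_zero hq
    by_cases hp : p = 0
    · subst hp
      exact ⟨0, Subalgebra.zero_mem _, by rw [map_zero, zero_div, mul_zero]⟩
    by_cases hdeg : p.natDegree + 2 ≤ q.natDegree
    · refine ⟨algebraMap k[X] E (X ^ 2 * p) / algebraMap k[X] E q, div_mem_inftyS hq ?_, ?_⟩
      · rw [natDegree_mul (pow_ne_zero _ X_ne_zero) hp, natDegree_X_pow]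
        omega
      · rw [map_mul, map_pow]
        field_simp
    · exfalso
      set e := p.natDegree + 1 - q.natDegree with he
      have hXe : (X : k[X]) ^ e ≠ 0 := pow_ne_zero _ X_ne_zero
      have hmem : algebraMap k[X] E 1 / algebraMap k[X] E (X ^ e) ∈ inftyS k E :=
        div_mem_inftyS hXe (by simp)
      have h1 := hh _ hmem
      have e1 : algebraMap k[X] E 1 / algebraMap k[X] E (X ^ e) *
          (algebraMap k[X] E p / algebraMap k[X] E q) =
          algebraMap k[X] E p / algebraMap k[X] E (X ^ e * q) := by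
        rw [map_one, map_mul, div_mul_div_comm, one_mul]
      have hq2 : X ^ e * q ≠ 0 := mul_ne_zero hXe hq
      have hnd : (X ^ e * q).natDegree = p.natDegree + 1 := by
        rw [natDegree_mul hXe hq, natDegree_X_pow]
        omega
      rw [e1, rho_div _ hq2, rhoPair_of_degree_lt hq2 (degree_lt_degree (by omega)), hnd,
        Nat.add_sub_cancel, coeff_natDegree, leadingCoeff_mul, leadingCoeff_X_pow, one_mul] at h1
      have hql : q.leadingCoeff ≠ 0 := leadingCoeff_ne_zero.mpr hq
      have hpl : p.leadingCoeff ≠ 0 := leadingCoeff_ne_zero.mpr hp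
      exact (div_ne_zero hpl hql) h1

@[simp] theorem fracLine_R : (fracLine k E).R = polyR k E := rfl

@[simp] theorem fracLine_S : (fracLine k E).S = inftyS k E := rfl

@[simp] theorem fracLine_x : (fracLine k E).x = algebraMap k[X] E X := rfl

@[simp] theorem fracLine_rho : (fracLine k E).ρ = rho k E := rfl

/-- The projective line with function field `RatFunc k`. -/
noncomputable def ratFuncLine : LineData k (RatFunc k) := fracLine k (RatFunc k)

end Line

end Frac

end Fermat.Agent.S20.RR.LineDataFrac
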