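/-
helper67 — P-S20 (Riemann–Roch for S20), Part III.

Ring-theoretic structure of the two subalgebras of `fracLine k E` (`E` a fraction field of `k[X]`):
* `polyR k E ≃ₐ[k] k[X]`, a principal ideal domain with fraction field `E`;
* `inftyS k E` is a discrete valuation ring with uniformizer `x⁻¹` and fraction field `E`;
* the degree function `intDeg : E → ℤ` with `h ∈ inftyS k E ↔ h = 0 ∨ intDeg h ≤ 0`.
-/
import Fermat.Agent.S20.RR.LineDataFrac

set_option autoImplicit false
set_option linter.unusedSectionVars false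

namespace Fermat.Agent.S20.RR.LineDataFrac

open Polynomial

variable (k : Type*) [Field k] (E : Type*) [Field E] [Algebra k[X] E] [IsFractionRing k[X] E]

section Degree

open Classical in
/-- The degree of a rational function: `deg p - deg q` for `h = p / q ≠ 0`, and `0` for `h = 0`. -/
noncomputable def intDeg (h : E) : ℤ :=
  if h = 0 then 0 else (num k E h).natDegree - (den k E h).natDegree

variable {k E}

@[simp] theorem intDeg_zero : intDeg k E (0 : E) = 0 := by
  unfold intDeg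
  rw [if_pos rfl]

theorem div_ne_zero' {p q : k[X]} (hp : p ≠ 0) (hq : q ≠ 0) :
    algebraMap k[X] E p / algebraMap k[X] E q ≠ 0 :=
  div_ne_zero (algebraMap_ne_zero hp) (algebraMap_ne_zero hq)

theorem intDeg_div {p q : k[X]} (hp : p ≠ 0) (hq : q ≠ 0) :
    intDeg k E (algebraMap k[X] E p / algebraMap k[X] E q) = (p.natDegree : ℤ) - q.natDegree := by
  set h := algebraMap k[X] E p / algebraMap k[X] E q with hh
  have hne : h ≠ 0 := div_ne_zero' hp hq
  have h0 := den_ne_zero k E h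
  have e := cross_mul h0 hq (num_div_den k E h).symm
  have hn : num k E h ≠ 0 := by
    intro hn
    rw [hn, zero_mul] at e
    exact (mul_ne_zero hp h0) e.symm
  have := congrArg natDegree e
  rw [natDegree_mul hn hq, natDegree_mul hp h0] at this
  unfold intDeg
  rw [if_neg hne]
  omega

/-- Every nonzero element is a quotient of nonzero polynomials. -/
theorem exists_repr_ne_zero {h : E} (hh : h ≠ 0) :
    ∃ p q : k[X], p ≠ 0 ∧ q ≠ 0 ∧ h = algebraMap k[X] E p / algebraMap k[X] E q := by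
  obtain ⟨p, q, hq, rfl⟩ := exists_repr k E h
  refine ⟨p, q, ?_, hq, rfl⟩
  rintro rfl
  rw [map_zero, zero_div] at hh
  exact hh rfl

theorem intDeg_mul {g h : E} (hg : g ≠ 0) (hh : h ≠ 0) :
    intDeg k E (g * h) = intDeg k E g + intDeg k E h := by
  obtain ⟨p₁, q₁, hp₁, hq₁, rfl⟩ := exists_repr_ne_zero (k := k) hg
  obtain ⟨p₂, q₂, hp₂, hq₂, rfl⟩ := exists_repr_ne_zero (k := k) hh
  rw [div_mul_div_comm, ← map_mul, ← map_mul, intDeg_div (mul_ne_zero hp₁ hp₂)
    (mul_ne_zero hq₁ hq₂), intDeg_div hp₁ hq₁, intDeg_div hp₂ hq₂, natDegree_mul hp₁ hp₂,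
    natDegree_mul hq₁ hq₂]
  push_cast
  ring

theorem intDeg_inv (h : E) : intDeg k E h⁻¹ = -intDeg k E h := by
  by_cases hh : h = 0
  · subst hh; simp
  obtain ⟨p, q, hp, hq, rfl⟩ := exists_repr_ne_zero (k := k) hh
  rw [inv_div, intDeg_div hq hp, intDeg_div hp hq]
  ring

theorem intDeg_algebraMap {p : k[X]} (hp : p ≠ 0) :
    intDeg k E (algebraMap k[X] E p) = p.natDegree := by
  have : algebraMap k[X] E p = algebraMap k[X] E p / algebraMap k[X] E 1 := by
    rw [map_one, div_one]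
  rw [this, intDeg_div hp one_ne_zero, natDegree_one]
  simp

theorem intDeg_X : intDeg k E (algebraMap k[X] E X) = 1 := by
  rw [intDeg_algebraMap X_ne_zero, natDegree_X]
  simp

theorem intDeg_pow {h : E} (hh : h ≠ 0) (n : ℕ) : intDeg k E (h ^ n) = n * intDeg k E h := by
  induction n with
  | zero =>
    rw [pow_zero]
    have : (1 : E) = algebraMap k[X] E 1 := (map_one _).symm
    rw [this, intDeg_algebraMap one_ne_zero, natDegree_one]
    simp
  | succ n ih =>
    rw [pow_succ, intDeg_mul (pow_ne_zero n hh) hh, ih]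
    push_cast
    ring

variable [Algebra k E] [IsScalarTower k k[X] E]

theorem mem_inftyS_iff_intDeg {h : E} : h ∈ inftyS k E ↔ h = 0 ∨ intDeg k E h ≤ 0 := by
  constructor
  · intro hm
    by_cases hh : h = 0
    · exact Or.inl hh
    · right
      obtain ⟨p, q, hp, hq, rfl⟩ := exists_repr_ne_zero (k := k) hh
      have := natDegree_le_of_div_mem_inftyS hq hp hm
      rw [intDeg_div hp hq]
      omega
  · rintro (rfl | hd)
    · exact Subalgebra.zero_mem _
    · by_cases hh : h = 0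
      · subst hh; exact Subalgebra.zero_mem _
      obtain ⟨p, q, hp, hq, rfl⟩ := exists_repr_ne_zero (k := k) hh
      rw [intDeg_div hp hq] at hd
      exact div_mem_inftyS hq (by omega)

end Degree

section Rings

variable [Algebra k E] [IsScalarTower k k[X] E]

variable {k E} in
/-- A subalgebra of a field `E` such that every element of `E` is a quotient of two of its
elements has fraction field `E`. -/
theorem isFractionRing_of_exists_div (A : Subalgebra k E)
    (h : ∀ z : E, ∃ a ∈ A, ∃ b ∈ A, b ≠ 0 ∧ z = a / b) : IsFractionRing A E := by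
  rw [IsFractionRing, isLocalization_iff]
  refine ⟨?_, ?_, ?_⟩
  · rintro ⟨y, hy⟩
    have hy0 : y ≠ 0 := nonZeroDivisors.ne_zero hy
    have : (y : E) ≠ 0 := fun h0 => hy0 (Subtype.ext h0)
    exact this.isUnit
  · intro z
    obtain ⟨a, ha, b, hb, hb0, rfl⟩ := h z
    have hb0' : (⟨b, hb⟩ : A) ≠ 0 := fun h0 => hb0 (congrArg Subtype.val h0)
    refine ⟨(⟨a, ha⟩, ⟨⟨b, hb⟩, mem_nonZeroDivisors_of_ne_zero hb0'⟩), ?_⟩
    change a / b * b = a
    rw [div_mul_cancel₀ _ hb0]
  · intro x y hxy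
    exact ⟨1, by rw [Subtype.ext hxy]⟩

/-- `k[X] ≃ polyR k E`. -/
noncomputable def polyEquiv : k[X] ≃ₐ[k] ↥(polyR k E) :=
  AlgEquiv.ofInjective (IsScalarTower.toAlgHom k k[X] E) (by
    have : ⇑(IsScalarTower.toAlgHom k k[X] E) = algebraMap k[X] E :=
      IsScalarTower.coe_toAlgHom' k k[X] E
    rw [this]
    exact algebraMap_injective' k E)

@[simp] theorem coe_polyEquiv (p : k[X]) : ((polyEquiv k E p : polyR k E) : E) = algebraMap k[X] E p :=
  rfl

instance : IsPrincipalIdealRing ↥(polyR k E) :=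
  IsPrincipalIdealRing.of_surjective (polyEquiv k E).toRingEquiv.toRingHom
    (polyEquiv k E).surjective

instance : IsFractionRing ↥(polyR k E) E := by
  apply isFractionRing_of_exists_div
  intro z
  obtain ⟨p, q, hq, rfl⟩ := exists_repr k E z
  exact ⟨_, algebraMap_mem_polyR p, _, algebraMap_mem_polyR q, algebraMap_ne_zero hq, rfl⟩

variable {k E}

/-- Elements of degree `0` are units of the ring at infinity. -/
theorem inv_mem_inftyS {s : E} (hd : intDeg k E s = 0) : s⁻¹ ∈ inftyS k E := by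
  rw [mem_inftyS_iff_intDeg, intDeg_inv, hd]
  right
  simp

/-- Every nonzero element of the ring at infinity is a unit times a power of `x⁻¹`. -/
theorem exists_unit_mul_inv_pow {s : E} (hs : s ∈ inftyS k E) (hs0 : s ≠ 0) :
    ∃ u ∈ inftyS k E, u⁻¹ ∈ inftyS k E ∧ u ≠ 0 ∧ ∃ m : ℕ, s = u * (algebraMap k[X] E X)⁻¹ ^ m := by
  have hx : algebraMap k[X] E X ≠ 0 := algebraMap_ne_zero X_ne_zero
  have hd : intDeg k E s ≤ 0 := (mem_inftyS_iff_intDeg.mp hs).resolve_left hs0
  obtain ⟨m, hm⟩ : ∃ m : ℕ, intDeg k E s = -m := ⟨(-intDeg k E s).toNat, by omega⟩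
  set u := s * algebraMap k[X] E X ^ m with hu
  have hu0 : u ≠ 0 := mul_ne_zero hs0 (pow_ne_zero _ hx)
  have hdu : intDeg k E u = 0 := by
    rw [hu, intDeg_mul hs0 (pow_ne_zero _ hx), intDeg_pow hx, intDeg_X, hm]
    ring
  refine ⟨u, mem_inftyS_iff_intDeg.mpr (Or.inr hdu.le), inv_mem_inftyS hdu, hu0, m, ?_⟩
  rw [hu, inv_pow, mul_assoc, mul_inv_cancel₀ (pow_ne_zero _ hx), mul_one]

variable (k E)

/-- The uniformizer `x⁻¹` of the ring at infinity. -/
noncomputable def unifS : ↥(inftyS k E) := ⟨(algebraMap k[X] E X)⁻¹, (fracLine k E).inv_mem⟩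

variable {k E}

theorem isUnit_inftyS_iff {s : ↥(inftyS k E)} :
    IsUnit s ↔ (s : E) ≠ 0 ∧ intDeg k E (s : E) = 0 := by
  constructor
  · intro hs
    obtain ⟨t, ht⟩ := hs.exists_right_inv
    have hE : (s : E) * (t : E) = 1 := congrArg Subtype.val ht
    have hs0 : (s : E) ≠ 0 := left_ne_zero_of_mul_eq_one hE
    have ht0 : (t : E) ≠ 0 := right_ne_zero_of_mul_eq_one hE
    refine ⟨hs0, ?_⟩
    have h1 := intDeg_mul (k := k) hs0 ht0
    rw [hE] at h1
    have h2 : intDeg k E (1 : E) = 0 := by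
      have : (1 : E) = algebraMap k[X] E 1 := (map_one _).symm
      rw [this, intDeg_algebraMap one_ne_zero, natDegree_one]
      simp
    have h3 := (mem_inftyS_iff_intDeg.mp s.2).resolve_left hs0
    have h4 := (mem_inftyS_iff_intDeg.mp t.2).resolve_left ht0
    omega
  · rintro ⟨hs0, hd⟩
    refine isUnit_iff_exists_inv.mpr ⟨⟨(s : E)⁻¹, inv_mem_inftyS hd⟩, ?_⟩
    apply Subtype.ext
    change (s : E) * (s : E)⁻¹ = 1
    exact mul_inv_cancel₀ hs0

theorem intDeg_unifS : intDeg k E ((unifS k E : inftyS k E) : E) = -1 := by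
  change intDeg k E (algebraMap k[X] E X)⁻¹ = -1
  rw [intDeg_inv, intDeg_X]

theorem irreducible_unifS : Irreducible (unifS k E) := by
  have hx : algebraMap k[X] E X ≠ 0 := algebraMap_ne_zero X_ne_zero
  have h0 : ((unifS k E : inftyS k E) : E) ≠ 0 := inv_ne_zero hx
  refine ⟨?_, ?_⟩
  · rw [isUnit_inftyS_iff]
    rintro ⟨_, hd⟩
    rw [intDeg_unifS] at hd
    omega
  · intro a b hab
    have hE : ((unifS k E : inftyS k E) : E) = (a : E) * (b : E) := congrArg Subtype.val hab
    have ha0 : (a : E) ≠ 0 := fun h => h0 (by rw [hE, h, zero_mul])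
    have hb0 : (b : E) ≠ 0 := fun h => h0 (by rw [hE, h, mul_zero])
    have h1 := intDeg_mul (k := k) ha0 hb0
    rw [← hE, intDeg_unifS] at h1
    have h3 := (mem_inftyS_iff_intDeg.mp a.2).resolve_left ha0
    have h4 := (mem_inftyS_iff_intDeg.mp b.2).resolve_left hb0
    rw [isUnit_inftyS_iff, isUnit_inftyS_iff]
    by_cases ha : intDeg k E (a : E) = 0
    · exact Or.inl ⟨ha0, ha⟩
    · exact Or.inr ⟨hb0, by omega⟩

instance : IsDiscreteValuationRing ↥(inftyS k E) := by
  apply IsDiscreteValuationRing.ofHasUnitMulPowIrreducibleFactorization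
  refine ⟨unifS k E, irreducible_unifS, ?_⟩
  intro s hs0
  have hs0' : (s : E) ≠ 0 := fun h => hs0 (Subtype.ext h)
  obtain ⟨u, hu, hui, hu0, m, e⟩ := exists_unit_mul_inv_pow s.2 hs0'
  refine ⟨m, ?_⟩
  have hunit : IsUnit (⟨u, hu⟩ : inftyS k E) :=
    isUnit_iff_exists_inv.mpr ⟨⟨u⁻¹, hui⟩, Subtype.ext (mul_inv_cancel₀ hu0)⟩
  refine ⟨hunit.unit, ?_⟩
  apply Subtype.ext
  change (algebraMap k[X] E X)⁻¹ ^ m * u = (s : E)
  rw [e, mul_comm]

instance : IsFractionRing ↥(inftyS k E) E := by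
  apply isFractionRing_of_exists_div
  intro z
  have hx : algebraMap k[X] E X ≠ 0 := algebraMap_ne_zero X_ne_zero
  obtain ⟨m, hm⟩ := (fracLine k E).exists_pow z
  refine ⟨_, hm, _, (fracLine k E).inv_pow_mem_S m, pow_ne_zero _ (inv_ne_zero hx), ?_⟩
  change z = (algebraMap k[X] E X)⁻¹ ^ m * z / (algebraMap k[X] E X)⁻¹ ^ m
  rw [mul_comm, mul_div_assoc, div_self (pow_ne_zero _ (inv_ne_zero hx)), mul_one]

end Rings

end Fermat.Agent.S20.RR.LineDataFrac
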