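/-
helper67 — P-S20 (Riemann–Roch for S20), Part III.

The two charts of the projective line: for `E = Frac K[X]`, `E ⊆ F` finite separable, and a place
`v` of `F / K`, `v` lies over `polyR K E` iff `x ∈ O_v`, and over `inftyS K E` iff `x ∉ O_v`.
Hence `riemannRochSpace D = latticeOf (polyR K E) D ⊓ latticeOf (inftyS K E) D`.
-/
import Fermat.Agent.S20.RR.Dictionary
import Fermat.Agent.S20.RR.LineDataFrac2
import Fermat.Agent.S24.PlaceBasic

set_option autoImplicit false
set_option linter.unusedSectionVars false

noncomputable section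

namespace Fermat.Agent.S20.RR.Dictionary

open AlgebraicCurve IsDedekindDomain IsDedekindDomain.HeightOneSpectrum WithZero Polynomial
open Fermat.Agent.S20.RR.LineDataFrac Fermat.Agent.S24.ZD.PlaceLemmas

variable {K E F : Type*} [Field K] [Field E] [Field F]
  [Algebra K[X] E] [IsFractionRing K[X] E] [Algebra K E] [IsScalarTower K K[X] E]
  [Algebra K F] [Algebra E F] [IsScalarTower K E F] [FiniteDimensional E F]

variable (K E F) in
/-- The coordinate function `x`, as an element of `F`. -/
def xF : F := algebraMap E F (algebraMap K[X] E X)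

/-- The image of a polynomial in `F` is its value at `x`. -/
theorem algebraMap_poly_eq_aeval (p : K[X]) :
    algebraMap E F (algebraMap K[X] E p) = aeval (xF K E F) p := by
  let φ : K[X] →ₐ[K] F := (IsScalarTower.toAlgHom K E F).comp (IsScalarTower.toAlgHom K K[X] E)
  have h : φ = aeval (xF K E F) := by
    apply Polynomial.algHom_ext
    simp [φ, xF]
  have : φ p = algebraMap E F (algebraMap K[X] E p) := rfl
  rw [← this, h]

theorem adicValuation_algebraMap_eq_one (v : Place K F) {a : K} (ha : a ≠ 0) :
    v.adicValuation (algebraMap K F a) = 1 := by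
  have h1 := v.adicValuation_algebraMap_le_one a
  have h2 := v.adicValuation_algebraMap_le_one a⁻¹
  rw [map_inv₀, map_inv₀] at h2
  have h0 : v.adicValuation (algebraMap K F a) ≠ 0 :=
    v.adicValuation_ne_zero (by simpa using ha)
  have h3 : 1 ≤ v.adicValuation (algebraMap K F a) := by
    rwa [inv_le_one₀ (zero_lt_iff.mpr h0)] at h2
  exact le_antisymm h1 h3

theorem aeval_mem_of_mem (v : Place K F) (hx : xF K E F ∈ v.toValuationSubring) (p : K[X]) :
    aeval (xF K E F) p ∈ v.toValuationSubring := by
  induction p using Polynomial.induction_on with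
  | C a => rw [aeval_C]; exact v.algebraMap_mem' a
  | add p q hp hq => rw [map_add]; exact add_mem hp hq
  | monomial n a h =>
    rw [map_mul, aeval_C, map_pow, aeval_X]
    exact mul_mem (v.algebraMap_mem' a) (pow_mem hx _)

/-- If `x` has a pole at `v`, the valuation of a polynomial in `x` is the top term's. -/
theorem adicValuation_aeval_of_lt (v : Place K F) (hx : 1 < v.adicValuation (xF K E F))
    {p : K[X]} (hp : p ≠ 0) :
    v.adicValuation (aeval (xF K E F) p) = v.adicValuation (xF K E F) ^ p.natDegree := by
  set w := v.adicValuation with hw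
  set x := xF K E F with hxdef
  have hx0 : w x ≠ 0 := (zero_lt_one.trans hx).ne'
  rw [aeval_eq_sum_range, Finset.sum_range_succ]
  have htop : w (p.coeff p.natDegree • x ^ p.natDegree) = w x ^ p.natDegree := by
    rw [Algebra.smul_def, map_mul, map_pow, coeff_natDegree,
      adicValuation_algebraMap_eq_one v (leadingCoeff_ne_zero.mpr hp), one_mul]
  have hlow : w (∑ i ∈ Finset.range p.natDegree, p.coeff i • x ^ i) < w x ^ p.natDegree := by
    apply Valuation.map_sum_lt w (pow_ne_zero _ hx0)
    intro i hi
    rw [Algebra.smul_def, map_mul, map_pow]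
    calc w (algebraMap K F (p.coeff i)) * w x ^ i ≤ 1 * w x ^ i :=
          mul_le_mul' (v.adicValuation_algebraMap_le_one _) le_rfl
      _ = w x ^ i := one_mul _
      _ < w x ^ p.natDegree := pow_lt_pow_right₀ hx (Finset.mem_range.mp hi)
  rw [← htop] at hlow ⊢
  exact Valuation.map_add_eq_of_lt_right w hlow

theorem mem_placesOver_polyR_iff (v : Place K F) :
    v ∈ placesOver (F := F) (polyR K E) ↔ xF K E F ∈ v.toValuationSubring := by
  constructor
  · intro h
    exact h ⟨algebraMap K[X] E X, algebraMap_mem_polyR X⟩
  · intro hx a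
    obtain ⟨p, hp⟩ := mem_polyR.mp a.2
    have : algebraMap ↥(polyR K E) F a = algebraMap E F (a : E) := rfl
    rw [this, ← hp, algebraMap_poly_eq_aeval]
    exact aeval_mem_of_mem v hx p

theorem mem_placesOver_inftyS_iff (v : Place K F) :
    v ∈ placesOver (F := F) (inftyS K E) ↔ xF K E F ∉ v.toValuationSubring := by
  have hXne : algebraMap K[X] E X ≠ 0 := algebraMap_ne_zero X_ne_zero
  constructor
  · intro h hx
    -- then all of `E`, hence all of `F`, lies in the valuation ring
    apply v.ne_top'
    rw [eq_top_iff]
    intro f _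
    have hxinv : (xF K E F)⁻¹ ∈ v.toValuationSubring := by
      have := h ⟨(algebraMap K[X] E X)⁻¹, (fracLine K E).inv_mem⟩
      have e : algebraMap ↥(inftyS K E) F ⟨(algebraMap K[X] E X)⁻¹, (fracLine K E).inv_mem⟩ =
          (xF K E F)⁻¹ := by
        change algebraMap E F (algebraMap K[X] E X)⁻¹ = _
        rw [map_inv₀]; rfl
      rwa [e] at this
    have hE : ∀ z : E, algebraMap E F z ∈ v.toValuationSubring := by
      intro z
      obtain ⟨p, q, hq, rfl⟩ := exists_repr K E z
      have h1 : algebraMap K[X] E (X ^ q.natDegree) / algebraMap K[X] E q ∈ inftyS K E :=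
        div_mem_inftyS hq (by rw [natDegree_X_pow])
      have h2 := h ⟨_, h1⟩
      have e2 : algebraMap ↥(inftyS K E) F ⟨_, h1⟩ =
          algebraMap E F (algebraMap K[X] E (X ^ q.natDegree) / algebraMap K[X] E q) := rfl
      rw [e2] at h2
      have e3 : algebraMap E F (algebraMap K[X] E p / algebraMap K[X] E q) =
          algebraMap E F (algebraMap K[X] E p) * ((xF K E F)⁻¹ ^ q.natDegree *
            algebraMap E F (algebraMap K[X] E (X ^ q.natDegree) / algebraMap K[X] E q)) := by
        have hq' : algebraMap K[X] E q ≠ 0 := algebraMap_ne_zero hq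
        rw [xF, ← map_inv₀, ← map_pow, ← map_mul, ← map_mul]
        congr 1
        rw [map_pow, inv_pow, ← mul_div_assoc, inv_mul_cancel₀ (pow_ne_zero _ hXne), one_div,
          div_eq_mul_inv]
      rw [e3, algebraMap_poly_eq_aeval]
      exact mul_mem (aeval_mem_of_mem v hx p) (mul_mem (pow_mem hxinv _) h2)
    have : Algebra.IsIntegral E F := Algebra.IsIntegral.of_finite E F
    exact mem_valuationSubring_of_isIntegral' v.toValuationSubring hE
      (Algebra.IsIntegral.isIntegral f)
  · intro hx a
    have hx1 : 1 < v.adicValuation (xF K E F) := by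
      rw [mem_iff_adicValuation_le_one] at hx
      exact not_le.mp hx
    by_cases ha : (a : E) = 0
    · have : algebraMap ↥(inftyS K E) F a = algebraMap E F (a : E) := rfl
      rw [this, ha, map_zero]
      exact zero_mem _
    obtain ⟨p, q, hp, hq, e⟩ := exists_repr_ne_zero (k := K) ha
    have hd := natDegree_le_of_div_mem_inftyS hq hp (e ▸ a.2)
    have : algebraMap ↥(inftyS K E) F a = algebraMap E F (a : E) := rfl
    rw [this, e, map_div₀, algebraMap_poly_eq_aeval, algebraMap_poly_eq_aeval,
      mem_iff_adicValuation_le_one, map_div₀, adicValuation_aeval_of_lt v hx1 hp,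
      adicValuation_aeval_of_lt v hx1 hq]
    have hx0 : v.adicValuation (xF K E F) ≠ 0 := (zero_lt_one.trans hx1).ne'
    rw [div_le_one₀ (zero_lt_iff.mpr (pow_ne_zero _ hx0))]
    exact pow_le_pow_right₀ hx1.le hd

variable [Algebra.IsSeparable E F]

/-- The Riemann–Roch space of a divisor is the intersection of its two lattices. -/
theorem riemannRochSpace_eq_inf (D : Divisor K F) :
    riemannRochSpace D = latticeOf (polyR K E) D ⊓ latticeOf (inftyS K E) D := by
  ext f
  rw [Submodule.mem_inf]
  constructor
  · intro h
    exact ⟨fun v _ => h v, fun v _ => h v⟩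
  · rintro ⟨h1, h2⟩ v
    by_cases hx : xF K E F ∈ v.toValuationSubring
    · exact h1 v ((mem_placesOver_polyR_iff v).mpr hx)
    · exact h2 v ((mem_placesOver_inftyS_iff v).mpr hx)

end Fermat.Agent.S20.RR.Dictionary
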