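/-
The canonical divisor `W_x` of a function field `F / K` relative to a separating coordinate `x`
(`E = K(x)`, `F / E` finite separable), defined from the different ideals of the two charts:
`W_x v = d_v` at places over `K[x]` and `W_x v = d_v - 2 e_v` at the poles of `x`, where `d_v` is
the exponent of the different and `e_v` the ramification index.  Characteristic free.
The lattices of `W_x - D` are the trace duals of the lattices of `D`.
-/
import Fermat.Agent.S20.RR.DictionaryLine
import Fermat.Agent.S20.RR.DualCount

set_option autoImplicit false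
set_option linter.unusedSectionVars false

noncomputable section

namespace Fermat.Agent.S20.RR.Canonical

open AlgebraicCurve IsDedekindDomain IsDedekindDomain.HeightOneSpectrum WithZero Polynomial
  FractionalIdeal nonZeroDivisors
open Fermat.Agent.S20.RR.Dictionary Fermat.Agent.S20.RR.DedekindMem
  Fermat.Agent.S20.RR.DedekindGlue Fermat.Agent.S20.RR.DualCount Fermat.Agent.S20.RR.LineDataFrac

section Generic

variable {K E F : Type*} [Field K] [Field E] [Field F] [Algebra K E] [Algebra K F] [Algebra E F]
  [IsScalarTower K E F] [FiniteDimensional E F] [Algebra.IsSeparable E F]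
variable (A : Subalgebra K E) [IsDedekindDomain A] [IsFractionRing A E]

instance isTorsionFree_intCl : Module.IsTorsionFree ↥A ↥(IntCl (F := F) A) :=
  isTorsionFree_of_isIntegralClosure ↥A E F ↥(IntCl (F := F) A)

/-- Push exponents on the primes of the integral closure forward to a divisor supported on the
places over `A`. -/
def divOfExps (e : HeightOneSpectrum (IntCl (F := F) A) →₀ ℤ) : Divisor K F :=
  Finsupp.mapDomain placeOf e

variable {A}

theorem divOfExps_placeOf (e : HeightOneSpectrum (IntCl (F := F) A) →₀ ℤ)
    (P : HeightOneSpectrum (IntCl (F := F) A)) : divOfExps A e (placeOf P) = e P :=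
  Finsupp.mapDomain_apply placeOf_injective e P

theorem divOfExps_of_mem (e : HeightOneSpectrum (IntCl (F := F) A) →₀ ℤ) (v : Place K F)
    (hv : v ∈ placesOver (F := F) A) : divOfExps A e v = e (primeOf v hv) := by
  conv_lhs => rw [← placeOf_primeOf v hv]
  exact divOfExps_placeOf e _

theorem divOfExps_of_notMem (e : HeightOneSpectrum (IntCl (F := F) A) →₀ ℤ) (v : Place K F)
    (hv : v ∉ placesOver (F := F) A) : divOfExps A e v = 0 := by
  refine Finsupp.mapDomain_of_notMem_range e v ?_
  rintro ⟨P, rfl⟩
  exact hv (placeOf_mem P)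

theorem expsOf_divOfExps (e : HeightOneSpectrum (IntCl (F := F) A) →₀ ℤ) :
    expsOf A (divOfExps A e) = -e := by
  ext P
  rw [expsOf_apply, divOfExps_placeOf, Finsupp.neg_apply]

variable (A) in
/-- The exponents of the different of the integral closure of `A`, as a finitely supported
function (chosen). -/
def diffExps : HeightOneSpectrum (IntCl (F := F) A) →₀ ℤ :=
  (exists_diffExps ↥A E F ↥(IntCl (F := F) A)).choose

theorem diffExps_apply (P : HeightOneSpectrum (IntCl (F := F) A)) :
    diffExps (F := F) A P = count F P ((differentIdeal ↥A ↥(IntCl (F := F) A) :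
      Ideal ↥(IntCl (F := F) A)) : FractionalIdeal (IntCl (F := F) A)⁰ F) :=
  (exists_diffExps ↥A E F ↥(IntCl (F := F) A)).choose_spec P

theorem diffExps_nonneg (P : HeightOneSpectrum (IntCl (F := F) A)) :
    0 ≤ diffExps (F := F) A P := by
  rw [diffExps_apply]
  exact count_coe_nonneg F P _

/-- The trace dual of the ideal of a divisor, in terms of exponents. -/
theorem dual_idealOfExps_expsOf (D : Divisor K F) :
    dual ↥A E (idealOfExps F (expsOf A D)) =
      idealOfExps F (-expsOf A D - diffExps (F := F) A) :=
  dual_idealOfExps ↥A E F _ _ diffExps_apply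

variable (A) in
/-- The exponents of a nonzero element of `F` at the primes of the integral closure of `A`. -/
def elemExps (f : F) (hf : f ≠ 0) : HeightOneSpectrum (IntCl (F := F) A) →₀ ℤ :=
  (exists_eq_idealOfExps (F := F) (I := spanSingleton (IntCl (F := F) A)⁰ f)
    (spanSingleton_ne_zero_iff.mpr hf)).choose

theorem elemExps_apply (f : F) (hf : f ≠ 0) (P : HeightOneSpectrum (IntCl (F := F) A)) :
    elemExps A f hf P = ordAt F P f := by
  unfold elemExps
  rw [(exists_eq_idealOfExps (F := F) (I := spanSingleton (IntCl (F := F) A)⁰ f)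
    (spanSingleton_ne_zero_iff.mpr hf)).choose_spec.1 P, count_spanSingleton P hf]

/-- If `W` has the different exponents at the places over `A`, then the ideal of `W - D` is the
trace dual of the ideal of `D`. -/
theorem idealOfExps_expsOf_sub (W D : Divisor K F)
    (hW : ∀ P : HeightOneSpectrum (IntCl (F := F) A), W (placeOf P) = diffExps (F := F) A P) :
    idealOfExps F (expsOf A (W - D)) = dual ↥A E (idealOfExps F (expsOf A D)) := by
  rw [dual_idealOfExps_expsOf]
  congr 1
  ext P
  rw [expsOf_apply, Finsupp.sub_apply, Finsupp.sub_apply, Finsupp.neg_apply, expsOf_apply, hW P]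
  ring

/-- If `A` is a discrete valuation ring with uniformizer `π` and `W` has exponents `d_P - n e_P`
at the places over `A`, then the ideal of `W - D` is the twisted trace dual `π ^ n • I_D^∨`. -/
theorem idealOfExps_expsOf_sub_of_dvr [IsDiscreteValuationRing ↥A] {π : ↥A} (hπ : Irreducible π)
    (n : ℕ) (W D : Divisor K F)
    (hW : ∀ P : HeightOneSpectrum (IntCl (F := F) A), W (placeOf P) =
      diffExps (F := F) A P - n * (P.asIdeal.ramificationIdx ↥A : ℤ)) :
    idealOfExps F (expsOf A (W - D)) =
      scale ((π : E) ^ n) (dual ↥A E (idealOfExps F (expsOf A D))) := by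
  have hπE : (π : E) ≠ 0 := fun h => hπ.ne_zero (Subtype.ext h)
  have hd : dual ↥A E (idealOfExps F (expsOf A D)) ≠ 0 :=
    dual_ne_zero ↥A E (idealOfExps_ne_zero _)
  refine eq_of_forall_count_eq (idealOfExps_ne_zero _) (scale_ne_zero (pow_ne_zero n hπE) hd)
    fun P => ?_
  have h := count_scale_pow_dual_dvr ↥A E F hπ n P (idealOfExps_ne_zero (F := F) (expsOf A D))
  have e1 : algebraMap ↥A E π = (π : E) := rfl
  rw [e1] at h
  rw [h, count_idealOfExps, count_idealOfExps, expsOf_apply, Finsupp.sub_apply, expsOf_apply,
    hW P, diffExps_apply]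
  ring

end Generic

section Line

variable {K E F : Type*} [Field K] [Field E] [Field F]
  [Algebra K[X] E] [IsFractionRing K[X] E] [Algebra K E] [IsScalarTower K K[X] E]
  [Algebra K F] [Algebra E F] [IsScalarTower K E F] [FiniteDimensional E F]
  [Algebra.IsSeparable E F]

theorem xF_ne_zero : xF K E F ≠ 0 :=
  (map_ne_zero (algebraMap E F)).mpr (algebraMap_ne_zero X_ne_zero)

variable (K E F) in
/-- The exponents `d_P - 2 e_P` at the poles of `x`. -/
def inftyExps : HeightOneSpectrum (IntCl (F := F) (inftyS K E)) →₀ ℤ :=
  diffExps (F := F) (inftyS K E) -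
    2 • elemExps (inftyS K E) (xF K E F)⁻¹ (inv_ne_zero xF_ne_zero)

variable (K E F) in
/-- The canonical divisor attached to the coordinate `x`: the different exponent at the places
where `x` is regular, and the different exponent minus twice the ramification index at the poles
of `x`. -/
def canonicalX : Divisor K F :=
  divOfExps (polyR K E) (diffExps (F := F) (polyR K E)) +
    divOfExps (inftyS K E) (inftyExps K E F)

theorem notMem_placesOver_inftyS {v : Place K F} (hv : v ∈ placesOver (F := F) (polyR K E)) :
    v ∉ placesOver (F := F) (inftyS K E) := by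
  rw [mem_placesOver_inftyS_iff, not_not]
  exact (mem_placesOver_polyR_iff v).mp hv

theorem notMem_placesOver_polyR {v : Place K F} (hv : v ∈ placesOver (F := F) (inftyS K E)) :
    v ∉ placesOver (F := F) (polyR K E) := by
  rw [mem_placesOver_polyR_iff]
  exact (mem_placesOver_inftyS_iff v).mp hv

theorem mem_placesOver_polyR_or_inftyS (v : Place K F) :
    v ∈ placesOver (F := F) (polyR K E) ∨ v ∈ placesOver (F := F) (inftyS K E) := by
  rw [mem_placesOver_polyR_iff, mem_placesOver_inftyS_iff]
  exact em _

/-- `W_x` at a place where `x` is regular: the exponent of the different of the integral closure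
of `K[x]`. -/
theorem canonicalX_apply_of_polyR (v : Place K F) (hv : v ∈ placesOver (F := F) (polyR K E)) :
    canonicalX K E F v = count F (primeOf v hv)
      ((differentIdeal ↥(polyR K E) ↥(IntCl (F := F) (polyR K E)) :
        Ideal ↥(IntCl (F := F) (polyR K E))) :
          FractionalIdeal (IntCl (F := F) (polyR K E))⁰ F) := by
  unfold canonicalX
  rw [Finsupp.add_apply, divOfExps_of_mem _ v hv,
    divOfExps_of_notMem _ v (notMem_placesOver_inftyS hv), add_zero, diffExps_apply]

/-- The exponent of `x⁻¹` at a pole of `x` is the ramification index. -/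
theorem ordAt_inv_xF (P : HeightOneSpectrum (IntCl (F := F) (inftyS K E))) :
    ordAt F P (xF K E F)⁻¹ = (P.asIdeal.ramificationIdx ↥(inftyS K E) : ℤ) := by
  have h := ordAt_algebraMap_irreducible ↥(inftyS K E) E F (irreducible_unifS (k := K) (E := E)) P
  have e1 : algebraMap ↥(inftyS K E) F (unifS K E) = (xF K E F)⁻¹ := by
    change algebraMap E F (algebraMap K[X] E X)⁻¹ = _
    rw [map_inv₀]
    rfl
  rwa [e1] at h

theorem inftyExps_apply (P : HeightOneSpectrum (IntCl (F := F) (inftyS K E))) :
    inftyExps K E F P = count F P
      ((differentIdeal ↥(inftyS K E) ↥(IntCl (F := F) (inftyS K E)) :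
        Ideal ↥(IntCl (F := F) (inftyS K E))) :
          FractionalIdeal (IntCl (F := F) (inftyS K E))⁰ F) -
        2 * (P.asIdeal.ramificationIdx ↥(inftyS K E) : ℤ) := by
  unfold inftyExps
  rw [Finsupp.sub_apply, Finsupp.smul_apply, diffExps_apply, elemExps_apply, ordAt_inv_xF,
    nsmul_eq_mul, Nat.cast_ofNat]

/-- `W_x` at a pole of `x`: the exponent of the different of the integral closure of the local
ring at infinity, minus twice the ramification index. -/
theorem canonicalX_apply_of_inftyS (v : Place K F) (hv : v ∈ placesOver (F := F) (inftyS K E)) :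
    canonicalX K E F v = count F (primeOf v hv)
      ((differentIdeal ↥(inftyS K E) ↥(IntCl (F := F) (inftyS K E)) :
        Ideal ↥(IntCl (F := F) (inftyS K E))) :
          FractionalIdeal (IntCl (F := F) (inftyS K E))⁰ F) -
        2 * ((primeOf v hv).asIdeal.ramificationIdx ↥(inftyS K E) : ℤ) := by
  unfold canonicalX
  rw [Finsupp.add_apply, divOfExps_of_mem _ v hv,
    divOfExps_of_notMem _ v (notMem_placesOver_polyR hv), zero_add, inftyExps_apply]

/-- The ramification index at a pole of `x` is the pole order of `x`. -/
theorem ramificationIdx_eq_neg_ord (v : Place K F) (hv : v ∈ placesOver (F := F) (inftyS K E)) :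
    ((primeOf v hv).asIdeal.ramificationIdx ↥(inftyS K E) : ℤ) = -v.ord (xF K E F) := by
  rw [← ordAt_inv_xF, ← ord_eq_ordAt v hv, v.ord_inv]

/-- The ideal of `W_x - D` on the chart `K[x]` is the trace dual of the ideal of `D`. -/
theorem idealOfExps_polyR_canonicalX_sub (D : Divisor K F) :
    idealOfExps F (expsOf (polyR K E) (canonicalX K E F - D)) =
      dual ↥(polyR K E) E (idealOfExps F (expsOf (polyR K E) D)) := by
  refine idealOfExps_expsOf_sub (canonicalX K E F) D fun P => ?_
  rw [canonicalX_apply_of_polyR _ (placeOf_mem P), primeOf_placeOf, diffExps_apply]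

/-- The ideal of `W_x - D` on the chart at infinity is the twisted trace dual `x⁻² • I'_D^∨`. -/
theorem idealOfExps_inftyS_canonicalX_sub (D : Divisor K F) :
    idealOfExps F (expsOf (inftyS K E) (canonicalX K E F - D)) =
      scale ((algebraMap K[X] E X)⁻¹ ^ 2)
        (dual ↥(inftyS K E) E (idealOfExps F (expsOf (inftyS K E) D))) := by
  have h := idealOfExps_expsOf_sub_of_dvr (F := F) (irreducible_unifS (k := K) (E := E)) 2
    (canonicalX K E F) D fun P => by
      rw [canonicalX_apply_of_inftyS _ (placeOf_mem P), primeOf_placeOf, diffExps_apply]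
      norm_num
  exact h

end Line

end Fermat.Agent.S20.RR.Canonical
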