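/-
helper67 — P-S20 (Riemann–Roch for S20), Part III.

Strong approximation for the places of `F / K` lying over a Dedekind subalgebra `A ⊆ E`
(`E ⊆ F` finite separable, `Frac A = E`), in the Prelude's language of places, and its
specialisation to the affine chart `polyR K E` of the projective line: the set of poles of the
coordinate `x` is finite, and strong approximation holds away from it.
-/
import Fermat.Agent.S20.RR.DictionaryLine

set_option autoImplicit false
set_option linter.unusedSectionVars false

noncomputable section

namespace Fermat.Agent.S20.RR.StrongApprox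

open AlgebraicCurve IsDedekindDomain IsDedekindDomain.HeightOneSpectrum WithZero Polynomial
open Fermat.Agent.S20.RR.LineDataFrac Fermat.Agent.S20.RR.Dictionary
open Fermat.Agent.S20.RR.DedekindMem Fermat.Agent.S24.ZD.PlaceLemmas

section Generic

variable {K E F : Type*} [Field K] [Field E] [Field F] [Algebra K E] [Algebra K F] [Algebra E F]
  [IsScalarTower K E F] [FiniteDimensional E F] [Algebra.IsSeparable E F]
variable (A : Subalgebra K E) [IsDedekindDomain A] [IsFractionRing A E]

theorem valuation_le_exp_iff (P : HeightOneSpectrum (IntCl (F := F) A)) (f : F) (n : ℤ) :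
    P.valuation F f ≤ exp n ↔ f = 0 ∨ -n ≤ ordAt F P f := by
  by_cases hf : f = 0
  · simp [hf]
  · have h0 : P.valuation F f ≠ 0 := (Valuation.ne_zero_iff _).mpr hf
    rw [or_iff_right hf, ordAt, neg_le_neg_iff]
    conv_lhs => rw [← exp_log h0]
    exact exp_le_exp

variable {A} in
theorem adicValuation_le_exp_iff_valuation {v : Place K F} (hv : v ∈ placesOver (F := F) A)
    (f : F) (n : ℤ) :
    v.adicValuation f ≤ exp n ↔ (primeOf v hv).valuation F f ≤ exp n := by
  rw [v.adicValuation_le_exp_iff, valuation_le_exp_iff, ord_eq_ordAt v hv]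

variable {A} in
theorem mem_valuationSubring_iff_valuation {v : Place K F} (hv : v ∈ placesOver (F := F) A)
    (f : F) :
    f ∈ v.toValuationSubring ↔ (primeOf v hv).valuation F f ≤ 1 := by
  rw [mem_iff_adicValuation_le_one]
  simpa using adicValuation_le_exp_iff_valuation hv f 0

/-- A nonzero function has finitely many poles among the places over `A`. -/
theorem finite_poles_over {f : F} (hf : f ≠ 0) :
    {v : Place K F | v ∈ placesOver (F := F) A ∧ v.ord f < 0}.Finite := by
  have hfin : {P : HeightOneSpectrum (IntCl (F := F) A) |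
      FractionalIdeal.count F P
        (FractionalIdeal.spanSingleton (nonZeroDivisors (IntCl (F := F) A)) f) ≠ 0}.Finite := by
    have := FractionalIdeal.finite_factors (K := F)
      (FractionalIdeal.spanSingleton (nonZeroDivisors (IntCl (F := F) A)) f)
    rw [Filter.eventually_cofinite] at this
    exact this
  refine (hfin.image placeOf).subset ?_
  rintro v ⟨hv, hneg⟩
  refine ⟨primeOf v hv, ?_, placeOf_primeOf v hv⟩
  show FractionalIdeal.count F (primeOf v hv) _ ≠ 0
  rw [count_spanSingleton _ hf, ← ord_eq_ordAt v hv]
  omega

/-- **Strong approximation over a Dedekind chart.**  Given finitely many places `v ∈ T` over `A`,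
targets `a v` and precisions `n v`, there is `f : F` with `ord_v (f - a v) ≥ n v` for `v ∈ T` and
`f` regular at all other places over `A`. -/
theorem exists_approx_over (T : Finset (Place K F)) (hT : ∀ v ∈ T, v ∈ placesOver (F := F) A)
    (a : Place K F → F) (n : Place K F → ℤ) :
    ∃ f : F, (∀ v ∈ T, f = a v ∨ n v ≤ v.ord (f - a v)) ∧
      ∀ v ∈ placesOver (F := F) A, v ∉ T → f ∈ v.toValuationSubring := by
  classical
  let s : Finset (HeightOneSpectrum (IntCl (F := F) A)) :=
    T.attach.image (fun v => primeOf v.1 (hT v.1 v.2))
  obtain ⟨f, hf1, hf2⟩ := exists_approx (F := F) s (fun P => a (placeOf P))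
    (fun P => n (placeOf P))
  refine ⟨f, ?_, ?_⟩
  · intro v hv
    have hP : primeOf v (hT v hv) ∈ s :=
      Finset.mem_image.mpr ⟨⟨v, hv⟩, Finset.mem_attach _ _, rfl⟩
    have h := hf1 _ hP
    simp only [placeOf_primeOf] at h
    rw [valuation_le_exp_iff] at h
    rcases h with h | h
    · left; exact sub_eq_zero.mp h
    · right
      rw [ord_eq_ordAt v (hT v hv)]
      simpa using h
  · intro v hv hvT
    have hP : primeOf v hv ∉ s := by
      intro h
      obtain ⟨⟨w, hw⟩, -, hwv⟩ := Finset.mem_image.mp h
      have hwv' : w = v := by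
        rw [← placeOf_primeOf w (hT w hw), ← placeOf_primeOf v hv]
        exact congrArg placeOf hwv
      exact hvT (hwv' ▸ hw)
    exact (mem_valuationSubring_iff_valuation hv f).mpr (hf2 _ hP)

end Generic

section Line

variable (K E F : Type*) [Field K] [Field E] [Field F]
  [Algebra K[X] E] [IsFractionRing K[X] E] [Algebra K E] [IsScalarTower K K[X] E]
  [Algebra K F] [Algebra E F] [IsScalarTower K E F] [FiniteDimensional E F]
  [Algebra.IsSeparable E F]

theorem xF_ne_zero : xF K E F ≠ 0 := by
  unfold xF
  rw [Ne, map_eq_zero]
  exact algebraMap_ne_zero X_ne_zero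

/-- The coordinate `x` has finitely many poles. -/
theorem finite_poles_xF : {v : Place K F | xF K E F ∉ v.toValuationSubring}.Finite := by
  refine (finite_poles_over (F := F) (inftyS K E) (xF_ne_zero K E F)).subset ?_
  intro v hv
  refine ⟨(mem_placesOver_inftyS_iff v).mpr hv, ?_⟩
  rw [← v.not_adicValuation_le_one_iff, ← mem_iff_adicValuation_le_one]
  exact hv

/-- The finite set of poles of the coordinate `x` (the "places at infinity"). -/
def polesFinset : Finset (Place K F) := (finite_poles_xF K E F).toFinset

variable {K E F}

@[simp] theorem mem_polesFinset {v : Place K F} :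
    v ∈ polesFinset K E F ↔ xF K E F ∉ v.toValuationSubring := by
  simp [polesFinset]

theorem not_mem_polesFinset {v : Place K F} :
    v ∉ polesFinset K E F ↔ v ∈ placesOver (F := F) (polyR K E) := by
  rw [mem_polesFinset, not_not, mem_placesOver_polyR_iff]

theorem mem_polesFinset_iff_placesOver {v : Place K F} :
    v ∈ polesFinset K E F ↔ v ∈ placesOver (F := F) (inftyS K E) := by
  rw [mem_polesFinset, mem_placesOver_inftyS_iff]

variable (K E F)

/-- **Strong approximation away from the poles of `x`.** -/
theorem strongApprox_off_poles (T : Finset (Place K F)) (hT : Disjoint T (polesFinset K E F))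
    (a : Place K F → F) (n : Place K F → ℤ) :
    ∃ f : F, (∀ v ∈ T, f = a v ∨ n v ≤ v.ord (f - a v)) ∧
      ∀ v, v ∉ T → v ∉ polesFinset K E F → f ∈ v.toValuationSubring := by
  obtain ⟨f, h1, h2⟩ := exists_approx_over (F := F) (polyR K E) T
    (fun v hv => not_mem_polesFinset.mp (Finset.disjoint_left.mp hT hv)) a n
  exact ⟨f, h1, fun v hvT hvS => h2 v (not_mem_polesFinset.mp hvS) hvT⟩

/-- **Strong approximation at the poles of `x`** (away from the finite places). -/
theorem strongApprox_at_poles (a : Place K F → F) (n : Place K F → ℤ) :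
    ∃ f : F, ∀ v ∈ polesFinset K E F, f = a v ∨ n v ≤ v.ord (f - a v) := by
  obtain ⟨f, h1, -⟩ := exists_approx_over (F := F) (inftyS K E) (polesFinset K E F)
    (fun v hv => mem_polesFinset_iff_placesOver.mp hv) a n
  exact ⟨f, h1⟩

/-- The affine lattice of `D`, in terms of the finite set of poles of `x`. -/
theorem mem_latticeOf_polyR_iff {D : Divisor K F} {f : F} :
    f ∈ latticeOf (F := F) (polyR K E) D ↔
      ∀ v, v ∉ polesFinset K E F → v.adicValuation f ≤ exp (D v) := by
  show (∀ v ∈ placesOver (F := F) (polyR K E), v.adicValuation f ≤ exp (D v)) ↔ _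
  exact forall_congr' fun v => by rw [not_mem_polesFinset]

/-- The lattice of `D` at infinity, in terms of the finite set of poles of `x`. -/
theorem mem_latticeOf_inftyS_iff {D : Divisor K F} {f : F} :
    f ∈ latticeOf (F := F) (inftyS K E) D ↔
      ∀ v, v ∈ polesFinset K E F → v.adicValuation f ≤ exp (D v) := by
  show (∀ v ∈ placesOver (F := F) (inftyS K E), v.adicValuation f ≤ exp (D v)) ↔ _
  exact forall_congr' fun v => by rw [mem_polesFinset_iff_placesOver]

end Line

end Fermat.Agent.S20.RR.StrongApprox
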