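/-
Serre duality for the two lattices of a divisor: for `E = K(x)`, `F / E` finite separable,
`h1` of the lattice pair of `D` equals `h0` of the lattice pair of `W_x - D`, i.e. the dimension of
the Riemann-Roch space of `W_x - D`.  Characteristic free.
-/
import Fermat.Agent.S20.RR.Canonical
import Fermat.Agent.S20.RR.StrongApprox
import Fermat.Agent.Lib.RiemannRoch.H1Iso

set_option autoImplicit false
set_option linter.unusedSectionVars false

noncomputable section

namespace Fermat.Agent.S20.RR.Canonical

open AlgebraicCurve IsDedekindDomain IsDedekindDomain.HeightOneSpectrum WithZero Polynomial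
  FractionalIdeal nonZeroDivisors
open Fermat.Agent.S20.RR.Dictionary Fermat.Agent.S20.RR.DedekindMem
  Fermat.Agent.S20.RR.DedekindGlue Fermat.Agent.S20.RR.DualCount Fermat.Agent.S20.RR.LineDataFrac
  Fermat.Agent.S20.RR.AbstractDuality

variable {K E F : Type*} [Field K] [Field E] [Field F]
  [Algebra K[X] E] [IsFractionRing K[X] E] [Algebra K E] [IsScalarTower K K[X] E]
  [Algebra K F] [Algebra E F] [IsScalarTower K E F] [FiniteDimensional E F]
  [Algebra.IsSeparable E F]

theorem latticeOf_eq_idealLattice (A : Subalgebra K E) [IsDedekindDomain A] [IsFractionRing A E]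
    (D : Divisor K F) :
    latticeOf A D = idealLattice (k := K) (idealOfExps F (expsOf A D)) :=
  latticeOf_eq D

/-- **Serre duality for the lattice pair of a divisor.** -/
theorem duality_latticeOf (D : Divisor K F) :
    FinPair (latticeOf (polyR K E) D) (latticeOf (inftyS K E) D) ∧
    FinPair (latticeOf (polyR K E) (canonicalX K E F - D))
      (latticeOf (inftyS K E) (canonicalX K E F - D)) ∧
    h1 (latticeOf (polyR K E) D) (latticeOf (inftyS K E) D) =
      h0 (latticeOf (polyR K E) (canonicalX K E F - D))
        (latticeOf (inftyS K E) (canonicalX K E F - D)) ∧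
    h0 (latticeOf (polyR K E) D) (latticeOf (inftyS K E) D) =
      h1 (latticeOf (polyR K E) (canonicalX K E F - D))
        (latticeOf (inftyS K E) (canonicalX K E F - D)) := by
  have hS : ∀ s ∈ (fracLine K E).S, s ≠ 0 → ∃ u ∈ (fracLine K E).S, u⁻¹ ∈ (fracLine K E).S ∧
      ∃ m : ℕ, s = u * (fracLine K E).x⁻¹ ^ m := by
    intro s hs hs0
    obtain ⟨u, hu, hui, -, m, e⟩ := exists_unit_mul_inv_pow (k := K) (E := E) hs hs0
    exact ⟨u, hu, hui, m, e⟩
  have h := @duality_idealLattice K E F _ _ _ _ _ _ _ _ _ (fracLine K E)
    (inferInstanceAs (IsDedekindDomain ↥(polyR K E)))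
    (inferInstanceAs (IsFractionRing ↥(polyR K E) E))
    (inferInstanceAs (IsDedekindDomain ↥(inftyS K E)))
    (inferInstanceAs (IsFractionRing ↥(inftyS K E) E))
    ↥(IntCl (F := F) (polyR K E)) _ (inferInstanceAs (Algebra ↥(polyR K E) ↥(IntCl (F := F) (polyR K E)))) _
    (inferInstanceAs (IsScalarTower ↥(polyR K E) ↥(IntCl (F := F) (polyR K E)) F)) _ _
    (inferInstanceAs (IsIntegralClosure ↥(IntCl (F := F) (polyR K E)) ↥(polyR K E) F)) _ _
    ↥(IntCl (F := F) (inftyS K E)) _ (inferInstanceAs (Algebra ↥(inftyS K E) ↥(IntCl (F := F) (inftyS K E)))) _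
    (inferInstanceAs (IsScalarTower ↥(inftyS K E) ↥(IntCl (F := F) (inftyS K E)) F)) _ _
    (inferInstanceAs (IsIntegralClosure ↥(IntCl (F := F) (inftyS K E)) ↥(inftyS K E) F)) _ _
    hS (idealOfExps F (expsOf (polyR K E) D)) (idealOfExps F (expsOf (inftyS K E) D))
    (idealOfExps_ne_zero _) (idealOfExps_ne_zero _)
  rw [latticeOf_eq_idealLattice, latticeOf_eq_idealLattice, latticeOf_eq_idealLattice,
    latticeOf_eq_idealLattice, idealOfExps_polyR_canonicalX_sub,
    idealOfExps_inftyS_canonicalX_sub]
  exact h

open Fermat.Agent.S20.RR.StrongApprox Fermat.Agent.Lib.RiemannRoch.H1Iso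

/-- `h0` of the lattice pair of `D` is the dimension of the Riemann-Roch space. -/
theorem h0_latticeOf (D : Divisor K F) :
    h0 (latticeOf (polyR K E) D) (latticeOf (inftyS K E) D) =
      Module.finrank K ↥(riemannRochSpace D) := by
  unfold h0
  rw [Dictionary.riemannRochSpace_eq_inf (E := E) D]

variable (E) in
include E in
/-- Riemann-Roch spaces are finite-dimensional. -/
theorem finite_riemannRochSpace (D : Divisor K F) : Module.Finite K ↥(riemannRochSpace D) := by
  rw [Dictionary.riemannRochSpace_eq_inf (E := E) D]
  exact (duality_latticeOf (E := E) D).1.1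

theorem finPart_eq_latticeOf (D : Divisor K F) :
    finPart (polesFinset K E F) D = latticeOf (polyR K E) D := by
  ext f
  rw [mem_finPart, mem_latticeOf_polyR_iff]

theorem infPart_eq_latticeOf (D : Divisor K F) :
    infPart (polesFinset K E F) D = latticeOf (inftyS K E) D := by
  ext f
  rw [mem_infPart, mem_latticeOf_inftyS_iff]

variable (E) in
include E in
/-- Every function has finitely many poles. -/
theorem finite_poles_all (f : F) : {v : Place K F | ¬ v.adicValuation f ≤ 1}.Finite := by
  rcases eq_or_ne f 0 with rfl | hf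
  · have : {v : Place K F | ¬ v.adicValuation (0 : F) ≤ 1} = ∅ := by
      ext v
      simp
    rw [this]
    exact Set.finite_empty
  · refine ((finite_poles_over (F := F) (polyR K E) hf).union
      (finite_poles_over (F := F) (inftyS K E) hf)).subset ?_
    intro v hv
    have hv' : v.ord f < 0 := v.not_adicValuation_le_one_iff.mp hv
    rcases mem_placesOver_polyR_or_inftyS (E := E) v with h | h
    · exact Or.inl ⟨h, hv'⟩
    · exact Or.inr ⟨h, hv'⟩

variable (E) in
/-- The adelic `H¹` of `D` is the `h1` of the lattice pair of `D`. -/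
theorem finrank_H1_eq_h1_latticeOf (D : Divisor K F) :
    Module.finrank K (H1 D) = h1 (latticeOf (polyR K E) D) (latticeOf (inftyS K E) D) := by
  rw [finrank_H1_eq (polesFinset K E F) D (finite_poles_all E)
    (strongApproxOff_of_ord _ (strongApprox_off_poles K E F)),
    finPart_eq_latticeOf, infPart_eq_latticeOf]
  rfl

variable (E) in
/-- **Serre duality** `i(D) = l(W_x - D)` for the adelic `H¹` of the Prelude, with `W_x` the
canonical divisor attached to the coordinate `x`.  Characteristic free. -/
theorem finrank_H1_eq_finrank_riemannRochSpace (D : Divisor K F) :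
    Module.finrank K (H1 D) = Module.finrank K ↥(riemannRochSpace (canonicalX K E F - D)) := by
  rw [finrank_H1_eq_h1_latticeOf E D, (duality_latticeOf (E := E) D).2.2.1, h0_latticeOf]

variable (E) in
include E in
/-- The adelic `H¹` is finite-dimensional. -/
theorem finite_H1 (D : Divisor K F) : Module.Finite K (H1 D) := by
  have h := (duality_latticeOf (E := E) D).1.2
  rw [← finPart_eq_latticeOf, ← infPart_eq_latticeOf] at h
  exact Module.Finite.equiv (h1Iso (polesFinset K E F) D (finite_poles_all E)
    (strongApproxOff_of_ord _ (strongApprox_off_poles K E F)))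

variable (E) in
/-- `genusFF = l(W_x)`. -/
theorem genusFF_eq_finrank_riemannRochSpace_canonicalX :
    genusFF K F = Module.finrank K ↥(riemannRochSpace (canonicalX K E F)) := by
  unfold genusFF
  rw [finrank_H1_eq_finrank_riemannRochSpace E 0, sub_zero]

end Fermat.Agent.S20.RR.Canonical
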