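/-
helper67 — P-S20 (Riemann–Roch for S20), Part III, final assembly.

**Serre duality in the Prelude's language.**  For a function field `F / K`, finite separable over
`E = Frac K[X]`, let `W_x` be the divisor with `W_x(v) = d_v` (the different exponent of `v` over
`K[x]`) at the finite places and `W_x(v) = d_v + 2 ord_v(x)` (different exponent over the local
ring at infinity, corrected by the double pole of `dx`) at the poles of `x`.  Then for every divisor
`D` the adelic `H¹(D)` is finite-dimensional of dimension `dim L(W_x - D)`.
No hypothesis on the characteristic or on the constant field `K`.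
-/
import Fermat.Agent.S20.RR.StrongApprox
import Fermat.Agent.S20.RR.DedekindGlue
import Fermat.Agent.Lib.RiemannRoch.H1Iso

set_option autoImplicit false
set_option linter.unusedSectionVars false

noncomputable section

namespace Fermat.Agent.S20.RR.SerreDuality

open AlgebraicCurve IsDedekindDomain IsDedekindDomain.HeightOneSpectrum WithZero Polynomial
open Fermat.Agent.S20.RR.LineDataFrac Fermat.Agent.S20.RR.Dictionary
open Fermat.Agent.S20.RR.DedekindMem Fermat.Agent.S20.RR.DedekindGlue
open Fermat.Agent.S20.RR.AbstractDuality Fermat.Agent.S20.RR.StrongApprox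
open nonZeroDivisors

section Generic

variable {K E F : Type*} [Field K] [Field E] [Field F] [Algebra K E] [Algebra K F] [Algebra E F]
  [IsScalarTower K E F] [FiniteDimensional E F] [Algebra.IsSeparable E F]
variable (A : Subalgebra K E) [IsDedekindDomain A] [IsFractionRing A E]

instance instIsTorsionFreeBase : Module.IsTorsionFree ↥A F := by
  have hinj : Function.Injective (algebraMap ↥A F) := by
    have : (algebraMap ↥A F : ↥A → F) = (algebraMap E F) ∘ (algebraMap ↥A E) := rfl
    rw [this]
    exact (algebraMap E F).injective.comp (IsFractionRing.injective ↥A E)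
  have : FaithfulSMul ↥A F := (faithfulSMul_iff_algebraMap_injective ↥A F).mpr hinj
  exact FaithfulSMul.to_isTorsionFree ↥A F

instance instIsTorsionFreeIntCl : Module.IsTorsionFree ↥A (IntCl (F := F) A) :=
  Subalgebra.instIsTorsionFree _

instance instFiniteIntCl : Module.Finite ↥A (IntCl (F := F) A) :=
  IsIntegralClosure.finite ↥A E F (IntCl (F := F) A)

variable (F) in
/-- Fractional ideals of the integral closure of `A` in `F`. -/
abbrev FI : Type _ := FractionalIdeal (IntCl (F := F) A)⁰ F

/-- The different exponent of the integral closure of `A` at a prime, defined through the trace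
dual of the unit ideal. -/
def diffExp (P : HeightOneSpectrum (IntCl (F := F) A)) : ℤ :=
  -FractionalIdeal.count F P (FractionalIdeal.dual ↥A E (1 : FI F A))

theorem diffExp_nonneg (P : HeightOneSpectrum (IntCl (F := F) A)) : 0 ≤ diffExp A P := by
  have h1 : (1 : FI F A) ≤ (FractionalIdeal.dual ↥A E (1 : FI F A) : FI F A) :=
    FractionalIdeal.one_le_dual_one ↥A E
  have h2 := (le_iff_forall_count_le (F := F)
    (FractionalIdeal.dual_ne_zero ↥A E (one_ne_zero : (1 : FI F A) ≠ 0))
    (one_ne_zero : (1 : FI F A) ≠ 0)).mp h1 P
  rw [FractionalIdeal.count_one] at h2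
  unfold diffExp
  omega

theorem finite_diffExp_ne_zero :
    {P : HeightOneSpectrum (IntCl (F := F) A) | diffExp A P ≠ 0}.Finite := by
  have := FractionalIdeal.finite_factors (K := F)
    (FractionalIdeal.dual ↥A E (1 : FI F A))
  rw [Filter.eventually_cofinite] at this
  refine this.subset ?_
  intro P hP
  simp only [Set.mem_ofPred_eq, diffExp, ne_eq, neg_eq_zero] at hP ⊢
  exact hP

/-- The different exponent is the multiplicity of the prime in the different ideal. -/
theorem diffExp_eq_count_differentIdeal (P : HeightOneSpectrum (IntCl (F := F) A)) :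
    diffExp A P = FractionalIdeal.count F P
      ((differentIdeal ↥A (IntCl (F := F) A) : Ideal (IntCl (F := F) A)) : FI F A) := by
  rw [coeIdeal_differentIdeal ↥A E F, FractionalIdeal.count_inv, diffExp]

theorem count_dual {I : FI F A} (hI : I ≠ 0)
    (P : HeightOneSpectrum (IntCl (F := F) A)) :
    FractionalIdeal.count F P (FractionalIdeal.dual ↥A E I) =
      -diffExp A P - FractionalIdeal.count F P I := by
  rw [FractionalIdeal.dual_eq_mul_inv, FractionalIdeal.count_mul F P
    (FractionalIdeal.dual_ne_zero ↥A E (one_ne_zero : (1 : FI F A) ≠ 0)) (inv_ne_zero hI),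
    FractionalIdeal.count_inv,
    diffExp]
  ring

theorem count_scale {e : E} (he : e ≠ 0) {J : FI F A} (hJ : J ≠ 0)
    (P : HeightOneSpectrum (IntCl (F := F) A)) :
    FractionalIdeal.count F P (scale e J) =
      ordAt F P (algebraMap E F e) + FractionalIdeal.count F P J := by
  have he' : algebraMap E F e ≠ 0 := (map_ne_zero (algebraMap E F)).mpr he
  unfold scale
  rw [FractionalIdeal.count_mul F P
    (by rw [Ne, FractionalIdeal.spanSingleton_eq_zero_iff]; exact he') hJ,
    count_spanSingleton P he']

/-- The trace dual of the lattice of `D` is the lattice of `W - D`, for any divisor `W` carrying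
the different exponents over `A`. -/
theorem dual_idealOfExps_expsOf (W D : Divisor K F)
    (hW : ∀ P : HeightOneSpectrum (IntCl (F := F) A), W (placeOf P) = diffExp A P) :
    (FractionalIdeal.dual ↥A E (idealOfExps F (expsOf A D)) : FI F A) =
      idealOfExps F (expsOf A (W - D)) := by
  have h0 := idealOfExps_ne_zero (F := F) (expsOf A D)
  refine eq_of_forall_count_eq (FractionalIdeal.dual_ne_zero ↥A E h0) (idealOfExps_ne_zero _) ?_
  intro P
  rw [count_dual A h0, count_idealOfExps, count_idealOfExps, expsOf_apply, expsOf_apply,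
    Finsupp.sub_apply, hW]
  ring

/-- The scaled trace dual of the lattice of `D` is the lattice of `W - D`, for any divisor `W`
carrying the different exponents over `A` corrected by the order of the scaling factor. -/
theorem scale_dual_idealOfExps_expsOf {e : E} (he : e ≠ 0) (W D : Divisor K F)
    (hW : ∀ P : HeightOneSpectrum (IntCl (F := F) A),
      W (placeOf P) = diffExp A P - ordAt F P (algebraMap E F e)) :
    scale e (FractionalIdeal.dual ↥A E (idealOfExps F (expsOf A D))) =
      idealOfExps F (expsOf A (W - D)) := by
  have h0 := idealOfExps_ne_zero (F := F) (expsOf A D)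
  have h1 := FractionalIdeal.dual_ne_zero ↥A E h0
  refine eq_of_forall_count_eq (scale_ne_zero he h1) (idealOfExps_ne_zero _) ?_
  intro P
  rw [count_scale A he h1, count_dual A h0, count_idealOfExps, count_idealOfExps, expsOf_apply,
    expsOf_apply, Finsupp.sub_apply, hW]
  ring

theorem latticeOf_eq_idealLattice (D : Divisor K F) :
    latticeOf A D = idealLattice (k := K) (idealOfExps F (expsOf A D)) :=
  latticeOf_eq (A := A) D

end Generic

section GenericLine

variable {K E F : Type*} [Field K] [Field E] [Field F] [Algebra K E] [Algebra K F] [Algebra E F]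
  [IsScalarTower K E F] [FiniteDimensional E F] [Algebra.IsSeparable E F]
  (L : LineData K E) [IsDedekindDomain ↥L.R] [IsFractionRing ↥L.R E] [IsDedekindDomain ↥L.S]
  [IsFractionRing ↥L.S E]

/-- **Serre duality for the lattice pairs of divisors**, over an abstract projective line `L`:
if the divisor `W` carries the different exponents on the affine chart and the different exponents
corrected by the order of `x⁻²` on the chart at infinity, then the pair of `D` is dual to the pair
of `W - D`. -/
theorem duality_latticeOf
    (hS : ∀ s ∈ L.S, s ≠ 0 → ∃ u ∈ L.S, u⁻¹ ∈ L.S ∧ ∃ m : ℕ, s = u * L.x⁻¹ ^ m)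
    (W D : Divisor K F)
    (hWR : ∀ P : HeightOneSpectrum (IntCl (F := F) L.R), W (placeOf P) = diffExp L.R P)
    (hWS : ∀ P : HeightOneSpectrum (IntCl (F := F) L.S),
      W (placeOf P) = diffExp L.S P - ordAt F P (algebraMap E F (L.x⁻¹ ^ 2))) :
    FinPair (latticeOf L.R D) (latticeOf L.S D) ∧
    FinPair (latticeOf L.R (W - D)) (latticeOf L.S (W - D)) ∧
    h1 (latticeOf L.R D) (latticeOf L.S D) = h0 (latticeOf L.R (W - D)) (latticeOf L.S (W - D)) ∧
    h0 (latticeOf L.R D) (latticeOf L.S D) =
      h1 (latticeOf L.R (W - D)) (latticeOf L.S (W - D)) := by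
  have hx2 : L.x⁻¹ ^ 2 ≠ 0 := pow_ne_zero _ L.inv_ne_zero
  rw [latticeOf_eq_idealLattice L.R D, latticeOf_eq_idealLattice L.S D,
    latticeOf_eq_idealLattice L.R (W - D), latticeOf_eq_idealLattice L.S (W - D),
    ← dual_idealOfExps_expsOf L.R W D hWR, ← scale_dual_idealOfExps_expsOf L.S hx2 W D hWS]
  exact duality_idealLattice L hS (idealOfExps_ne_zero _) (idealOfExps_ne_zero _)

end GenericLine

section Line

open scoped Classical

variable (K E F : Type*) [Field K] [Field E] [Field F]
  [Algebra K[X] E] [IsFractionRing K[X] E] [Algebra K E] [IsScalarTower K K[X] E]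
  [Algebra K F] [Algebra E F] [IsScalarTower K E F] [FiniteDimensional E F]
  [Algebra.IsSeparable E F]

/-- The values of the canonical divisor `W_x = Diff(F / K(x)) - 2 (x)_∞`: the different exponent
over `K[x]` at the finite places, and the different exponent over the local ring at infinity plus
`2 ord_v x` at the poles of `x`. -/
def canonicalFun (v : Place K F) : ℤ :=
  if h : xF K E F ∈ v.toValuationSubring then
    diffExp (polyR K E) (primeOf v ((mem_placesOver_polyR_iff v).mpr h))
  else
    diffExp (inftyS K E) (primeOf v ((mem_placesOver_inftyS_iff v).mpr h)) +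
      2 * v.ord (xF K E F)

theorem finite_support_canonicalFun : (Function.support (canonicalFun K E F)).Finite := by
  refine (((finite_diffExp_ne_zero (F := F) (polyR K E)).image placeOf).union
    (polesFinset K E F).finite_toSet).subset ?_
  intro v hv
  by_cases h : xF K E F ∈ v.toValuationSubring
  · left
    refine ⟨primeOf v ((mem_placesOver_polyR_iff v).mpr h), ?_, placeOf_primeOf v _⟩
    have hv' : canonicalFun K E F v ≠ 0 := hv
    rw [canonicalFun, dif_pos h] at hv'
    exact hv'
  · right
    exact Finset.mem_coe.mpr (mem_polesFinset.mpr h)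

/-- The canonical divisor `W_x = Diff(F / K(x)) - 2 (x)_∞` attached to the coordinate `x`. -/
def canonicalDiv : Divisor K F :=
  Finsupp.ofSupportFinite (canonicalFun K E F) (finite_support_canonicalFun K E F)

theorem canonicalDiv_apply (v : Place K F) : canonicalDiv K E F v = canonicalFun K E F v := rfl

theorem canonicalDiv_of_mem {v : Place K F} (h : xF K E F ∈ v.toValuationSubring) :
    canonicalDiv K E F v =
      diffExp (polyR K E) (primeOf v ((mem_placesOver_polyR_iff v).mpr h)) := by
  rw [canonicalDiv_apply, canonicalFun, dif_pos h]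

theorem canonicalDiv_of_not_mem {v : Place K F} (h : xF K E F ∉ v.toValuationSubring) :
    canonicalDiv K E F v =
      diffExp (inftyS K E) (primeOf v ((mem_placesOver_inftyS_iff v).mpr h)) +
        2 * v.ord (xF K E F) := by
  rw [canonicalDiv_apply, canonicalFun, dif_neg h]

theorem canonicalDiv_placeOf_polyR (P : HeightOneSpectrum (IntCl (F := F) (polyR K E))) :
    canonicalDiv K E F (placeOf P) = diffExp (polyR K E) P := by
  have h : xF K E F ∈ (placeOf P : Place K F).toValuationSubring :=
    (mem_placesOver_polyR_iff _).mp (placeOf_mem P)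
  rw [canonicalDiv_of_mem K E F h]
  congr 1
  exact primeOf_placeOf P

theorem canonicalDiv_placeOf_inftyS (P : HeightOneSpectrum (IntCl (F := F) (inftyS K E))) :
    canonicalDiv K E F (placeOf P) =
      diffExp (inftyS K E) P + 2 * (placeOf P : Place K F).ord (xF K E F) := by
  have h : xF K E F ∉ (placeOf P : Place K F).toValuationSubring :=
    (mem_placesOver_inftyS_iff _).mp (placeOf_mem P)
  rw [canonicalDiv_of_not_mem K E F h]
  congr 2
  exact primeOf_placeOf P

theorem hS_fracLine : ∀ s ∈ (fracLine K E).S, s ≠ 0 →
    ∃ u ∈ (fracLine K E).S, u⁻¹ ∈ (fracLine K E).S ∧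
      ∃ m : ℕ, s = u * (fracLine K E).x⁻¹ ^ m := by
  intro s hs hs0
  obtain ⟨u, hu, hu', -, m, hm⟩ := exists_unit_mul_inv_pow (k := K) (E := E) hs hs0
  exact ⟨u, hu, hu', m, hm⟩

theorem ord_algebraMap_inv_sq (v : Place K F) :
    v.ord (algebraMap E F ((algebraMap K[X] E X)⁻¹ ^ 2)) = -2 * v.ord (xF K E F) := by
  have hx : xF K E F ≠ 0 := xF_ne_zero K E F
  have e : algebraMap E F ((algebraMap K[X] E X)⁻¹ ^ 2) = (xF K E F)⁻¹ * (xF K E F)⁻¹ := by
    rw [map_pow, map_inv₀, pow_two]
    rfl
  rw [e, v.ord_mul (inv_ne_zero hx) (inv_ne_zero hx), v.ord_inv]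
  ring

/-- **Serre duality for the two charts of the projective line**: the lattice pair of `D` is dual
to the lattice pair of `W_x - D`. -/
theorem duality_canonicalDiv (D : Divisor K F) :
    FinPair (latticeOf (F := F) (polyR K E) D) (latticeOf (inftyS K E) D) ∧
    FinPair (latticeOf (F := F) (polyR K E) (canonicalDiv K E F - D))
      (latticeOf (inftyS K E) (canonicalDiv K E F - D)) ∧
    h1 (latticeOf (F := F) (polyR K E) D) (latticeOf (inftyS K E) D) =
      h0 (latticeOf (F := F) (polyR K E) (canonicalDiv K E F - D))
        (latticeOf (inftyS K E) (canonicalDiv K E F - D)) ∧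
    h0 (latticeOf (F := F) (polyR K E) D) (latticeOf (inftyS K E) D) =
      h1 (latticeOf (F := F) (polyR K E) (canonicalDiv K E F - D))
        (latticeOf (inftyS K E) (canonicalDiv K E F - D)) := by
  have key : ∀ P : HeightOneSpectrum (IntCl (F := F) (inftyS K E)),
      canonicalDiv K E F (placeOf P) = diffExp (inftyS K E) P -
        ordAt F P (algebraMap E F ((algebraMap K[X] E X)⁻¹ ^ 2)) := by
    intro P
    have h2 := ord_algebraMap_inv_sq K E F (placeOf P)
    rw [placeOf_ord] at h2
    rw [canonicalDiv_placeOf_inftyS K E F P, h2]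
    ring
  have i1 : IsDedekindDomain ↥(fracLine K E).R := inferInstanceAs (IsDedekindDomain ↥(polyR K E))
  have i2 : IsFractionRing ↥(fracLine K E).R E := inferInstanceAs (IsFractionRing ↥(polyR K E) E)
  have i3 : IsDedekindDomain ↥(fracLine K E).S := inferInstanceAs (IsDedekindDomain ↥(inftyS K E))
  have i4 : IsFractionRing ↥(fracLine K E).S E := inferInstanceAs (IsFractionRing ↥(inftyS K E) E)
  exact duality_latticeOf (F := F) (fracLine K E) (hS_fracLine K E) (canonicalDiv K E F) D
    (canonicalDiv_placeOf_polyR K E F) key

open Fermat.Agent.Lib.RiemannRoch.H1Iso in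
theorem finPart_eq_latticeOf (D : Divisor K F) :
    finPart (polesFinset K E F) D = latticeOf (F := F) (polyR K E) D := by
  ext f
  rw [mem_finPart, mem_latticeOf_polyR_iff]

open Fermat.Agent.Lib.RiemannRoch.H1Iso in
theorem infPart_eq_latticeOf (D : Divisor K F) :
    infPart (polesFinset K E F) D = latticeOf (F := F) (inftyS K E) D := by
  ext f
  rw [mem_infPart, mem_latticeOf_inftyS_iff]

include E in
/-- Every function has finitely many poles. -/
theorem finite_poles (f : F) : {v : Place K F | ¬ v.adicValuation f ≤ 1}.Finite := by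
  rcases eq_or_ne f 0 with rfl | hf
  · have : {v : Place K F | ¬ v.adicValuation (0 : F) ≤ 1} = ∅ := by
      ext v
      simp
    rw [this]
    exact Set.finite_empty
  · refine ((finite_poles_over (F := F) (polyR K E) hf).union
      (finite_poles_over (F := F) (inftyS K E) hf)).subset ?_
    intro v hv
    have hv' : v.ord f < 0 := v.not_adicValuation_le_one_iff.mp hv
    by_cases h : xF K E F ∈ v.toValuationSubring
    · left
      exact ⟨(mem_placesOver_polyR_iff v).mpr h, hv'⟩
    · right
      exact ⟨(mem_placesOver_inftyS_iff v).mpr h, hv'⟩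

open Fermat.Agent.Lib.RiemannRoch.H1Iso in
theorem strongApproxOff_polesFinset : StrongApproxOff (polesFinset K E F) :=
  strongApproxOff_of_ord _ (strongApprox_off_poles K E F)

open Fermat.Agent.Lib.RiemannRoch.H1Iso in
/-- The adelic `H¹(D)` is the cokernel of the lattice pair of `D`. -/
def h1Equiv (D : Divisor K F) :
    (F ⧸ (latticeOf (F := F) (polyR K E) D ⊔ latticeOf (inftyS K E) D)) ≃ₗ[K] H1 D :=
  (Submodule.quotEquivOfEq _ _
    (by rw [finPart_eq_latticeOf, infPart_eq_latticeOf])).trans
    (h1Iso (polesFinset K E F) D (finite_poles K E F) (strongApproxOff_polesFinset K E F))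

theorem finrank_H1_eq_h1 (D : Divisor K F) :
    Module.finrank K (H1 D) =
      h1 (latticeOf (F := F) (polyR K E) D) (latticeOf (inftyS K E) D) :=
  (h1Equiv K E F D).finrank_eq.symm

theorem finrank_riemannRochSpace_eq_h0 (D : Divisor K F) :
    Module.finrank K (riemannRochSpace D) =
      h0 (latticeOf (F := F) (polyR K E) D) (latticeOf (inftyS K E) D) := by
  rw [riemannRochSpace_eq_inf (E := E) D]
  rfl

include E in
/-- The Riemann–Roch spaces are finite-dimensional. -/
theorem finite_riemannRochSpace (D : Divisor K F) : Module.Finite K (riemannRochSpace D) := by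
  rw [riemannRochSpace_eq_inf (E := E) D]
  exact (duality_canonicalDiv K E F D).1.1

include E in
/-- The adelic `H¹(D)` is finite-dimensional. -/
theorem finite_H1 (D : Divisor K F) : Module.Finite K (H1 D) := by
  have := (duality_canonicalDiv K E F D).1.2
  exact Module.Finite.equiv (h1Equiv K E F D)

/-- **Serre duality** in the Prelude's language: `dim H¹(D) = dim L(W_x - D)`. -/
theorem finrank_H1_eq (D : Divisor K F) :
    Module.finrank K (H1 D) = Module.finrank K (riemannRochSpace (canonicalDiv K E F - D)) := by
  rw [finrank_H1_eq_h1 K E F, finrank_riemannRochSpace_eq_h0 K E F]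
  exact (duality_canonicalDiv K E F D).2.2.1

/-- **Serre duality**, second form: `dim L(D) = dim H¹(W_x - D)`. -/
theorem finrank_riemannRochSpace_eq (D : Divisor K F) :
    Module.finrank K (riemannRochSpace D) = Module.finrank K (H1 (canonicalDiv K E F - D)) := by
  rw [finrank_H1_eq_h1 K E F, finrank_riemannRochSpace_eq_h0 K E F]
  exact (duality_canonicalDiv K E F D).2.2.2

/-- The genus of the function field is `dim L(W_x)`. -/
theorem genusFF_eq_finrank_canonical :
    genusFF K F = Module.finrank K (riemannRochSpace (canonicalDiv K E F)) := by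
  have := finrank_H1_eq K E F (0 : Divisor K F)
  rwa [sub_zero] at this

end Line

end Fermat.Agent.S20.RR.SerreDuality
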