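/-
The two definitions of the canonical divisor attached to a coordinate `x` agree:
`Canonical.canonicalX` (helper30) and `SerreDuality.canonicalDiv` (helper67).
-/
import Fermat.Agent.S20.RR.CanonicalDuality
import Fermat.Agent.S20.RR.SerreDuality

set_option autoImplicit false
set_option linter.unusedSectionVars false

noncomputable section

namespace Fermat.Agent.S20.RR.Canonical

open AlgebraicCurve IsDedekindDomain IsDedekindDomain.HeightOneSpectrum Polynomial
open Fermat.Agent.S20.RR.Dictionary Fermat.Agent.S20.RR.LineDataFrac
  Fermat.Agent.S20.RR.SerreDuality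

variable {K E F : Type*} [Field K] [Field E] [Field F]
  [Algebra K[X] E] [IsFractionRing K[X] E] [Algebra K E] [IsScalarTower K K[X] E]
  [Algebra K F] [Algebra E F] [IsScalarTower K E F] [FiniteDimensional E F]
  [Algebra.IsSeparable E F]

variable (K E F) in
theorem canonicalX_eq_canonicalDiv : canonicalX K E F = canonicalDiv K E F := by
  ext v
  by_cases h : xF K E F ∈ v.toValuationSubring
  · rw [canonicalDiv_of_mem K E F h, diffExp_eq_count_differentIdeal,
      canonicalX_apply_of_polyR v ((mem_placesOver_polyR_iff v).mpr h)]
  · rw [canonicalDiv_of_not_mem K E F h, diffExp_eq_count_differentIdeal,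
      canonicalX_apply_of_inftyS v ((mem_placesOver_inftyS_iff v).mpr h),
      ramificationIdx_eq_neg_ord]
    ring

end Fermat.Agent.S20.RR.Canonical
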