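/-
The degree of the canonical divisor `W_x` (Hurwitz formula, characteristic free):
`deg W_x = deg Diff(K[x]-chart) + deg Diff(∞-chart) - 2 [F : E]`.
The key input is the fundamental identity `∑_{P ∣ ∞} e_P · deg P = [F : E]` over the local ring at
infinity, whose residue field is the constant field.
-/
import Fermat.Agent.S20.RR.Canonical

set_option autoImplicit false
set_option linter.unusedSectionVars false

noncomputable section

namespace Fermat.Agent.S20.RR.Hurwitz

open Module IsDedekindDomain IsDedekindDomain.HeightOneSpectrum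

section Fundamental

variable (k A : Type*) {B : Type*} [Field k] [CommRing A] [CommRing B] [Algebra A B]
  [IsDedekindDomain A] [IsDiscreteValuationRing A] [IsDedekindDomain B]
  [Module.IsTorsionFree A B] [Module.Finite A B]
  [Algebra k A] [Algebra k B] [IsScalarTower k A B]

/-- Over a discrete valuation ring every height one prime upstairs lies over the maximal ideal. -/
theorem liesOver_maximalIdeal' (P : HeightOneSpectrum B) :
    P.asIdeal.LiesOver (IsLocalRing.maximalIdeal A) := by
  have : Algebra.IsIntegral A B := Algebra.IsIntegral.of_finite A B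
  have hne : P.asIdeal.under A ≠ ⊥ := mt Ideal.eq_bot_of_comap_eq_bot P.ne_bot
  have hmax : (P.asIdeal.under A).IsMaximal := Ideal.IsPrime.isMaximal inferInstance hne
  exact ⟨(IsLocalRing.eq_maximalIdeal hmax).symm⟩

/-- The primes of `B` are exactly the primes over the maximal ideal of the discrete valuation
ring `A`. -/
def heightOneEquivPrimesOver :
    HeightOneSpectrum B ≃ (IsLocalRing.maximalIdeal A).primesOver B where
  toFun P := ⟨P.asIdeal, P.isPrime, liesOver_maximalIdeal' A P⟩
  invFun q := ⟨q.1, q.2.1, by
    have h2 : q.1.LiesOver (IsLocalRing.maximalIdeal A) := q.2.2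
    have hp : IsLocalRing.maximalIdeal A ≠ ⊥ := by
      simpa [ne_eq, ← IsLocalRing.isField_iff_maximalIdeal_eq] using
        IsDiscreteValuationRing.not_isField A
    exact Ideal.ne_bot_of_liesOver_of_ne_bot hp q.1⟩
  left_inv P := rfl
  right_inv q := rfl

/-- If the residue field of `A` is `k` then the inertia degree of `P` is `dim_k (B ⧸ P)`. -/
theorem inertiaDeg_eq_finrank
    (hres : Function.Surjective (algebraMap k (A ⧸ IsLocalRing.maximalIdeal A)))
    (P : HeightOneSpectrum B) :
    P.asIdeal.inertiaDeg A = finrank k (B ⧸ P.asIdeal) := by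
  have := liesOver_maximalIdeal' A P
  have hPmax : P.asIdeal.IsMaximal := P.isMaximal
  rw [Ideal.inertiaDeg_eq_of_isMaximal (IsLocalRing.maximalIdeal A) P.asIdeal]
  let _ : Field (A ⧸ IsLocalRing.maximalIdeal A) := Ideal.Quotient.field _
  let _ : Field (B ⧸ P.asIdeal) := Ideal.Quotient.field _
  have e : k ≃ₗ[k] (A ⧸ IsLocalRing.maximalIdeal A) :=
    LinearEquiv.ofBijective (Algebra.linearMap k (A ⧸ IsLocalRing.maximalIdeal A))
      ⟨(algebraMap k (A ⧸ IsLocalRing.maximalIdeal A)).injective, hres⟩
  have h1 : finrank k (A ⧸ IsLocalRing.maximalIdeal A) = 1 := by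
    rw [← e.finrank_eq, finrank_self]
  have h2 := Module.finrank_mul_finrank k (A ⧸ IsLocalRing.maximalIdeal A) (B ⧸ P.asIdeal)
  rw [h1, one_mul] at h2
  exact h2

include A in
/-- The primes of the integral closure of a discrete valuation ring form a finite type. -/
theorem finite_heightOneSpectrum : Finite (HeightOneSpectrum B) := by
  have hp : IsLocalRing.maximalIdeal A ≠ ⊥ := by
    simpa [ne_eq, ← IsLocalRing.isField_iff_maximalIdeal_eq] using
      IsDiscreteValuationRing.not_isField A
  have : Finite ((IsLocalRing.maximalIdeal A).primesOver B) := by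
    refine Set.Finite.to_subtype ?_
    refine (IsDedekindDomain.primesOverFinset (IsLocalRing.maximalIdeal A) B).finite_toSet.subset ?_
    intro q hq
    exact Finset.mem_coe.mpr ((IsDedekindDomain.mem_primesOverFinset_iff hp B).mpr hq)
  exact Finite.of_equiv _ (heightOneEquivPrimesOver A (B := B)).symm

/-- **Fundamental identity** over a discrete valuation ring with residue field `k`:
`∑_P e_P · dim_k (B ⧸ P) = rank_A B`. -/
theorem sum_ramificationIdx_mul_finrank
    (hres : Function.Surjective (algebraMap k (A ⧸ IsLocalRing.maximalIdeal A)))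
    [Fintype (HeightOneSpectrum B)] :
    ∑ P : HeightOneSpectrum B, P.asIdeal.ramificationIdx A * finrank k (B ⧸ P.asIdeal) =
      finrank A B := by
  classical
  let _ : Fintype ((IsLocalRing.maximalIdeal A).primesOver B) :=
    Fintype.ofEquiv _ (heightOneEquivPrimesOver A (B := B))
  rw [← Ideal.sum_ramification_inertia_eq_finrank (IsLocalRing.maximalIdeal A) B]
  refine Fintype.sum_equiv (heightOneEquivPrimesOver A (B := B)) _ _ fun P => ?_
  rw [← inertiaDeg_eq_finrank k A hres P]
  rfl

end Fundamental

section Degree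

open AlgebraicCurve Polynomial
open Fermat.Agent.S20.RR.Dictionary Fermat.Agent.S20.RR.DedekindMem
  Fermat.Agent.S20.RR.Canonical Fermat.Agent.S20.RR.LineDataFrac Fermat.Agent.S24.PD

section Generic

variable {K E F : Type*} [Field K] [Field E] [Field F] [Algebra K E] [Algebra K F] [Algebra E F]
  [IsScalarTower K E F] [FiniteDimensional E F] [Algebra.IsSeparable E F]
variable (A : Subalgebra K E) [IsDedekindDomain A] [IsFractionRing A E]

theorem deg_placeOf (P : HeightOneSpectrum (IntCl (F := F) A)) :
    (placeOf P : Place K F).deg = finrank K (↥(IntCl (F := F) A) ⧸ P.asIdeal) :=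
  deg_placeOfPrime P

/-- The degree of the divisor attached to exponents on the primes of the integral closure. -/
theorem degree_divOfExps (e : HeightOneSpectrum (IntCl (F := F) A) →₀ ℤ) :
    Divisor.degree (divOfExps A e) =
      e.sum fun P n => n * (finrank K (↥(IntCl (F := F) A) ⧸ P.asIdeal) : ℤ) := by
  unfold divOfExps Finsupp.mapDomain
  rw [map_finsuppSum]
  refine Finsupp.sum_congr fun P _ => ?_
  rw [Divisor.degree_single, deg_placeOf]

theorem divOfExps_add (e₁ e₂ : HeightOneSpectrum (IntCl (F := F) A) →₀ ℤ) :
    divOfExps A (e₁ + e₂) = divOfExps A e₁ + divOfExps A e₂ :=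
  Finsupp.mapDomain_add

theorem divOfExps_sub (e₁ e₂ : HeightOneSpectrum (IntCl (F := F) A) →₀ ℤ) :
    divOfExps A (e₁ - e₂) = divOfExps A e₁ - divOfExps A e₂ :=
  map_sub (Finsupp.mapDomain.addMonoidHom (placeOf : _ → Place K F)) e₁ e₂

theorem divOfExps_nsmul (n : ℕ) (e : HeightOneSpectrum (IntCl (F := F) A) →₀ ℤ) :
    divOfExps A (n • e) = n • divOfExps A e :=
  map_nsmul (Finsupp.mapDomain.addMonoidHom (placeOf : _ → Place K F)) n e

end Generic

section Line

variable {K E F : Type*} [Field K] [Field E] [Field F]
  [Algebra K[X] E] [IsFractionRing K[X] E] [Algebra K E] [IsScalarTower K K[X] E]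
  [Algebra K F] [Algebra E F] [IsScalarTower K E F] [FiniteDimensional E F]
  [Algebra.IsSeparable E F]

/-- The residue field of the local ring at infinity is the constant field. -/
theorem residue_inftyS_surjective :
    Function.Surjective
      (algebraMap K (↥(inftyS K E) ⧸ IsLocalRing.maximalIdeal ↥(inftyS K E))) := by
  intro y
  obtain ⟨s, rfl⟩ := Ideal.Quotient.mk_surjective y
  obtain ⟨c, s', hs', e⟩ := (fracLine K E).S_split (s : E) s.2
  refine ⟨c, ?_⟩
  rw [IsScalarTower.algebraMap_apply K ↥(inftyS K E) (↥(inftyS K E) ⧸ _),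
    Ideal.Quotient.algebraMap_eq, Ideal.Quotient.eq]
  have h1 : algebraMap K ↥(inftyS K E) c - s = -(unifS K E * ⟨s', hs'⟩) := by
    apply Subtype.ext
    change algebraMap K E c - (s : E) = -((algebraMap K[X] E X)⁻¹ * s')
    rw [e]
    simp only [fracLine_x]
    ring
  rw [h1]
  refine Ideal.neg_mem_iff _ |>.mpr (Ideal.mul_mem_right _ _ ?_)
  rw [IsLocalRing.mem_maximalIdeal]
  exact (irreducible_unifS (k := K) (E := E)).not_isUnit

variable (K E F) in
/-- The degree of the pole divisor of `x` is `[F : E]`. -/
theorem degree_divOfExps_elemExps_inv_xF :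
    Divisor.degree (divOfExps (inftyS K E)
      (elemExps (F := F) (inftyS K E) (xF K E F)⁻¹ (inv_ne_zero xF_ne_zero))) =
      (finrank E F : ℤ) := by
  classical
  have hfin : Module.Finite ↥(inftyS K E) ↥(IntCl (F := F) (inftyS K E)) :=
    IsIntegralClosure.finite ↥(inftyS K E) E F _
  have := finite_heightOneSpectrum ↥(inftyS K E) (B := ↥(IntCl (F := F) (inftyS K E)))
  let _ : Fintype (HeightOneSpectrum ↥(IntCl (F := F) (inftyS K E))) := Fintype.ofFinite _
  rw [degree_divOfExps, Finsupp.sum_fintype _ _ (fun P => zero_mul _),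
    IsFractionRing.finrank_eq ↥(inftyS K E) E ↥(IntCl (F := F) (inftyS K E)) F,
    ← sum_ramificationIdx_mul_finrank K ↥(inftyS K E) residue_inftyS_surjective]
  push_cast
  refine Finset.sum_congr rfl fun P _ => ?_
  rw [elemExps_apply, ordAt_inv_xF]

variable (K E F) in
/-- **Hurwitz formula, degree form** (characteristic free): the degree of the canonical divisor
`W_x` is the degree of the different of the two charts minus `2 [F : E]`. -/
theorem degree_canonicalX :
    Divisor.degree (canonicalX K E F) =
      Divisor.degree (divOfExps (polyR K E) (diffExps (F := F) (polyR K E))) +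
        Divisor.degree (divOfExps (inftyS K E) (diffExps (F := F) (inftyS K E))) -
          2 * (finrank E F : ℤ) := by
  unfold canonicalX inftyExps
  rw [map_add, divOfExps_sub, divOfExps_nsmul, map_sub, map_nsmul,
    degree_divOfExps_elemExps_inv_xF]
  simp only [nsmul_eq_mul, Nat.cast_ofNat]
  ring

end Line

end Degree

end Fermat.Agent.S20.RR.Hurwitz
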