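/-
Basic facts about the places of a function field `F / K`, finite separable over `E = Frac K[X]`,
in any characteristic and for any constant field `K`:
* there is at least one place;
* every place has finite residue field over `K`;
* if `K` is algebraically closed every place has degree one and residue field `K`.
-/
import Fermat.Agent.S20.RR.Hurwitz

set_option autoImplicit false
set_option linter.unusedSectionVars false

noncomputable section

namespace Fermat.Agent.S20.RR.PlacesBasic

open Module IsDedekindDomain IsDedekindDomain.HeightOneSpectrum AlgebraicCurve Polynomial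
open Fermat.Agent.S20.RR.Dictionary Fermat.Agent.S20.RR.Canonical
  Fermat.Agent.S20.RR.LineDataFrac Fermat.Agent.S20.RR.Hurwitz Fermat.Agent.S24.PD

section Generic

variable {K E F : Type*} [Field K] [Field E] [Field F] [Algebra K E] [Algebra K F] [Algebra E F]
  [IsScalarTower K E F] [FiniteDimensional E F] [Algebra.IsSeparable E F]
variable (A : Subalgebra K E) [IsDedekindDomain A] [IsFractionRing A E]

/-- If all residue fields of `A` are finite over `K` then so are those of the places over `A`. -/
theorem finiteResidue_placeOf
    (hA : ∀ p : Ideal ↥A, p.IsMaximal → Module.Finite K (↥A ⧸ p))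
    (P : HeightOneSpectrum (IntCl (F := F) A)) : (placeOf P : Place K F).FiniteResidue := by
  constructor
  have hfinB : Module.Finite ↥A ↥(IntCl (F := F) A) := IsIntegralClosure.finite ↥A E F _
  have : Algebra.IsIntegral ↥A ↥(IntCl (F := F) A) := Algebra.IsIntegral.of_finite _ _
  have hne : P.asIdeal.under ↥A ≠ ⊥ := mt Ideal.eq_bot_of_comap_eq_bot P.ne_bot
  have hmax : (P.asIdeal.under ↥A).IsMaximal := Ideal.IsPrime.isMaximal inferInstance hne
  have h1 : Module.Finite K (↥A ⧸ P.asIdeal.under ↥A) := hA _ hmax
  have h2 : Module.Finite (↥A ⧸ P.asIdeal.under ↥A) (↥(IntCl (F := F) A) ⧸ P.asIdeal) :=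
    Module.Finite.of_restrictScalars_finite ↥A _ _
  have h3 : Module.Finite K (↥(IntCl (F := F) A) ⧸ P.asIdeal) :=
    Module.Finite.trans (↥A ⧸ P.asIdeal.under ↥A) _
  exact Module.Finite.equiv (quotientEquivResidue (K := K) (F := F) P).toLinearEquiv

/-- The integral closure of a Dedekind domain which is not a field has a height one prime. -/
theorem nonempty_heightOneSpectrum_intCl (hA : ¬ IsField ↥A) :
    Nonempty (HeightOneSpectrum (IntCl (F := F) A)) := by
  have hfinB : Module.Finite ↥A ↥(IntCl (F := F) A) := IsIntegralClosure.finite ↥A E F _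
  have : Algebra.IsIntegral ↥A ↥(IntCl (F := F) A) := Algebra.IsIntegral.of_finite _ _
  have hB : ¬ IsField ↥(IntCl (F := F) A) := fun h =>
    hA (isField_of_isIntegral_of_isField
      (FaithfulSMul.algebraMap_injective ↥A ↥(IntCl (F := F) A)) h)
  obtain ⟨m, hm⟩ := Ideal.exists_maximal ↥(IntCl (F := F) A)
  exact ⟨⟨m, hm.isPrime, Ring.ne_bot_of_isMaximal_of_not_isField hm hB⟩⟩

end Generic

section Line

variable {K E F : Type*} [Field K] [Field E] [Field F]
  [Algebra K[X] E] [IsFractionRing K[X] E] [Algebra K E] [IsScalarTower K K[X] E]
  [Algebra K F] [Algebra E F] [IsScalarTower K E F] [FiniteDimensional E F]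
  [Algebra.IsSeparable E F]

/-- Residue fields of `K[x]` are finite over `K` (Zariski's lemma). -/
theorem finite_quotient_polyR (p : Ideal ↥(polyR K E)) (hp : p.IsMaximal) :
    Module.Finite K (↥(polyR K E) ⧸ p) := by
  let _ : Field (↥(polyR K E) ⧸ p) := Ideal.Quotient.field p
  have h1 : Algebra.FiniteType K ↥(polyR K E) :=
    Algebra.FiniteType.equiv (inferInstance : Algebra.FiniteType K K[X]) (polyEquiv K E)
  have h2 : Algebra.FiniteType K (↥(polyR K E) ⧸ p) :=
    Algebra.FiniteType.of_surjective (Ideal.Quotient.mkₐ K p)
      (Ideal.Quotient.mkₐ_surjective K p)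
  exact finite_of_finite_type_of_isJacobsonRing K (↥(polyR K E) ⧸ p)

/-- The residue field of the local ring at infinity is finite over `K`. -/
theorem finite_quotient_inftyS (p : Ideal ↥(inftyS K E)) (hp : p.IsMaximal) :
    Module.Finite K (↥(inftyS K E) ⧸ p) := by
  rw [IsLocalRing.eq_maximalIdeal hp]
  exact Module.Finite.of_surjective
    (Algebra.linearMap K (↥(inftyS K E) ⧸ IsLocalRing.maximalIdeal ↥(inftyS K E)))
    residue_inftyS_surjective

variable (E) in
include E in
/-- Every place of `F / K` has a residue field finite over `K`. -/
theorem finiteResidue (v : Place K F) : v.FiniteResidue := by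
  rcases mem_placesOver_polyR_or_inftyS (E := E) v with hv | hv
  · rw [← placeOf_primeOf v hv]
    exact finiteResidue_placeOf (polyR K E) finite_quotient_polyR _
  · rw [← placeOf_primeOf v hv]
    exact finiteResidue_placeOf (inftyS K E) finite_quotient_inftyS _

theorem not_isField_polyR : ¬ IsField ↥(polyR K E) := fun h =>
  Polynomial.not_isField K ((polyEquiv K E).toMulEquiv.isField h)

variable (K E F) in
include E in
/-- There is at least one place. -/
theorem nonempty_place : Nonempty (Place K F) := by
  obtain ⟨P⟩ := nonempty_heightOneSpectrum_intCl (F := F) (polyR K E) not_isField_polyR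
  exact ⟨placeOf P⟩

variable (E) in
include E in
/-- Over an algebraically closed constant field every residue field is the constant field. -/
theorem residue_bijective [IsAlgClosed K] (v : Place K F) :
    Function.Bijective (algebraMap K v.ResidueField) := by
  have := (finiteResidue E v).finite
  have : Algebra.IsIntegral K v.ResidueField := Algebra.IsIntegral.of_finite K _
  exact IsAlgClosed.algebraMap_bijective_of_isIntegral

variable (E) in
include E in
/-- Over an algebraically closed constant field every place has degree one. -/
theorem deg_eq_one [IsAlgClosed K] (v : Place K F) : v.deg = 1 := by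
  have e : K ≃ₗ[K] v.ResidueField :=
    LinearEquiv.ofBijective (Algebra.linearMap K v.ResidueField) (residue_bijective E v)
  unfold Place.deg
  rw [← e.finrank_eq, finrank_self]

end Line

end Fermat.Agent.S20.RR.PlacesBasic
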