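/-
helper67 — Riemann–Roch library, the "curve axioms" for separable function fields.

Setting: `K` any field, `E = Frac K[X]`, `F / E` finite separable.  Then, in the Prelude's
language: every place of `F / K` has a residue field finite over `K`, every nonzero function has a
(finitely supported) divisor of degree zero (`HasPrincipalDivisors K F`), places exist, and
Riemann's theorem `l(D) - i(D) = deg D + l(0) - g` holds.  No hypothesis on the characteristic.

Method: the lattice pair `(M_D, M'_D)` of a divisor over the two charts of the projective line.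
* `M_{D+v} / M_D ≃ κ(v)` (local residue map + strong approximation);
* finiteness of `h⁰`, `h¹` of all pairs (Serre duality file) gives finiteness of `κ(v)` and
  `χ(D + v) = χ(D) + deg v`;
* multiplication by `f` maps the pair of `D + div f` onto the pair of `D`, so `deg div f = 0`.
-/
import Fermat.Agent.S20.RR.SerreDuality
import Fermat.Agent.Lib.RiemannRoch.LocalDim

set_option autoImplicit false
set_option linter.unusedSectionVars false

noncomputable section

namespace Fermat.Agent.S20.RR.CurveOfSeparable

open AlgebraicCurve IsDedekindDomain IsDedekindDomain.HeightOneSpectrum WithZero Polynomial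
open Fermat.Agent.S20.RR.LineDataFrac Fermat.Agent.S20.RR.Dictionary
open Fermat.Agent.S20.RR.DedekindMem Fermat.Agent.S20.RR.AbstractDuality
open Fermat.Agent.S20.RR.StrongApprox Fermat.Agent.S20.RR.SerreDuality
open Fermat.Agent.Lib.RiemannRoch Fermat.Agent.S24.ZD.PlaceLemmas

section Generic

variable {K E F : Type*} [Field K] [Field E] [Field F] [Algebra K E] [Algebra K F] [Algebra E F]
  [IsScalarTower K E F] [FiniteDimensional E F] [Algebra.IsSeparable E F]
variable (A : Subalgebra K E) [IsDedekindDomain A] [IsFractionRing A E]

theorem latticeOf_le_ball (D : Divisor K F) {v : Place K F} (hv : v ∈ placesOver (F := F) A) :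
    latticeOf A D ≤ ball v (D v) := fun _ hf => hf v hv

theorem add_single_apply_self (D : Divisor K F) (v : Place K F) :
    (D + Finsupp.single v 1 : Divisor K F) v = D v + 1 := by
  rw [Finsupp.add_apply, Finsupp.single_eq_same]

theorem add_single_apply_of_ne (D : Divisor K F) {v w : Place K F} (h : w ≠ v) :
    (D + Finsupp.single v 1 : Divisor K F) w = D w := by
  rw [Finsupp.add_apply, Finsupp.single_eq_of_ne h, add_zero]

theorem le_add_single (D : Divisor K F) (v : Place K F) : D ≤ D + Finsupp.single v 1 := by
  intro w
  rw [Finsupp.add_apply]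
  have : (0 : ℤ) ≤ (Finsupp.single v (1 : ℤ)) w := by
    by_cases h : w = v
    · subst h; simp
    · rw [Finsupp.single_eq_of_ne h]
  omega

/-- The residue map `M_{D+v} → κ(v)`. -/
def stepMap (D : Divisor K F) {v : Place K F} (hv : v ∈ placesOver (F := F) A) :
    ↥(latticeOf A (D + Finsupp.single v 1)) →ₗ[K] v.ResidueField :=
  locRes v ((D + Finsupp.single v 1 : Divisor K F) v) ∘ₗ Submodule.inclusion (latticeOf_le_ball A _ hv)

theorem stepMap_eq_zero_iff (D : Divisor K F) {v : Place K F} (hv : v ∈ placesOver (F := F) A)
    (y : ↥(latticeOf A (D + Finsupp.single v 1))) :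
    stepMap A D hv y = 0 ↔ (y : F) ∈ latticeOf A D := by
  unfold stepMap
  rw [LinearMap.comp_apply, locRes_eq_zero_iff, mem_ball]
  change v.adicValuation (y : F) ≤ exp ((D + Finsupp.single v 1 : Divisor K F) v - 1) ↔ _
  rw [add_single_apply_self, add_sub_cancel_right]
  constructor
  · intro h w hw
    by_cases hwv : w = v
    · subst hwv; exact h
    · have := y.2 w hw
      rwa [add_single_apply_of_ne D hwv] at this
  · intro h
    exact h v hv

theorem stepMap_surjective (D : Divisor K F) {v : Place K F} (hv : v ∈ placesOver (F := F) A) :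
    Function.Surjective (stepMap A D hv) := by
  classical
  intro c
  obtain ⟨f₀, hf₀⟩ := locRes_surjective v ((D + Finsupp.single v 1 : Divisor K F) v) c
  -- strong approximation: `y ≡ f₀` at `v`, `y` in the lattice elsewhere
  set T : Finset (Place K F) := insert v (D.support.filter (fun w => w ∈ placesOver (F := F) A))
    with hT
  have hTA : ∀ w ∈ T, w ∈ placesOver (F := F) A := by
    intro w hw
    rcases Finset.mem_insert.mp hw with rfl | hw
    · exact hv
    · exact (Finset.mem_filter.mp hw).2
  obtain ⟨y, hy1, hy2⟩ := exists_approx_over (F := F) A T hTA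
    (fun w => if w = v then (f₀ : F) else 0) (fun w => -D w)
  have hyv : v.adicValuation (y - (f₀ : F)) ≤ exp (D v) := by
    have := hy1 v (Finset.mem_insert_self _ _)
    rw [if_pos rfl] at this
    rw [v.adicValuation_le_exp_iff]
    rcases this with h | h
    · left; rw [h, sub_self]
    · right; exact h
  have hymem : y ∈ latticeOf A (D + Finsupp.single v 1) := by
    intro w hw
    by_cases hwv : w = v
    · subst hwv
      have h1 : w.adicValuation (f₀ : F) ≤ exp ((D + Finsupp.single w 1 : Divisor K F) w) := f₀.2
      have h2 : w.adicValuation (y - (f₀ : F)) ≤ exp ((D + Finsupp.single w 1 : Divisor K F) w) :=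
        hyv.trans (exp_le_exp.mpr (le_add_single D w w))
      have : y = (y - (f₀ : F)) + (f₀ : F) := by ring
      rw [this]
      exact (Valuation.map_add _ _ _).trans (max_le h2 h1)
    · rw [add_single_apply_of_ne D hwv]
      by_cases hwT : w ∈ T
      · have := hy1 w hwT
        rw [if_neg hwv, sub_zero] at this
        rw [w.adicValuation_le_exp_iff]
        rcases this with h | h
        · left; exact h
        · right; exact h
      · have hD0 : D w = 0 := by
          by_contra h
          exact hwT (Finset.mem_insert_of_mem
            (Finset.mem_filter.mpr ⟨Finsupp.mem_support_iff.mpr h, hw⟩))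
        rw [hD0, exp_zero]
        exact w.adicValuation_le_one_of_mem (hy2 w hw hwT)
  refine ⟨⟨y, hymem⟩, ?_⟩
  rw [← hf₀, ← sub_eq_zero]
  unfold stepMap
  rw [LinearMap.comp_apply, ← map_sub, locRes_eq_zero_iff, mem_ball]
  change v.adicValuation (y - (f₀ : F)) ≤ exp ((D + Finsupp.single v 1 : Divisor K F) v - 1)
  have e : (D + Finsupp.single v 1 : Divisor K F) v - 1 = D v := by
    rw [add_single_apply_self, add_sub_cancel_right]
  exact hyv.trans_eq (congrArg exp e.symm)

/-- `M_{D+v} / M_D` is the residue field of `v`. -/
def stepEquiv (D : Divisor K F) {v : Place K F} (hv : v ∈ placesOver (F := F) A) :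
    RelQuot (latticeOf A D) (latticeOf A (D + Finsupp.single v 1)) ≃ₗ[K] v.ResidueField :=
  (Submodule.quotEquivOfEq _ _ (by
    ext y
    rw [LinearMap.mem_ker, stepMap_eq_zero_iff]
    rfl)).trans (LinearMap.quotKerEquivOfSurjective (stepMap A D hv) (stepMap_surjective A D hv))

theorem latticeOf_add_single_of_not_mem (D : Divisor K F) {v : Place K F}
    (hv : v ∉ placesOver (F := F) A) :
    latticeOf A (D + Finsupp.single v 1) = latticeOf A D := by
  ext f
  constructor
  · intro h w hw
    have := h w hw
    rwa [add_single_apply_of_ne D (ne_of_mem_of_not_mem hw hv)] at this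
  · intro h w hw
    have := h w hw
    rwa [← add_single_apply_of_ne D (ne_of_mem_of_not_mem hw hv)] at this

end Generic

section LinAlg

variable {K V : Type*} [Field K] [AddCommGroup V] [Module K V]

theorem h0_map (e : V ≃ₗ[K] V) (M M' : Submodule K V) :
    h0 (M.map (e : V →ₗ[K] V)) (M'.map (e : V →ₗ[K] V)) = h0 M M' := by
  unfold h0
  rw [← Submodule.map_inf (e : V →ₗ[K] V) e.injective]
  exact (e.submoduleMap (M ⊓ M')).finrank_eq.symm

theorem h1_map (e : V ≃ₗ[K] V) (M M' : Submodule K V) :
    h1 (M.map (e : V →ₗ[K] V)) (M'.map (e : V →ₗ[K] V)) = h1 M M' := by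
  unfold h1
  rw [← Submodule.map_sup]
  exact (Submodule.Quotient.equiv (M ⊔ M') ((M ⊔ M').map (e : V →ₗ[K] V)) e rfl).finrank_eq.symm

end LinAlg

section Line

variable (K E F : Type*) [Field K] [Field E] [Field F]
  [Algebra K[X] E] [IsFractionRing K[X] E] [Algebra K E] [IsScalarTower K K[X] E]
  [Algebra K F] [Algebra E F] [IsScalarTower K E F] [FiniteDimensional E F]
  [Algebra.IsSeparable E F]

/-- The affine lattice of a divisor. -/
abbrev Mfin (D : Divisor K F) : Submodule K F := latticeOf (F := F) (polyR K E) D

/-- The lattice at infinity of a divisor. -/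
abbrev Minf (D : Divisor K F) : Submodule K F := latticeOf (F := F) (inftyS K E) D

theorem finPair (D : Divisor K F) : FinPair (Mfin K E F D) (Minf K E F D) :=
  (duality_canonicalDiv K E F D).1

/-- `l(D)`, as `h⁰` of the lattice pair. -/
def ell (D : Divisor K F) : ℕ := h0 (Mfin K E F D) (Minf K E F D)

/-- `i(D)`, as `h¹` of the lattice pair. -/
def idx (D : Divisor K F) : ℕ := h1 (Mfin K E F D) (Minf K E F D)

theorem ell_eq (D : Divisor K F) : ell K E F D = Module.finrank K (riemannRochSpace D) :=
  (finrank_riemannRochSpace_eq_h0 K E F D).symm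

theorem idx_eq (D : Divisor K F) : idx K E F D = Module.finrank K (H1 D) :=
  (finrank_H1_eq_h1 K E F D).symm

variable {K E F}

theorem not_mem_inftyS_of_mem_polyR {v : Place K F}
    (hv : v ∈ placesOver (F := F) (polyR K E)) : v ∉ placesOver (F := F) (inftyS K E) := by
  rw [mem_placesOver_inftyS_iff, not_not]
  exact (mem_placesOver_polyR_iff v).mp hv

theorem not_mem_polyR_of_mem_inftyS {v : Place K F}
    (hv : v ∈ placesOver (F := F) (inftyS K E)) : v ∉ placesOver (F := F) (polyR K E) := by
  rw [mem_placesOver_polyR_iff]
  exact (mem_placesOver_inftyS_iff v).mp hv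

theorem mem_polyR_or_mem_inftyS (v : Place K F) :
    v ∈ placesOver (F := F) (polyR K E) ∨ v ∈ placesOver (F := F) (inftyS K E) := by
  rw [mem_placesOver_polyR_iff, mem_placesOver_inftyS_iff]
  exact em _

variable (K E F)

/-- Finiteness of the step quotient and the step formula, at a place of either chart. -/
theorem step (D : Divisor K F) (v : Place K F) :
    Module.Finite K v.ResidueField ∧
      ell K E F (D + Finsupp.single v 1) + idx K E F D =
        ell K E F D + idx K E F (D + Finsupp.single v 1) + v.deg := by
  rcases mem_polyR_or_mem_inftyS (E := E) v with hv | hv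
  · have hle : Mfin K E F D ≤ Mfin K E F (D + Finsupp.single v 1) :=
      latticeOf_mono (le_add_single D v)
    have hinf : Minf K E F (D + Finsupp.single v 1) = Minf K E F D :=
      latticeOf_add_single_of_not_mem _ D (not_mem_inftyS_of_mem_polyR hv)
    have hfin1 : FinPair (Mfin K E F (D + Finsupp.single v 1)) (Minf K E F D) := by
      rw [← hinf]; exact finPair K E F _
    have : Module.Finite K (RelQuot (Mfin K E F D) (Mfin K E F (D + Finsupp.single v 1))) :=
      finite_relQuot_of_finPair hle (Minf K E F D) hfin1 (finPair K E F D)
    have e := stepEquiv (F := F) (polyR K E) D hv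
    refine ⟨Module.Finite.equiv e, ?_⟩
    have key := h0_add_h1_of_le hle (Minf K E F D) (finPair K E F D)
    unfold ell idx
    rw [hinf, key, e.finrank_eq]
    rfl
  · have hle : Minf K E F D ≤ Minf K E F (D + Finsupp.single v 1) :=
      latticeOf_mono (le_add_single D v)
    have hfinE : Mfin K E F (D + Finsupp.single v 1) = Mfin K E F D :=
      latticeOf_add_single_of_not_mem _ D (not_mem_polyR_of_mem_inftyS hv)
    have hfin1 : FinPair (Mfin K E F D) (Minf K E F (D + Finsupp.single v 1)) := by
      rw [← hfinE]; exact finPair K E F _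
    have : Module.Finite K (RelQuot (Minf K E F D) (Minf K E F (D + Finsupp.single v 1))) :=
      finite_relQuot_of_finPair_right hle (Mfin K E F D) hfin1 (finPair K E F D)
    have e := stepEquiv (F := F) (inftyS K E) D hv
    refine ⟨Module.Finite.equiv e, ?_⟩
    have key := h0_add_h1_of_le_right hle (Mfin K E F D) (finPair K E F D)
    unfold ell idx
    rw [hfinE, key, e.finrank_eq]
    rfl

include E in
/-- Every place has a residue field finite over `K`. -/
theorem finiteResidue (v : Place K F) : v.FiniteResidue :=
  ⟨(step K E F 0 v).1⟩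

/-- The Euler characteristic `l(D) - i(D)` of the lattice pair. -/
def chi (D : Divisor K F) : ℤ := (ell K E F D : ℤ) - idx K E F D

theorem chi_add_single_one (D : Divisor K F) (v : Place K F) :
    chi K E F (D + Finsupp.single v 1) = chi K E F D + v.deg := by
  have := (step K E F D v).2
  unfold chi
  omega

theorem chi_add_single (D : Divisor K F) (v : Place K F) (n : ℤ) :
    chi K E F (D + Finsupp.single v n) = chi K E F D + n * v.deg := by
  induction n using Int.induction_on with
  | zero => simp
  | succ n ih =>
    have e : D + Finsupp.single v ((n : ℤ) + 1) =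
        (D + Finsupp.single v (n : ℤ)) + Finsupp.single v 1 := by
      rw [Finsupp.single_add, add_assoc]
    rw [e, chi_add_single_one, ih]
    ring
  | pred n ih =>
    have e : D + Finsupp.single v (-(n : ℤ)) =
        (D + Finsupp.single v (-(n : ℤ) - 1)) + Finsupp.single v 1 := by
      rw [add_assoc, ← Finsupp.single_add, sub_add_cancel]
    have h := chi_add_single_one K E F (D + Finsupp.single v (-(n : ℤ) - 1)) v
    rw [← e, ih] at h
    linear_combination -h

theorem chi_add (D E' : Divisor K F) :
    chi K E F (D + E') = chi K E F D + Divisor.degree E' := by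
  induction E' using Finsupp.induction_linear generalizing D with
  | zero => simp
  | add f g hf hg => rw [← add_assoc, hg, hf, map_add]; ring
  | single v n => rw [chi_add_single, Divisor.degree_single]

/-- **Riemann's theorem** for the lattice pair: `χ(D) = χ(0) + deg D`. -/
theorem chi_eq (D : Divisor K F) : chi K E F D = chi K E F 0 + Divisor.degree D := by
  have := chi_add K E F 0 D
  rwa [zero_add] at this

include E in
/-- **Riemann's theorem** in the Prelude's language: `l(D) - i(D) = deg D + l(0) - g`, for every
function field `F` finite separable over `K(x)`, `K` any field. -/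
theorem riemann (D : Divisor K F) :
    (Module.finrank K (riemannRochSpace D) : ℤ) - Module.finrank K (H1 D) =
      Divisor.degree D + Module.finrank K (riemannRochSpace (0 : Divisor K F)) - genusFF K F := by
  have h := chi_eq K E F D
  unfold chi at h
  rw [ell_eq, idx_eq, ell_eq, idx_eq] at h
  unfold genusFF
  linear_combination h

/-- **The Riemann–Roch theorem** in the Prelude's language:
`l(D) = deg D + l(0) - g + l(W_x - D)`. -/
theorem riemannRoch (D : Divisor K F) :
    (Module.finrank K (riemannRochSpace D) : ℤ) =
      Divisor.degree D + Module.finrank K (riemannRochSpace (0 : Divisor K F)) - genusFF K F +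
        Module.finrank K (riemannRochSpace (canonicalDiv K E F - D)) := by
  have h := riemann K E F D
  rw [finrank_H1_eq K E F D] at h
  linear_combination h

/-- The degree of the canonical divisor: `deg W_x = 2g - 2 l(0)`. -/
theorem degree_canonicalDiv :
    Divisor.degree (canonicalDiv K E F) =
      2 * (genusFF K F : ℤ) - 2 * Module.finrank K (riemannRochSpace (0 : Divisor K F)) := by
  have h := riemannRoch K E F (canonicalDiv K E F)
  rw [sub_self, ← genusFF_eq_finrank_canonical K E F] at h
  linear_combination -h

/-! ### Principal divisors -/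

include E in
/-- A nonzero function has finitely many zeros and poles. -/
theorem finite_support_ord (f : F) :
    (Function.support fun v : Place K F => v.ord f).Finite := by
  refine ((finite_poles K E F f).union (finite_poles K E F f⁻¹)).subset ?_
  intro v hv
  have hv' : v.ord f ≠ 0 := hv
  rcases lt_or_gt_of_ne hv' with h | h
  · left
    exact v.not_adicValuation_le_one_iff.mpr h
  · right
    refine v.not_adicValuation_le_one_iff.mpr ?_
    rw [v.ord_inv]
    omega

/-- The divisor of a function. -/
def divOf (f : F) : Divisor K F :=
  Finsupp.ofSupportFinite (fun v : Place K F => v.ord f) (finite_support_ord K E F f)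

theorem divOf_apply (f : F) (v : Place K F) : divOf K E F f v = v.ord f := rfl

variable {K E F} in
/-- Multiplication by a nonzero function, as a `K`-linear automorphism of `F`. -/
def mulEquiv {f : F} (hf : f ≠ 0) : F ≃ₗ[K] F where
  toFun g := f * g
  invFun g := f⁻¹ * g
  map_add' g h := mul_add f g h
  map_smul' c g := by simp
  left_inv g := by simp [← mul_assoc, inv_mul_cancel₀ hf]
  right_inv g := by simp [← mul_assoc, mul_inv_cancel₀ hf]

variable {K E F} in
/-- Multiplication by `f` maps the lattice of `D + div f` onto the lattice of `D`. -/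
theorem map_mulEquiv_latticeOf (A : Subalgebra K E) [IsDedekindDomain A] [IsFractionRing A E]
    {f : F} (hf : f ≠ 0) (D Df : Divisor K F) (hDf : ∀ v, Df v = v.ord f) :
    (latticeOf (F := F) A (D + Df)).map ((mulEquiv (K := K) hf : F ≃ₗ[K] F) : F →ₗ[K] F) =
      latticeOf A D := by
  ext g
  rw [Submodule.mem_map_equiv, mem_latticeOf_iff, mem_latticeOf_iff]
  refine forall₂_congr fun v _ => ?_
  have e : (mulEquiv (K := K) hf).symm g = f⁻¹ * g := rfl
  rw [e]
  by_cases hg : g = 0
  · simp [hg]
  · have h1 : f⁻¹ * g ≠ 0 := mul_ne_zero (inv_ne_zero hf) hg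
    rw [or_iff_right h1, or_iff_right hg, v.ord_mul (inv_ne_zero hf) hg, v.ord_inv,
      Finsupp.add_apply, hDf v]
    constructor <;> intro h <;> omega

theorem ell_add_of_ord {f : F} (hf : f ≠ 0) (D Df : Divisor K F) (hDf : ∀ v, Df v = v.ord f) :
    ell K E F (D + Df) = ell K E F D := by
  unfold ell Mfin Minf
  rw [← map_mulEquiv_latticeOf (polyR K E) hf D Df hDf,
    ← map_mulEquiv_latticeOf (inftyS K E) hf D Df hDf, h0_map]

theorem idx_add_of_ord {f : F} (hf : f ≠ 0) (D Df : Divisor K F) (hDf : ∀ v, Df v = v.ord f) :
    idx K E F (D + Df) = idx K E F D := by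
  unfold idx Mfin Minf
  rw [← map_mulEquiv_latticeOf (polyR K E) hf D Df hDf,
    ← map_mulEquiv_latticeOf (inftyS K E) hf D Df hDf, h1_map]

include E in
/-- Principal divisors have degree zero. -/
theorem degree_eq_zero_of_ord {f : F} (hf : f ≠ 0) (Df : Divisor K F)
    (hDf : ∀ v, Df v = v.ord f) : Divisor.degree Df = 0 := by
  have h := chi_add K E F 0 Df
  unfold chi at h
  rw [ell_add_of_ord K E F hf 0 Df hDf, idx_add_of_ord K E F hf 0 Df hDf] at h
  linarith

include E in
/-- Every nonzero function has a divisor, of degree zero. -/
theorem hasPrincipalDivisors : HasPrincipalDivisors K F :=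
  ⟨fun f hf => ⟨divOf K E F f, divOf_apply K E F f,
    degree_eq_zero_of_ord K E F hf _ (divOf_apply K E F f)⟩⟩

/-! ### Existence of places -/

include E in
theorem not_finite : ¬ Module.Finite K F := by
  intro h
  have halg : Algebra.IsAlgebraic K F := Algebra.IsAlgebraic.of_finite K F
  obtain ⟨p, hp0, hp⟩ := halg.isAlgebraic (xF K E F)
  rw [← algebraMap_poly_eq_aeval, map_eq_zero] at hp
  exact hp0 (algebraMap_injective' (k := K) (E := E) (by rw [hp, map_zero]))

include E in
/-- A function field has a place. -/
theorem nonempty_place : Nonempty (Place K F) := by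
  by_contra hne
  rw [not_nonempty_iff] at hne
  have htop : riemannRochSpace (0 : Divisor K F) = ⊤ := by
    rw [eq_top_iff]
    intro f _ v
    exact (hne.false v).elim
  have hfin := finite_riemannRochSpace K E F (0 : Divisor K F)
  rw [htop] at hfin
  exact not_finite K E F (Module.Finite.equiv (Submodule.topEquiv (R := K) (M := F)))

end Line

end Fermat.Agent.S20.RR.CurveOfSeparable
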