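/-
helper67 — P-S20 (Riemann–Roch for S20), Part III.

Bridge between the canonical divisor `SerreDuality.canonicalDiv` and helper30's
`Canonical.canonicalX` (same divisor `W_x = Diff(F / K(x)) - 2 (x)_∞`, two constructions), and
Serre duality restated for `canonicalX`.
-/
import Fermat.Agent.S20.RR.SerreDuality
import Fermat.Agent.S20.RR.Canonical

set_option autoImplicit false
set_option linter.unusedSectionVars false

noncomputable section

namespace Fermat.Agent.S20.RR.SerreDualityX

open AlgebraicCurve IsDedekindDomain IsDedekindDomain.HeightOneSpectrum Polynomial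
open Fermat.Agent.S20.RR.LineDataFrac Fermat.Agent.S20.RR.Dictionary
open Fermat.Agent.S20.RR.SerreDuality Fermat.Agent.S20.RR.Canonical

variable (K E F : Type*) [Field K] [Field E] [Field F]
  [Algebra K[X] E] [IsFractionRing K[X] E] [Algebra K E] [IsScalarTower K K[X] E]
  [Algebra K F] [Algebra E F] [IsScalarTower K E F] [FiniteDimensional E F]
  [Algebra.IsSeparable E F]

/-- The two constructions of the canonical divisor of the coordinate `x` agree. -/
theorem canonicalDiv_eq_canonicalX : canonicalDiv K E F = canonicalX K E F := by
  ext v
  by_cases h : xF K E F ∈ v.toValuationSubring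
  · have hv := (mem_placesOver_polyR_iff v).mpr h
    rw [canonicalDiv_of_mem K E F h, canonicalX_apply_of_polyR v hv,
      diffExp_eq_count_differentIdeal]
  · have hv := (mem_placesOver_inftyS_iff v).mpr h
    rw [canonicalDiv_of_not_mem K E F h, canonicalX_apply_of_inftyS v hv,
      ramificationIdx_eq_neg_ord v hv, diffExp_eq_count_differentIdeal]
    ring

/-- **Serre duality** for `canonicalX`: `dim H¹(D) = dim L(W_x - D)`. -/
theorem finrank_H1_eq_canonicalX (D : Divisor K F) :
    Module.finrank K (H1 D) = Module.finrank K (riemannRochSpace (canonicalX K E F - D)) := by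
  rw [← canonicalDiv_eq_canonicalX]
  exact finrank_H1_eq K E F D

/-- **Serre duality** for `canonicalX`, second form: `dim L(D) = dim H¹(W_x - D)`. -/
theorem finrank_riemannRochSpace_eq_canonicalX (D : Divisor K F) :
    Module.finrank K (riemannRochSpace D) = Module.finrank K (H1 (canonicalX K E F - D)) := by
  rw [← canonicalDiv_eq_canonicalX]
  exact finrank_riemannRochSpace_eq K E F D

theorem genusFF_eq_finrank_canonicalX :
    genusFF K F = Module.finrank K (riemannRochSpace (canonicalX K E F)) := by
  rw [← canonicalDiv_eq_canonicalX]
  exact genusFF_eq_finrank_canonical K E F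

end Fermat.Agent.S20.RR.SerreDualityX
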